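import Mathlib

/-!
# GATE-L / COND-LOCAL : the conductor hypothesis of `(LOC)` at a point of the fibre (helper29)

helper35's `LocOfReg.loc_of_chars` / `loc_of_multibranch` need, at a maximal ideal `𝔫` of `B2`,

  `hcond : ∀ z ∈ (⨅ i, RingHom.ker (χ i)) ^ N, ∃ b : B2, c₀ * z - b ∈ 𝔯`   (ONE `c₀ ∉ 𝔫`).

This file produces it from a CONDUCTOR of finite codimension (Mathlib only):

* `isIntegral_of_finite_quotient` : `D` is integral over every subalgebra `Rt` containing an ideal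
  `𝔠` of `D` with `D ⧸ 𝔠` finite-dimensional;
* `exists_sub_one_mem_mul_pow_mem` : Nakayama in the artinian quotient `D ⧸ 𝔠`: for every ideal
  `I` there are `N` and `c' ≡ 1 mod I` with `c' · I ^ N ⊆ 𝔠`;
* `exists_algHom_ker_eq` : a maximal ideal containing `𝔠` is the kernel of a character
  (`k` algebraically closed);
* `exists_mul_pow_mem` : `ψ i` = ALL the characters of `D` over a character `χ₀` of `Rt`
  ⟹ `∃ N, ∃ c₀ ∈ Rt, χ₀ c₀ ≠ 0 ∧ c₀ · (⨅ i, ker ψ i) ^ N ⊆ 𝔠`;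
* `exists_algHom_over` : every character of `Rt` extends to `D` (lying over);
* `hcond_of_conductor` : the transfer along `rd : B →+* D` (`ker rd ⊆ 𝔯`, `rd '' B2 = Rt`) to the
  `hcond` shape VERBATIM;
* `finite_quotient_pow` : `C ⧸ I` finite-dimensional, `I` f.g. ⟹ `C ⧸ I ^ n` finite-dimensional.
-/

set_option autoImplicit false

namespace Fermat.Agent.GL.CondLocal

open Polynomial

variable {k D : Type*} [Field k] [CommRing D] [Algebra k D]

/-- `D` is integral over any subalgebra containing an ideal of finite codimension. -/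
theorem isIntegral_of_finite_quotient (Rt : Subalgebra k D) (𝔠 : Ideal D)
    (h𝔠 : ∀ x ∈ 𝔠, x ∈ Rt) [Module.Finite k (D ⧸ 𝔠)] (d : D) : IsIntegral Rt d := by
  rcases subsingleton_or_nontrivial D with hD | hD
  · exact ⟨0, Subsingleton.elim _ _, Subsingleton.elim _ _⟩
  have hint : IsIntegral k (Ideal.Quotient.mk 𝔠 d) := Algebra.IsIntegral.isIntegral _
  obtain ⟨p, hp, hp0⟩ := hint
  -- `aeval d p ∈ 𝔠`
  have h1 : aeval d p ∈ 𝔠 := by
    rw [← Ideal.Quotient.eq_zero_iff_mem]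
    have : Ideal.Quotient.mk 𝔠 (aeval d p) = aeval (Ideal.Quotient.mk 𝔠 d) p := by
      have := Polynomial.aeval_algHom_apply (Ideal.Quotient.mkₐ k 𝔠) d p
      simpa using this.symm
    rw [this]
    simpa [aeval_def] using hp0
  have h2 : aeval d (p * X) ∈ 𝔠 := by
    rw [map_mul, aeval_X]
    exact Ideal.mul_mem_right _ _ h1
  let r : Rt := ⟨aeval d (p * X), h𝔠 _ h2⟩
  have hmon : (p * X).Monic := hp.mul monic_X
  have hdeg : (C r : Rt[X]).degree < ((p * X).map (algebraMap k Rt)).degree := by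
    rw [Polynomial.degree_map]
    refine lt_of_le_of_lt degree_C_le ?_
    rw [degree_mul_X]
    have : (0 : WithBot ℕ) ≤ p.degree := by
      rw [Polynomial.degree_eq_natDegree hp.ne_zero]
      exact_mod_cast Nat.zero_le _
    calc (0 : WithBot ℕ) < 1 := by norm_num
      _ ≤ p.degree + 1 := le_add_of_nonneg_left this
  refine ⟨(p * X).map (algebraMap k Rt) - C r, (hmon.map _).sub_of_left hdeg, ?_⟩
  rw [eval₂_sub, eval₂_C, eval₂_map]
  have : (algebraMap Rt D).comp (algebraMap k Rt) = algebraMap k D := by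
    ext x; rfl
  rw [this, ← aeval_def]
  exact sub_self _

/-- **Nakayama in the artinian quotient.**  `D ⧸ 𝔠` finite-dimensional, `I` any ideal of `D`:
there are `N` and `c' ≡ 1 mod I` with `c' · I ^ N ⊆ 𝔠`. -/
theorem exists_sub_one_mem_mul_pow_mem (𝔠 I : Ideal D) [Module.Finite k (D ⧸ 𝔠)] :
    ∃ N : ℕ, ∃ c' : D, c' - 1 ∈ I ∧ ∀ z ∈ I ^ N, c' * z ∈ 𝔠 := by
  have hart : IsArtinianRing (D ⧸ 𝔠) := IsArtinianRing.of_finite k (D ⧸ 𝔠)
  let π : D →+* D ⧸ 𝔠 := Ideal.Quotient.mk 𝔠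
  have hπ : Function.Surjective π := Ideal.Quotient.mk_surjective
  let Ibar : Ideal (D ⧸ 𝔠) := I.map π
  -- the powers of `Ibar` stabilise
  let f : ℕ →o (Submodule (D ⧸ 𝔠) (D ⧸ 𝔠))ᵒᵈ :=
    ⟨fun n => OrderDual.toDual (Ibar ^ n), fun a b hab =>
      OrderDual.toDual_le_toDual.2 (Ideal.pow_le_pow_right hab)⟩
  obtain ⟨N, hN⟩ := IsArtinian.monotone_stabilizes f
  have hst : Ibar ^ N = Ibar ^ (N + 1) := by
    have := hN (N + 1) (Nat.le_succ N)
    exact OrderDual.toDual.injective this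
  obtain ⟨rbar, hr1, hr0⟩ := Submodule.exists_sub_one_mem_and_smul_eq_zero_of_fg_of_le_smul Ibar
    (Ibar ^ N) (IsNoetherian.noetherian _) (by
      conv_lhs => rw [hst, pow_succ']
      exact le_of_eq rfl)
  obtain ⟨a, ha, har⟩ := (Ideal.mem_map_iff_of_surjective π hπ).1 hr1
  refine ⟨N, 1 + a, by simpa using ha, fun z hz => ?_⟩
  rw [← Ideal.Quotient.eq_zero_iff_mem, map_mul, map_add, map_one]
  have hz' : π z ∈ Ibar ^ N := by
    rw [← Ideal.map_pow]
    exact Ideal.mem_map_of_mem π hz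
  have := hr0 _ hz'
  rw [smul_eq_mul] at this
  have e : (1 : D ⧸ 𝔠) + π a = rbar := by rw [har]; ring
  change ((1 : D ⧸ 𝔠) + π a) * π z = 0
  rw [e]
  exact this

/-- a maximal ideal with residue field integral over `k` is the kernel of a character
(`k` algebraically closed). -/
theorem exists_algHom_ker_eq_of_isIntegral [IsAlgClosed k] (Q : Ideal D) (hQ : Q.IsMaximal)
    (hint : Algebra.IsIntegral k (D ⧸ Q)) : ∃ φ : D →ₐ[k] k, ∀ x : D, φ x = 0 ↔ x ∈ Q := by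
  let _ : Field (D ⧸ Q) := Ideal.Quotient.field Q
  have hbij : Function.Bijective (algebraMap k (D ⧸ Q)) :=
    IsAlgClosed.algebraMap_bijective_of_isIntegral
  let e : k ≃ₐ[k] (D ⧸ Q) := AlgEquiv.ofBijective (Algebra.ofId k (D ⧸ Q)) hbij
  refine ⟨(e.symm : (D ⧸ Q) →ₐ[k] k).comp (Ideal.Quotient.mkₐ k Q), fun x => ?_⟩
  rw [AlgHom.comp_apply]
  change e.symm (Ideal.Quotient.mk Q x) = 0 ↔ x ∈ Q
  rw [map_eq_zero_iff _ e.symm.injective, Ideal.Quotient.eq_zero_iff_mem]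

/-- a maximal ideal containing `𝔠` is the kernel of a character (`k` algebraically closed). -/
theorem exists_algHom_ker_eq [IsAlgClosed k] (𝔠 : Ideal D) [Module.Finite k (D ⧸ 𝔠)]
    (Q : Ideal D) (hQ : Q.IsMaximal) (h𝔠Q : 𝔠 ≤ Q) :
    ∃ φ : D →ₐ[k] k, ∀ x : D, φ x = 0 ↔ x ∈ Q := by
  have hfin : Module.Finite k (D ⧸ Q) :=
    Module.Finite.of_surjective (Ideal.Quotient.factorₐ k h𝔠Q).toLinearMap
      (Ideal.Quotient.factor_surjective h𝔠Q)
  exact exists_algHom_ker_eq_of_isIntegral Q hQ (Algebra.IsIntegral.of_finite k (D ⧸ Q))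

/-- **lying over for characters**: every character of `Rt` extends to `D`. -/
theorem exists_algHom_over [IsAlgClosed k] (Rt : Subalgebra k D) (𝔠 : Ideal D)
    (h𝔠 : ∀ x ∈ 𝔠, x ∈ Rt) [Module.Finite k (D ⧸ 𝔠)] (χ₀ : Rt →ₐ[k] k) :
    ∃ φ : D →ₐ[k] k, ∀ r : Rt, φ r = χ₀ r := by
  let n : Ideal Rt := RingHom.ker (χ₀ : Rt →+* k)
  have hsurj : Function.Surjective (χ₀ : Rt →+* k) := fun x =>
    ⟨algebraMap k Rt x, by simp⟩
  have hn : n.IsMaximal := RingHom.ker_isMaximal_of_surjective _ hsurj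
  have hintg : Algebra.IsIntegral Rt D := ⟨isIntegral_of_finite_quotient Rt 𝔠 h𝔠⟩
  have hker : RingHom.ker (algebraMap Rt D) ≤ n := by
    intro x hx
    have h1 : (x : D) = 0 := hx
    have h2 : x = 0 := Subtype.ext h1
    rw [h2]
    exact n.zero_mem
  obtain ⟨Q, hQ, hQn⟩ := Ideal.exists_ideal_over_maximal_of_isIntegral (S := D) n hker
  -- `r ≡ χ₀ r` modulo `Q`
  have hmod : ∀ r : Rt, (r : D) - algebraMap k D (χ₀ r) ∈ Q := by
    intro r
    have h1 : r - algebraMap k Rt (χ₀ r) ∈ n := by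
      rw [RingHom.mem_ker]
      simp
    have h2 : r - algebraMap k Rt (χ₀ r) ∈ Ideal.comap (algebraMap Rt D) Q := by
      rw [hQn]; exact h1
    have h4 : ((r - algebraMap k Rt (χ₀ r) : Rt) : D) = (r : D) - algebraMap k D (χ₀ r) := by
      push_cast
      rfl
    rw [← h4]
    exact h2
  have hint : Algebra.IsIntegral k (D ⧸ Q) := by
    refine ⟨fun x => ?_⟩
    obtain ⟨d, rfl⟩ := Ideal.Quotient.mk_surjective x
    obtain ⟨p, hp, hp0⟩ := isIntegral_of_finite_quotient Rt 𝔠 h𝔠 d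
    refine ⟨p.map (χ₀ : Rt →+* k), hp.map _, ?_⟩
    rw [Polynomial.eval₂_map]
    have hcomp : (algebraMap k (D ⧸ Q)).comp (χ₀ : Rt →+* k)
        = (Ideal.Quotient.mk Q).comp (algebraMap Rt D) := by
      ext r
      simp only [RingHom.comp_apply]
      symm
      rw [← sub_eq_zero]
      have := hmod r
      rw [← Ideal.Quotient.eq_zero_iff_mem, map_sub] at this
      exact this
    rw [hcomp, ← Polynomial.hom_eval₂, hp0, map_zero]
  obtain ⟨φ, hφ⟩ := exists_algHom_ker_eq_of_isIntegral Q hQ hint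
  refine ⟨φ, fun r => ?_⟩
  have := (hφ _).2 (hmod r)
  rw [map_sub, AlgHom.commutes, sub_eq_zero] at this
  simpa using this

/-- **the conductor at a point.**  `Rt ≤ D` containing an ideal `𝔠` of `D` of finite
codimension, `χ₀` a character of `Rt`, and `ψ i` a family of characters of `D` containing ALL the
characters over `χ₀`.  Then ONE `c₀ ∈ Rt` off the point `χ₀` multiplies a power of
`⨅ i, ker (ψ i)` into `𝔠`. -/
theorem exists_mul_pow_mem [IsAlgClosed k] (Rt : Subalgebra k D) (𝔠 : Ideal D)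
    (h𝔠 : ∀ x ∈ 𝔠, x ∈ Rt) [Module.Finite k (D ⧸ 𝔠)] (χ₀ : Rt →ₐ[k] k)
    {ι : Type*} (ψ : ι → D →ₐ[k] k)
    (hex : ∀ φ : D →ₐ[k] k, (∀ r : Rt, φ r = χ₀ r) → ∃ i, φ = ψ i) :
    ∃ N : ℕ, ∃ c₀ : Rt, χ₀ c₀ ≠ 0 ∧
      ∀ z ∈ (⨅ i, RingHom.ker (ψ i : D →+* k)) ^ N, (c₀ : D) * z ∈ 𝔠 := by
  set I : Ideal D := ⨅ i, RingHom.ker (ψ i : D →+* k) with hI
  obtain ⟨N, c', hc'1, hc'⟩ := exists_sub_one_mem_mul_pow_mem (k := k) 𝔠 I
  refine ⟨N, ?_⟩
  by_contra hcon
  push Not at hcon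
  -- the annihilator of `I ^ N` modulo `𝔠`
  let 𝔟 : Ideal D :=
    { carrier := {d | ∀ z ∈ I ^ N, d * z ∈ 𝔠}
      add_mem' := fun {a b} ha hb z hz => by
        rw [add_mul]; exact 𝔠.add_mem (ha z hz) (hb z hz)
      zero_mem' := fun z _ => by rw [zero_mul]; exact 𝔠.zero_mem
      smul_mem' := fun c d hd z hz => by
        rw [smul_eq_mul, mul_assoc]; exact 𝔠.mul_mem_left c (hd z hz) }
  have h𝔠𝔟 : 𝔠 ≤ 𝔟 := fun d hd z _ => 𝔠.mul_mem_right z hd
  have hc'𝔟 : c' ∈ 𝔟 := hc'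
  let n : Ideal Rt := RingHom.ker (χ₀ : Rt →+* k)
  have hsurj : Function.Surjective (χ₀ : Rt →+* k) := fun x =>
    ⟨algebraMap k Rt x, by simp⟩
  have hn : n.IsMaximal := RingHom.ker_isMaximal_of_surjective _ hsurj
  have hle : Ideal.comap (algebraMap Rt D) 𝔟 ≤ n := by
    intro r hr
    by_contra hrn
    have hr0 : χ₀ r ≠ 0 := fun h => hrn ((RingHom.mem_ker).2 h)
    obtain ⟨z, hz, hz'⟩ := hcon r hr0
    exact hz' (hr z hz)
  have hintg : Algebra.IsIntegral Rt D := ⟨isIntegral_of_finite_quotient Rt 𝔠 h𝔠⟩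
  have hnp : n.IsPrime := hn.isPrime
  obtain ⟨Q, hQ𝔟, hQp, hQn⟩ := Ideal.exists_ideal_over_prime_of_isIntegral n 𝔟 hle
  have hQmax : Q.IsMaximal :=
    Ideal.isMaximal_of_isIntegral_of_isMaximal_comap (R := Rt) Q (hQn ▸ hn)
  obtain ⟨φ, hφ⟩ := exists_algHom_ker_eq (k := k) 𝔠 Q hQmax (le_trans h𝔠𝔟 hQ𝔟)
  have hφχ : ∀ r : Rt, φ r = χ₀ r := by
    intro r
    have h1 : r - algebraMap k Rt (χ₀ r) ∈ n := by
      rw [RingHom.mem_ker]
      simp
    have h2 : ((r - algebraMap k Rt (χ₀ r) : Rt) : D) ∈ Q := by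
      have : r - algebraMap k Rt (χ₀ r) ∈ Ideal.comap (algebraMap Rt D) Q := by rw [hQn]; exact h1
      exact this
    have h3 := (hφ _).2 h2
    have h4 : ((r - algebraMap k Rt (χ₀ r) : Rt) : D) = (r : D) - algebraMap k D (χ₀ r) := by
      push_cast
      rfl
    rw [h4, map_sub, AlgHom.commutes, sub_eq_zero] at h3
    simpa using h3
  obtain ⟨i, hi⟩ := hex φ hφχ
  have h0 : φ c' = 0 := (hφ c').2 (hQ𝔟 hc'𝔟)
  have h1 : φ (c' - 1) = 0 := by
    have : c' - 1 ∈ RingHom.ker (ψ i : D →+* k) := (Ideal.mem_iInf.1 hc'1) i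
    rw [hi]
    exact (RingHom.mem_ker).1 this
  rw [map_sub, h0, map_one, zero_sub, neg_eq_zero] at h1
  exact one_ne_zero (α := k) h1

/-- **`hcond` of helper35's `LocOfReg.loc_of_chars`, VERBATIM**, from a conductor of finite
codimension.  `rd : B →+* D` the reduction (kernel inside `𝔯`), `Rt = rd '' B2`, `χ₀` the
character of `Rt` at the point `𝔫`, `ψ i` ALL the characters of `D` over it; the branch
characters of `loc_of_chars` are `χ i = (ψ i).comp rd`. -/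
theorem hcond_of_conductor [IsAlgClosed k] {B : Type*} [CommRing B] (B2 : Subring B)
    (𝔯 : Ideal B) (𝔫 : Ideal B2) (rd : B →+* D) (hker : ∀ z : B, rd z = 0 → z ∈ 𝔯)
    (Rt : Subalgebra k D) (hB2 : ∀ b : B2, rd (b : B) ∈ Rt)
    (hRt : ∀ r ∈ Rt, ∃ b : B2, rd (b : B) = r)
    (𝔠 : Ideal D) (h𝔠 : ∀ x ∈ 𝔠, x ∈ Rt) [Module.Finite k (D ⧸ 𝔠)] (χ₀ : Rt →ₐ[k] k)
    (h𝔫 : ∀ b : B2, b ∈ 𝔫 → χ₀ ⟨rd (b : B), hB2 b⟩ = 0)
    {ι : Type*} (ψ : ι → D →ₐ[k] k)
    (hex : ∀ φ : D →ₐ[k] k, (∀ r : Rt, φ r = χ₀ r) → ∃ i, φ = ψ i) :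
    ∃ N : ℕ, ∃ c₀ : B2, c₀ ∉ 𝔫 ∧
      ∀ z ∈ (⨅ i, RingHom.ker ((ψ i : D →+* k).comp rd)) ^ N,
        ∃ b : B2, (c₀ : B) * z - (b : B) ∈ 𝔯 := by
  obtain ⟨N, c₀, hc₀, h⟩ := exists_mul_pow_mem Rt 𝔠 h𝔠 χ₀ ψ hex
  obtain ⟨c, hc⟩ := hRt c₀ c₀.2
  refine ⟨N, c, ?_, ?_⟩
  · intro hc𝔫
    apply hc₀
    have := h𝔫 c hc𝔫
    have e : (⟨rd (c : B), hB2 c⟩ : Rt) = c₀ := Subtype.ext hc
    rwa [e] at this
  · intro z hz
    have hle : Ideal.map rd (⨅ i, RingHom.ker ((ψ i : D →+* k).comp rd))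
        ≤ ⨅ i, RingHom.ker (ψ i : D →+* k) := by
      rw [Ideal.map_le_iff_le_comap]
      intro x hx
      rw [Ideal.mem_comap, Ideal.mem_iInf]
      intro i
      have := (Ideal.mem_iInf.1 hx) i
      exact this
    have hz' : rd z ∈ (⨅ i, RingHom.ker (ψ i : D →+* k)) ^ N := by
      have h1 : rd z ∈ Ideal.map rd ((⨅ i, RingHom.ker ((ψ i : D →+* k).comp rd)) ^ N) :=
        Ideal.mem_map_of_mem rd hz
      rw [Ideal.map_pow] at h1
      exact Ideal.pow_right_mono hle N h1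
    obtain ⟨b, hb⟩ := hRt _ (h𝔠 _ (h _ hz'))
    refine ⟨b, hker _ ?_⟩
    rw [map_sub, map_mul, hb, hc, sub_self]

/-- `C ⧸ I` finite-dimensional and `I` finitely generated ⟹ `C ⧸ I ^ n` finite-dimensional. -/
theorem finite_quotient_pow {C : Type*} [CommRing C] [Algebra k C] (I : Ideal C) (hI : I.FG)
    [Module.Finite k (C ⧸ I)] (n : ℕ) : Module.Finite k (C ⧸ I ^ n) := by
  induction n with
  | zero =>
    have : Subsingleton (C ⧸ I ^ 0) := by
      rw [pow_zero, Ideal.one_eq_top]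
      exact Ideal.Quotient.subsingleton_iff.2 rfl
    infer_instance
  | succ n ih =>
    classical
    obtain ⟨S, hS⟩ := Submodule.FG.pow hI n
    obtain ⟨T, hT⟩ := (Module.Finite.fg_top : (⊤ : Submodule k (C ⧸ I)).FG)
    obtain ⟨U, hU⟩ := (Module.Finite.fg_top : (⊤ : Submodule k (C ⧸ I ^ n)).FG)
    choose e he using fun q : C ⧸ I => Ideal.Quotient.mk_surjective q
    choose f hf using fun q : C ⧸ I ^ n => Ideal.Quotient.mk_surjective q
    let π : C →ₗ[k] C ⧸ I ^ (n + 1) := (Ideal.Quotient.mkₐ k (I ^ (n + 1))).toLinearMap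
    have hπ0 : ∀ y ∈ I ^ (n + 1), π y = 0 := fun y hy =>
      (Ideal.Quotient.eq_zero_iff_mem).2 hy
    let W : Finset (C ⧸ I ^ (n + 1)) :=
      (T ×ˢ S).image (fun p : (C ⧸ I) × C => π (e p.1 * p.2)) ∪ U.image (fun u => π (f u))
    have hW1 : ∀ t ∈ T, ∀ s ∈ S, π (e t * s) ∈ Submodule.span k (W : Set (C ⧸ I ^ (n + 1))) := by
      intro t ht s hs
      refine Submodule.subset_span ?_
      rw [Finset.mem_coe, Finset.mem_union]
      left
      exact Finset.mem_image.2 ⟨(t, s), Finset.mem_product.2 ⟨ht, hs⟩, rfl⟩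
    have hW2 : ∀ u ∈ U, π (f u) ∈ Submodule.span k (W : Set (C ⧸ I ^ (n + 1))) := by
      intro u hu
      refine Submodule.subset_span ?_
      rw [Finset.mem_coe, Finset.mem_union]
      right
      exact Finset.mem_image.2 ⟨u, hu, rfl⟩
    have hSI : ∀ s ∈ S, s ∈ I ^ n := fun s hs => hS ▸ Submodule.subset_span hs
    -- (a)
    have ha : ∀ c : C, ∀ s ∈ S, π (c * s) ∈ Submodule.span k (W : Set (C ⧸ I ^ (n + 1))) := by
      intro c s hs
      have h1 : Ideal.Quotient.mk I c ∈ Submodule.span k (T : Set (C ⧸ I)) := by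
        rw [hT]; trivial
      obtain ⟨a, -, ha⟩ := Submodule.mem_span_finset.1 h1
      set c' : C := ∑ t ∈ T, a t • e t with hc'
      have h2 : c - c' ∈ I := by
        rw [← Ideal.Quotient.eq_zero_iff_mem, map_sub, ← ha, hc', map_sum, sub_eq_zero]
        refine Finset.sum_congr rfl fun t _ => ?_
        have : Ideal.Quotient.mk I (a t • e t) = a t • Ideal.Quotient.mk I (e t) := by
          rw [Algebra.smul_def, Algebra.smul_def, map_mul]
          rfl
        rw [this, he]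
      have h3 : (c - c') * s ∈ I ^ (n + 1) := by
        rw [pow_succ']
        exact Ideal.mul_mem_mul h2 (hSI s hs)
      have h4 : π (c * s) = π (c' * s) := by
        have := hπ0 _ h3
        rw [sub_mul, map_sub, sub_eq_zero] at this
        exact this
      rw [h4, hc', Finset.sum_mul, map_sum]
      refine Submodule.sum_mem _ fun t ht => ?_
      rw [smul_mul_assoc, map_smul]
      exact Submodule.smul_mem _ _ (hW1 t ht s hs)
    -- (b)
    have hb : ∀ y ∈ I ^ n, π y ∈ Submodule.span k (W : Set (C ⧸ I ^ (n + 1))) := by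
      intro y hy
      rw [← hS] at hy
      obtain ⟨c, -, hc⟩ := Submodule.mem_span_finset.1 hy
      rw [← hc, map_sum]
      refine Submodule.sum_mem _ fun s hs => ?_
      rw [smul_eq_mul]
      exact ha _ s hs
    -- (c)
    have hc : ∀ c : C, π c ∈ Submodule.span k (W : Set (C ⧸ I ^ (n + 1))) := by
      intro c
      have h1 : Ideal.Quotient.mk (I ^ n) c ∈ Submodule.span k (U : Set (C ⧸ I ^ n)) := by
        rw [hU]; trivial
      obtain ⟨b, -, hb'⟩ := Submodule.mem_span_finset.1 h1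
      set c' : C := ∑ u ∈ U, b u • f u with hc'
      have h2 : c - c' ∈ I ^ n := by
        rw [← Ideal.Quotient.eq_zero_iff_mem, map_sub, ← hb', hc', map_sum, sub_eq_zero]
        refine Finset.sum_congr rfl fun u _ => ?_
        have : Ideal.Quotient.mk (I ^ n) (b u • f u) = b u • Ideal.Quotient.mk (I ^ n) (f u) := by
          rw [Algebra.smul_def, Algebra.smul_def, map_mul]
          rfl
        rw [this, hf]
      have h3 : π c = π c' + π (c - c') := by rw [← map_add]; congr 1; ring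
      rw [h3]
      refine Submodule.add_mem _ ?_ (hb _ h2)
      rw [hc', map_sum]
      refine Submodule.sum_mem _ fun u hu => ?_
      rw [map_smul]
      exact Submodule.smul_mem _ _ (hW2 u hu)
    refine ⟨⟨W, ?_⟩⟩
    rw [eq_top_iff]
    intro x _
    obtain ⟨c, rfl⟩ := Ideal.Quotient.mk_surjective x
    exact hc c

end Fermat.Agent.GL.CondLocal
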