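import Fermat.Agent.GK.SS.CRingFacts
import Fermat.Agent.GL.Fibre.CondLocal
import Fermat.Agent.GK.Nodal.FrobGlue

/-!
# GATE-L / CRING-FIN : finiteness facts for the chart ring `CRing N' A` (helper29)

The instance hypotheses of `FrobGlue3.loc_frobGlue3_max` / `LocPlug.locAt_of_frobGlue3` at
`C := CRing N' A` (helper15, `GK/QS/FrobStable`), `k := ResidueField A`:

* `finite_quotient_of_finite_adjoin` (abstract): `Bc` a domain, module-finite over `P = k[t]`,
  `I ≠ ⊥` ⟹ `Bc ⧸ I` finite-dimensional over `k`;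
* `finite_adjoin_CRing`, `finiteType_CRing`, `isFractionRing_CRing`;
* `finite_quotient_CRing` : `Module.Finite k (CRing N' A ⧸ I)` for `I ≠ ⊥`;
* `finite_quotient_fixIdeal_sq` : `Module.Finite k (CRing N' A ⧸ fixIdeal Ψ ^ 2)` for
  `fixIdeal Ψ ≠ ⊥`;
* `mem_range_of_pow_mem` : `CRing N' A` is `m`-root closed in `FresBar N' A` (the `hroot_i` of
  `RegRedRing` with `κ_i := FresBar N' A`).
-/

set_option autoImplicit false
set_option linter.style.haveILetI false

open Polynomial

namespace Fermat.Agent.GL.CRingFin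

/-- `Bc` a domain, module-finite over `P = k[t]` ⟹ `Bc ⧸ I` is finite-dimensional over `k` for
every nonzero ideal `I`. -/
theorem finite_quotient_of_finite_adjoin {k P Bc : Type*} [Field k] [CommRing P] [CommRing Bc]
    [IsDomain Bc] [Algebra k P] [Algebra P Bc] [Algebra k Bc] [IsScalarTower k P Bc]
    [Nontrivial P] [Module.Finite P Bc] (t : P) (ht : ∀ a : P, ∃ f : k[X], aeval t f = a)
    (I : Ideal Bc) (hI : I ≠ ⊥) : Module.Finite k (Bc ⧸ I) := by
  classical
  -- a nonzero element of `I ∩ P`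
  obtain ⟨x, hxI, hx0⟩ := Submodule.exists_mem_ne_zero_of_ne_bot hI
  have hint : IsIntegral P x := Algebra.IsIntegral.isIntegral x
  have hne := Ideal.comap_ne_bot_of_integral_mem hx0 hxI hint
  obtain ⟨p, hpI, hp0⟩ := Submodule.exists_mem_ne_zero_of_ne_bot hne
  obtain ⟨f, hf⟩ := ht p
  have hf0 : f ≠ 0 := by
    rintro rfl
    rw [map_zero] at hf
    exact hp0 hf.symm
  -- normalise to a monic polynomial
  set g : k[X] := f * C (f.leadingCoeff)⁻¹ with hg
  have hgm : g.Monic := monic_mul_leadingCoeff_inv hf0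
  have hgI : algebraMap P Bc (aeval t g) ∈ I := by
    rw [hg, map_mul, hf, map_mul]
    exact I.mul_mem_right _ hpI
  -- generators of `C` over `P`
  obtain ⟨S, hS⟩ := (Module.Finite.fg_top : (⊤ : Submodule P Bc).FG)
  let d := g.natDegree
  let W : Finset (Bc ⧸ I) :=
    (Finset.range d ×ˢ S).image
      (fun p : ℕ × Bc => Ideal.Quotient.mk I (algebraMap P Bc (t ^ p.1) * p.2))
  refine ⟨⟨W, ?_⟩⟩
  rw [eq_top_iff]
  intro y _
  obtain ⟨x, rfl⟩ := Ideal.Quotient.mk_surjective y
  have hx : x ∈ Submodule.span P (S : Set Bc) := by rw [hS]; trivial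
  obtain ⟨a, -, ha⟩ := Submodule.mem_span_finset.1 hx
  rw [← ha, map_sum]
  refine Submodule.sum_mem _ fun c hc => ?_
  obtain ⟨fc, hfc⟩ := ht (a c)
  -- divide
  have hdiv := modByMonic_add_div fc g
  set r := fc %ₘ g with hr
  have hrdeg : r.natDegree < d ∨ d = 0 := by
    by_cases hd : d = 0
    · exact Or.inr hd
    · left
      exact natDegree_modByMonic_lt fc hgm (fun h1 => hd (by rw [show d = g.natDegree from rfl, h1, natDegree_one]))
  have key : Ideal.Quotient.mk I (a c • c) = Ideal.Quotient.mk I (algebraMap P Bc (aeval t r) * c) := by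
    rw [Algebra.smul_def, ← hfc, ← hdiv, map_add, map_add, add_mul, map_add]
    have : Ideal.Quotient.mk I (algebraMap P Bc (aeval t (g * (fc /ₘ g))) * c) = 0 := by
      rw [Ideal.Quotient.eq_zero_iff_mem, map_mul, map_mul, mul_assoc]
      exact I.mul_mem_right _ hgI
    rw [this, add_zero]
  rw [key]
  rcases hrdeg with hrd | hd0
  · rw [aeval_eq_sum_range' hrd, map_sum, Finset.sum_mul, map_sum]
    refine Submodule.sum_mem _ fun e he => ?_
    have e1 : algebraMap P Bc (r.coeff e • t ^ e) * c = r.coeff e • (algebraMap P Bc (t ^ e) * c) := by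
      rw [Algebra.smul_def, map_mul, ← IsScalarTower.algebraMap_apply, Algebra.smul_def, mul_assoc]
    rw [e1]
    have e2 : Ideal.Quotient.mk I (r.coeff e • (algebraMap P Bc (t ^ e) * c))
        = r.coeff e • Ideal.Quotient.mk I (algebraMap P Bc (t ^ e) * c) := by
      rw [Algebra.smul_def, Algebra.smul_def, map_mul]
      rfl
    rw [e2]
    refine Submodule.smul_mem _ _ (Submodule.subset_span ?_)
    rw [Finset.mem_coe]
    exact Finset.mem_image.2 ⟨(e, c), Finset.mem_product.2 ⟨he, hc⟩, rfl⟩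
  · -- `g = 1`, so `I = ⊤`
    have hg1 : g = 1 := by
      have : g.natDegree = 0 := hd0
      exact eq_one_of_monic_natDegree_zero hgm this
    have h1 : (1 : Bc) ∈ I := by
      rw [hg1, map_one, map_one] at hgI
      exact hgI
    have : Ideal.Quotient.mk I (algebraMap P Bc (aeval t r) * c) = 0 := by
      rw [Ideal.Quotient.eq_zero_iff_mem]
      have := I.mul_mem_left (algebraMap P Bc (aeval t r) * c) h1
      rwa [mul_one] at this
    rw [this]
    exact Submodule.zero_mem _


section Generic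

open IntermediateField Fermat.Agent.GJ.J1
open scoped IntermediateField.algebraAdjoinAdjoin

variable {K F : Type*} [Field K] [Field F] [Algebra K F] (s : F)
  [FiniteDimensional (IntermediateField.adjoin K {s}) F]
  [Algebra.IsSeparable (IntermediateField.adjoin K {s}) F]

/-- `O ⧸ I` is finite-dimensional over `K` for `O` the integral closure of `K[s]` in `F` and
`I ≠ ⊥`. -/
theorem finite_quotient_integralClosure_adjoin
    (I : Ideal (integralClosure (Algebra.adjoin K {s}) F)) (hI : I ≠ ⊥) :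
    Module.Finite K (integralClosure (Algebra.adjoin K {s}) F ⧸ I) := by
  refine finite_quotient_of_finite_adjoin (k := K) (P := Algebra.adjoin K {s})
    ⟨s, Algebra.self_mem_adjoin_singleton _ _⟩ ?_ I hI
  intro a
  obtain ⟨b, hb⟩ := aevalAdjoin_surjective (K := K) s a
  refine ⟨b, ?_⟩
  rw [← hb]
  apply Subtype.ext
  rw [coe_aevalAdjoin]
  exact (Polynomial.aeval_algebraMap_apply F
    (⟨s, Algebra.self_mem_adjoin_singleton _ _⟩ : Algebra.adjoin K {s}) b).symm

/-- the integral closure of `K[s]` in `F` is of finite type over `K`. -/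
theorem finiteType_integralClosure_adjoin :
    Algebra.FiniteType K (integralClosure (Algebra.adjoin K {s}) F) := by
  have h1 : Algebra.FiniteType K (Algebra.adjoin K {s}) :=
    (Subalgebra.fg_iff_finiteType _).1 ⟨{s}, by simp⟩
  have h2 : Algebra.FiniteType (Algebra.adjoin K {s}) (integralClosure (Algebra.adjoin K {s}) F) :=
    Module.Finite.finiteType _
  exact Algebra.FiniteType.trans h1 h2

omit [Algebra.IsSeparable (IntermediateField.adjoin K {s}) F] in
/-- `F` is the fraction field of the integral closure of `K[s]` (J1's instance, as a lemma). -/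
theorem isFractionRing_generic :
    IsFractionRing (integralClosure (Algebra.adjoin K {s}) F) F :=
  isFractionRing_integralClosure_adjoin (K := K) (F := F) (s := s)

end Generic

section CRing

open IntermediateField IsLocalRing
open Fermat.Agent.S24 Fermat.Agent.GJ.J1 Fermat.Agent.GJ.J1.Val Fermat.Agent.GJ.J1.Haupt
open Fermat.Agent.GK.QS Fermat.Agent.GK.SS.Modular Fermat.Agent.GK.FrobGlue

variable (N' : ℕ) [NeZero N'] (ℓ : ℕ) [Fact ℓ.Prime] (A : ValuationSubring Kbar)

/-- **`CRing N' A` is of finite type over the residue field.** -/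
theorem finiteType_CRing (hA : A.LiesOverPrime ℓ) :
    Algebra.FiniteType (ResidueField A) (CRing N' A) := by
  have hℓ : ℓ.Prime := Fact.out
  haveI : CharP (ResidueField A) ℓ := charP_residue A hℓ hA
  haveI : FiniteDimensional (ResidueField A)⟮Fermat.Agent.GK.QS.jt N' A⟯ (FresBar N' A) :=
    (Fermat.Agent.GK.Val.Degrees.finiteDimensional_f1 N' A (jF_mem_Rw N' A)).1
  haveI : Algebra.IsSeparable (ResidueField A)⟮Fermat.Agent.GK.QS.jt N' A⟯ (FresBar N' A) :=
    Fermat.Agent.GJ.J1.G1.isSeparable_adjoin_of_embedding ℓ (FresBar N' A).val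
      (Fermat.Agent.GK.QS.jt N' A) (hord_jF N' A hℓ _)
  exact finiteType_integralClosure_adjoin (K := ResidueField A) (Fermat.Agent.GK.QS.jt N' A)

/-- **`CRing N' A ⧸ I` is finite-dimensional for every nonzero ideal.** -/
theorem finite_quotient_CRing (hA : A.LiesOverPrime ℓ) (I : Ideal (CRing N' A)) (hI : I ≠ ⊥) :
    Module.Finite (ResidueField A) (CRing N' A ⧸ I) := by
  have hℓ : ℓ.Prime := Fact.out
  haveI : CharP (ResidueField A) ℓ := charP_residue A hℓ hA
  haveI : FiniteDimensional (ResidueField A)⟮Fermat.Agent.GK.QS.jt N' A⟯ (FresBar N' A) :=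
    (Fermat.Agent.GK.Val.Degrees.finiteDimensional_f1 N' A (jF_mem_Rw N' A)).1
  haveI : Algebra.IsSeparable (ResidueField A)⟮Fermat.Agent.GK.QS.jt N' A⟯ (FresBar N' A) :=
    Fermat.Agent.GJ.J1.G1.isSeparable_adjoin_of_embedding ℓ (FresBar N' A).val
      (Fermat.Agent.GK.QS.jt N' A) (hord_jF N' A hℓ _)
  exact finite_quotient_integralClosure_adjoin (K := ResidueField A)
    (Fermat.Agent.GK.QS.jt N' A) I hI

/-- `CRing N' A` is `m`-root closed in the residue field `FresBar N' A`. -/
theorem mem_CRing_of_pow_mem {m : ℕ} (hm : m ≠ 0) {x : FresBar N' A}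
    (h : x ^ m ∈ CRing N' A) : x ∈ CRing N' A :=
  RegFin.of_pow (Nat.pos_of_ne_zero hm) h

/-- the `hroot_i` binder of `RegRedRing.mem_Bs_of_pow_mem` for `κ_i := FresBar N' A`,
`c_i := (CRing N' A).val`. -/
theorem hroot_CRing {m : ℕ} (hm : m ≠ 0) (x : FresBar N' A)
    (h : x ^ m ∈ ((CRing N' A).val : CRing N' A →+* FresBar N' A).range) :
    x ∈ ((CRing N' A).val : CRing N' A →+* FresBar N' A).range := by
  obtain ⟨y, hy⟩ := h
  have hx : x ∈ CRing N' A := mem_CRing_of_pow_mem N' A hm (hy ▸ y.2)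
  exact ⟨⟨x, hx⟩, rfl⟩

omit [Fact ℓ.Prime] in
/-- `FresBar N' A` is the fraction field of `CRing N' A`. -/
theorem isFractionRing_CRing : IsFractionRing (CRing N' A) (FresBar N' A) := by
  haveI : FiniteDimensional (ResidueField A)⟮Fermat.Agent.GK.QS.jt N' A⟯ (FresBar N' A) :=
    (Fermat.Agent.GK.Val.Degrees.finiteDimensional_f1 N' A (jF_mem_Rw N' A)).1
  exact isFractionRing_generic (K := ResidueField A) (Fermat.Agent.GK.QS.jt N' A)

variable [NeZero ℓ]

/-- `fixIdeal Ψ ≠ ⊥` for `Ψ = psiC` (the supersingular ideal is nonzero). -/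
theorem fixIdeal_psiC_ne_bot (hℓN : ¬ ℓ ∣ N') (hA : A.LiesOverPrime ℓ) :
    fixIdeal (psiC N' ℓ A hℓN hA) ≠ ⊥ := by
  have := isDedekindDomain_CRing N' ℓ A hA
  exact fixIdeal_ne_bot (q := ℓ) (psiC N' ℓ A hℓN hA) (not_isField_CRing N' A)
    (Fact.out : ℓ.Prime).two_le (exists_pow_eq_psiC N' ℓ A hℓN hA)

/-- **`CRing ⧸ 𝔞 ^ n` is finite-dimensional**, `𝔞 = fixIdeal psiC` (the instance hypothesis of
`FrobGlue3.loc_frobGlue3_max` for `n = 2`). -/
theorem finite_quotient_fixIdeal_pow (hℓN : ¬ ℓ ∣ N') (hA : A.LiesOverPrime ℓ) (n : ℕ) :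
    Module.Finite (ResidueField A) (CRing N' A ⧸ fixIdeal (psiC N' ℓ A hℓN hA) ^ n) := by
  have := isDedekindDomain_CRing N' ℓ A hA
  exact finite_quotient_CRing N' ℓ A hA _ (pow_ne_zero n (fixIdeal_psiC_ne_bot N' ℓ A hℓN hA))

end CRing

end Fermat.Agent.GL.CRingFin
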