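import Fermat.Agent.GK.Nodal.FrobGlue

/-!
# GATE-L / FROBGLUE3 : three components through the supersingular points (helper29)

Pure algebra on top of `GK/Nodal/FrobGlue` (Mathlib only otherwise).  Level `q² M'`: the reduced
special fibre has three components `C₁ = (F,F)`, `C₂ = (V,V)`, `C₃ = (F,V)`, all with coordinate
ring `C` (the affine curve of level `M'`), and the three degeneracy maps `f(τ)`, `f(qτ)`, `f(q²τ)`
reduce to the OLD TRIPLES

  `(f, Ψ² f, f)`,  `(Ψ f, Ψ f, Ψ f)`,  `(Ψ² f, f, f)`     (`Ψ f = f ∘ Frob`)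

(blueprint v2, board 2677 (V2)-III).  For a subalgebra `R ≤ C × C × C` containing them and
`φ f := f - Ψ (Ψ f)` (the generators of `fixIdeal Ψ`):

* `e13_mem`, `e23_mem`, `e12_mem` : `(φ, 0, φ)`, `(0, φ, φ)`, `(φ, -φ, 0) ∈ R`;
* `sq_fst_mem`, `sq_snd_mem`, `sq_trd_mem` : `(x, 0, 0)`, `(0, x, 0)`, `(0, 0, x) ∈ R` for every
  `x ∈ fixIdeal Ψ ^ 2`;
* `conductor_mul_mem` : `(x, y, z) * w ∈ R` for `x y z ∈ fixIdeal Ψ ^ 2` and ARBITRARY
  `w : C × C × C` — the conductor of `R` in `C × C × C` contains `𝔞² × 𝔞² × 𝔞²`;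
* pairwise glueings `J13`, `J23` (ideals of `C` containing `fixIdeal Ψ`): the projection of `R` to
  the components `(1, 3)` is `{(x, z) | x - z ∈ J13}` and to `(2, 3)` is `{(y, z) | y - z ∈ J23}`:
  `C₁`, `C₃` and `C₂`, `C₃` are glued along the IDENTITY (`mem_J13_iff`, `exists_of_sub_mem_J13`,
  `fixIdeal_le_J13`, and the `J23` twins).
-/

set_option autoImplicit false

namespace Fermat.Agent.GL.FrobGlue3

open Fermat.Agent.GK.FrobGlue

variable {k C : Type*} [Field k] [CommRing C] [Algebra k C] (Ψ : C →ₐ[k] C)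

/-- the generator `f - Ψ (Ψ f)` of `fixIdeal Ψ`. -/
def phi (f : C) : C := f - Ψ (Ψ f)

lemma phi_mem_fixIdeal (f : C) : phi Ψ f ∈ fixIdeal Ψ := sub_mem_fixIdeal Ψ f

section Triples

variable (R : Subalgebra k (C × C × C))
  (h0 : ∀ f, ((f, Ψ (Ψ f), f) : C × C × C) ∈ R)
  (h1 : ∀ f, ((Ψ f, Ψ f, Ψ f) : C × C × C) ∈ R)
  (h2 : ∀ f, ((Ψ (Ψ f), f, f) : C × C × C) ∈ R)

include h0 h1 in
lemma e13_mem (f : C) : ((phi Ψ f, 0, phi Ψ f) : C × C × C) ∈ R := by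
  have := R.sub_mem (h0 f) (h1 (Ψ f))
  have e : ((phi Ψ f, 0, phi Ψ f) : C × C × C)
      = (f, Ψ (Ψ f), f) - (Ψ (Ψ f), Ψ (Ψ f), Ψ (Ψ f)) := by
    ext <;> simp [phi]
  rw [e]
  exact this

include h1 h2 in
lemma e23_mem (f : C) : ((0, phi Ψ f, phi Ψ f) : C × C × C) ∈ R := by
  have := R.sub_mem (h2 f) (h1 (Ψ f))
  have e : ((0, phi Ψ f, phi Ψ f) : C × C × C)
      = (Ψ (Ψ f), f, f) - (Ψ (Ψ f), Ψ (Ψ f), Ψ (Ψ f)) := by
    ext <;> simp [phi]
  rw [e]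
  exact this

include h0 h2 in
lemma e12_mem (f : C) : ((phi Ψ f, -phi Ψ f, 0) : C × C × C) ∈ R := by
  have := R.sub_mem (h0 f) (h2 f)
  have e : ((phi Ψ f, -phi Ψ f, 0) : C × C × C) = (f, Ψ (Ψ f), f) - (Ψ (Ψ f), f, f) := by
    ext <;> simp [phi]
  rw [e]
  exact this

include h0 h1 h2 in
/-- `(φ a · φ b · c, 0, 0) ∈ R`. -/
lemma prod_fst_mem (a b c : C) : ((phi Ψ a * phi Ψ b * c, 0, 0) : C × C × C) ∈ R := by
  have := R.mul_mem (R.mul_mem (e13_mem Ψ R h0 h1 a) (e12_mem Ψ R h0 h2 b)) (h0 c)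
  have e : ((phi Ψ a * phi Ψ b * c, 0, 0) : C × C × C)
      = (phi Ψ a, 0, phi Ψ a) * (phi Ψ b, -phi Ψ b, 0) * (c, Ψ (Ψ c), c) := by
    ext <;> simp
  rw [e]
  exact this

include h0 h1 h2 in
/-- `(0, φ a · φ b · c, 0) ∈ R`. -/
lemma prod_snd_mem (a b c : C) : ((0, phi Ψ a * phi Ψ b * c, 0) : C × C × C) ∈ R := by
  have := R.mul_mem (R.mul_mem (e23_mem Ψ R h1 h2 a) (R.neg_mem (e12_mem Ψ R h0 h2 b))) (h2 c)
  have e : ((0, phi Ψ a * phi Ψ b * c, 0) : C × C × C)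
      = (0, phi Ψ a, phi Ψ a) * -(phi Ψ b, -phi Ψ b, 0) * (Ψ (Ψ c), c, c) := by
    ext <;> simp
  rw [e]
  exact this

include h0 h1 h2 in
/-- `(0, 0, φ a · φ b · c) ∈ R`. -/
lemma prod_trd_mem (a b c : C) : ((0, 0, phi Ψ a * phi Ψ b * c) : C × C × C) ∈ R := by
  have := R.mul_mem (R.mul_mem (e13_mem Ψ R h0 h1 a) (e23_mem Ψ R h1 h2 b)) (h0 c)
  have e : ((0, 0, phi Ψ a * phi Ψ b * c) : C × C × C)
      = (phi Ψ a, 0, phi Ψ a) * (0, phi Ψ b, phi Ψ b) * (c, Ψ (Ψ c), c) := by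
    ext <;> simp
  rw [e]
  exact this

/-- an induction principle for `fixIdeal Ψ ^ 2`: it is spanned additively by the products
`φ a · φ b · c`. -/
lemma fixIdeal_sq_induction {p : C → Prop} (hp : ∀ a b c, p (phi Ψ a * phi Ψ b * c))
    (h0' : p 0) (hadd : ∀ x y, p x → p y → p (x + y)) {x : C} (hx : x ∈ fixIdeal Ψ ^ 2) : p x := by
  -- first: `u ∈ fixIdeal`, then `u * φ b * c` is fine
  have key : ∀ u ∈ fixIdeal Ψ, ∀ v ∈ fixIdeal Ψ, ∀ c : C, p (u * v * c) := by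
    intro u hu
    refine Submodule.span_induction (p := fun u _ => ∀ v ∈ fixIdeal Ψ, ∀ c : C, p (u * v * c))
      ?_ ?_ ?_ ?_ hu
    · rintro _ ⟨a, rfl⟩ v hv
      refine Submodule.span_induction (p := fun v _ => ∀ c : C, p ((a - Ψ (Ψ a)) * v * c))
        ?_ ?_ ?_ ?_ hv
      · rintro _ ⟨b, rfl⟩ c
        exact hp a b c
      · intro c; simpa using h0'
      · intro v w _ _ hv hw c
        have := hadd _ _ (hv c) (hw c)
        have e : (a - Ψ (Ψ a)) * (v + w) * c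
            = (a - Ψ (Ψ a)) * v * c + (a - Ψ (Ψ a)) * w * c := by ring
        rw [e]; exact this
      · intro r v _ hv c
        have := hv (r * c)
        have e : (a - Ψ (Ψ a)) * (r • v) * c = (a - Ψ (Ψ a)) * v * (r * c) := by
          simp only [smul_eq_mul]; ring
        rw [e]; exact this
    · intro v _ c; simpa using h0'
    · intro u w _ _ hu hw v hv c
      have := hadd _ _ (hu v hv c) (hw v hv c)
      have e : (u + w) * v * c = u * v * c + w * v * c := by ring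
      rw [e]; exact this
    · intro r u _ hu v hv c
      have := hu v hv (r * c)
      have e : (r • u) * v * c = u * v * (r * c) := by simp only [smul_eq_mul]; ring
      rw [e]; exact this
  rw [pow_two] at hx
  refine Submodule.mul_induction_on hx ?_ ?_
  · intro u hu v hv
    have := key u hu v hv 1
    simpa using this
  · intro x y hx hy
    exact hadd x y hx hy

include h0 h1 h2 in
theorem sq_fst_mem {x : C} (hx : x ∈ fixIdeal Ψ ^ 2) : ((x, 0, 0) : C × C × C) ∈ R := by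
  refine fixIdeal_sq_induction Ψ (p := fun x => ((x, 0, 0) : C × C × C) ∈ R)
    (prod_fst_mem Ψ R h0 h1 h2) R.zero_mem ?_ hx
  intro x y hx hy
  have := R.add_mem hx hy
  simpa using this

include h0 h1 h2 in
theorem sq_snd_mem {x : C} (hx : x ∈ fixIdeal Ψ ^ 2) : ((0, x, 0) : C × C × C) ∈ R := by
  refine fixIdeal_sq_induction Ψ (p := fun x => ((0, x, 0) : C × C × C) ∈ R)
    (prod_snd_mem Ψ R h0 h1 h2) R.zero_mem ?_ hx
  intro x y hx hy
  have := R.add_mem hx hy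
  simpa using this

include h0 h1 h2 in
theorem sq_trd_mem {x : C} (hx : x ∈ fixIdeal Ψ ^ 2) : ((0, 0, x) : C × C × C) ∈ R := by
  refine fixIdeal_sq_induction Ψ (p := fun x => ((0, 0, x) : C × C × C) ∈ R)
    (prod_trd_mem Ψ R h0 h1 h2) R.zero_mem ?_ hx
  intro x y hx hy
  have := R.add_mem hx hy
  simpa using this

include h0 h1 h2 in
/-- **the conductor of `R` in `C × C × C` contains `𝔞² × 𝔞² × 𝔞²`**, `𝔞 = fixIdeal Ψ`. -/
theorem conductor_mul_mem {x y z : C} (hx : x ∈ fixIdeal Ψ ^ 2) (hy : y ∈ fixIdeal Ψ ^ 2)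
    (hz : z ∈ fixIdeal Ψ ^ 2) (w : C × C × C) : ((x, y, z) : C × C × C) * w ∈ R := by
  have hx' := sq_fst_mem Ψ R h0 h1 h2 (Ideal.mul_mem_right w.1 _ hx)
  have hy' := sq_snd_mem Ψ R h0 h1 h2 (Ideal.mul_mem_right w.2.1 _ hy)
  have hz' := sq_trd_mem Ψ R h0 h1 h2 (Ideal.mul_mem_right w.2.2 _ hz)
  have := R.add_mem (R.add_mem hx' hy') hz'
  have e : ((x, y, z) : C × C × C) * w
      = (x * w.1, 0, 0) + (0, y * w.2.1, 0) + (0, 0, z * w.2.2) := by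
    ext <;> simp
  rw [e]
  exact this

end Triples

/-! ### the pairwise glueings `C₁ ∼ C₃`, `C₂ ∼ C₃` -/

section Pairwise

variable (R : Subalgebra k (C × C × C))
  (h0 : ∀ f, ((f, Ψ (Ψ f), f) : C × C × C) ∈ R)
  (h2 : ∀ f, ((Ψ (Ψ f), f, f) : C × C × C) ∈ R)

/-- the glueing ideal of the components `1` and `3`: all differences `z.1 - z.3`, `z ∈ R`. -/
def J13 (h0 : ∀ f, ((f, Ψ (Ψ f), f) : C × C × C) ∈ R) : Ideal C where
  carrier := {d | ∃ z ∈ R, z.1 - z.2.2 = d}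
  add_mem' := by
    rintro _ _ ⟨z, hz, rfl⟩ ⟨z', hz', rfl⟩
    exact ⟨z + z', R.add_mem hz hz', by simp only [Prod.fst_add, Prod.snd_add]; ring⟩
  zero_mem' := ⟨0, R.zero_mem, by simp⟩
  smul_mem' := by
    rintro c _ ⟨z, hz, rfl⟩
    refine ⟨(c, Ψ (Ψ c), c) * z, R.mul_mem (h0 c) hz, ?_⟩
    simp only [Prod.fst_mul, Prod.snd_mul, smul_eq_mul]
    ring

/-- the glueing ideal of the components `2` and `3`: all differences `z.2 - z.3`, `z ∈ R`. -/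
def J23 (h2 : ∀ f, ((Ψ (Ψ f), f, f) : C × C × C) ∈ R) : Ideal C where
  carrier := {d | ∃ z ∈ R, z.2.1 - z.2.2 = d}
  add_mem' := by
    rintro _ _ ⟨z, hz, rfl⟩ ⟨z', hz', rfl⟩
    exact ⟨z + z', R.add_mem hz hz', by simp only [Prod.fst_add, Prod.snd_add]; ring⟩
  zero_mem' := ⟨0, R.zero_mem, by simp⟩
  smul_mem' := by
    rintro c _ ⟨z, hz, rfl⟩
    refine ⟨(Ψ (Ψ c), c, c) * z, R.mul_mem (h2 c) hz, ?_⟩
    simp only [Prod.fst_mul, Prod.snd_mul, smul_eq_mul]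
    ring

lemma mem_J13_iff {d : C} : d ∈ J13 Ψ R h0 ↔ ∃ z ∈ R, z.1 - z.2.2 = d := Iff.rfl

lemma mem_J23_iff {d : C} : d ∈ J23 Ψ R h2 ↔ ∃ z ∈ R, z.2.1 - z.2.2 = d := Iff.rfl

lemma sub_mem_J13 {z : C × C × C} (hz : z ∈ R) : z.1 - z.2.2 ∈ J13 Ψ R h0 := ⟨z, hz, rfl⟩

lemma sub_mem_J23 {z : C × C × C} (hz : z ∈ R) : z.2.1 - z.2.2 ∈ J23 Ψ R h2 := ⟨z, hz, rfl⟩

include h2 in
lemma fixIdeal_le_J13 : fixIdeal Ψ ≤ J13 Ψ R h0 := by
  rw [fixIdeal, Ideal.span_le]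
  rintro _ ⟨f, rfl⟩
  exact ⟨(f, Ψ (Ψ f), f) - (Ψ (Ψ f), f, f), R.sub_mem (h0 f) (h2 f), by simp⟩

include h0 in
lemma fixIdeal_le_J23 : fixIdeal Ψ ≤ J23 Ψ R h2 := by
  rw [fixIdeal, Ideal.span_le]
  rintro _ ⟨f, rfl⟩
  exact ⟨(Ψ (Ψ f), f, f) - (f, Ψ (Ψ f), f), R.sub_mem (h2 f) (h0 f), by simp⟩

/-- the projection of `R` to the components `(1, 3)` is the glueing along the identity:
every pair `(x, z)` with `x - z ∈ J13` is the `(1, 3)`-projection of an element of `R`. -/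
lemma exists_of_sub_mem_J13 {x z : C} (h : x - z ∈ J13 Ψ R h0) :
    ∃ w ∈ R, w.1 = x ∧ w.2.2 = z := by
  obtain ⟨w, hw, hwd⟩ := h
  refine ⟨w + (z - w.2.2, Ψ (Ψ (z - w.2.2)), z - w.2.2), R.add_mem hw (h0 _), ?_, ?_⟩
  · simp only [Prod.fst_add]
    linear_combination hwd
  · simp

/-- the projection of `R` to the components `(2, 3)` is the glueing along the identity. -/
lemma exists_of_sub_mem_J23 {y z : C} (h : y - z ∈ J23 Ψ R h2) :
    ∃ w ∈ R, w.2.1 = y ∧ w.2.2 = z := by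
  obtain ⟨w, hw, hwd⟩ := h
  refine ⟨w + (Ψ (Ψ (z - w.2.2)), z - w.2.2, z - w.2.2), R.add_mem hw (h2 _), ?_, ?_⟩
  · simp only [Prod.snd_add, Prod.fst_add]
    linear_combination hwd
  · simp

end Pairwise

end Fermat.Agent.GL.FrobGlue3
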