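import Fermat.Agent.GL.AL.TableW
import Fermat.Agent.GL.Cusp.W3Table
import Fermat.Agent.GK.QS.BTilde
import Fermat.Agent.GL.Fibre.FrobGlue3

/-!
# GATE-L / (LOC-III) producer (P2), concrete half (helper15): the OLD TRIPLES at level `M' q²`

`q ∤ M'`, `N = M' q q`, `A` a valuation subring of `ℚ̄` over `q`, `k` its residue field.
Three Gauss valuations of `F_N`: `w₁ = redDataBar N A`, `w₂ = redData2Q N A hQ` (`= w₁ ∘ W_{q²}`,
helper54) and `w₃ = redData3 N A q` (the cusp `1/(qM')`, helper93/helper18).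

* `d0`, `d1`, `d2 : F_{M'} → F_N` : the three degeneracy maps `f(z)`, `f(qz)`, `f(q²z)`;
* `B3` : the ring of functions of level `N` regular off the cusps with `w₁, w₂, w₃ ≥ 0`;
* `d0_mem_B3`, `d1_mem_B3`, `d2_mem_B3` for `f` regular off the cusps with `w f ≥ 0`;
* the nine reductions (`coe_red*_d*`): with `a = red f ∈ k((Q))`,
  `(red₁, red₂, red₃) (d0 f) = (a, a(Q^{q²}), a(t^N))`,
  `(red₁, red₂, red₃) (d1 f) = (a(Q^q), a(Q^q), a(t^{Nq}))`,
  `(red₁, red₂, red₃) (d2 f) = (a(Q^{q²}), a, a(t^N))`;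
* `BT3 : Subalgebra k (C × C × C)`, `C = CRing M' A` : the triples `(z₁, z₂, z₃)` with
  `red₁ x = z₁`, `red₂ x = z₂`, `red₃ x = z₃(t^N)` for some `x ∈ B3`;
* **`old0_mem_BT3`, `old1_mem_BT3`, `old2_mem_BT3`** : the hypotheses `h0 h1 h2` of helper29's
  `GL/Fibre/FrobGlue3.lean` VERBATIM for `R := BT3`, `Ψ := psiC M' q A`;
* `conductor_BT3` : hence `(x, y, z) * w ∈ BT3` for `x y z ∈ (fixIdeal Ψ)²` and ARBITRARY `w`.
-/

set_option autoImplicit false
set_option linter.unusedSectionVars false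

noncomputable section

namespace Fermat.Agent.GL.OldTriples

open HahnSeries ModularCurve IsLocalRing
open Fermat.Agent.S24 Fermat.Agent.S24_helper62 Fermat.Agent.S24_helper82
open Fermat.Agent.GJ.J1 Fermat.Agent.GJ.J1.Val Fermat.Agent.GJ.HN Fermat.Agent.GK.AL
open Fermat.Agent.GK.QS Fermat.Agent.GK.FrobGlue Fermat.Agent.GL.AL Fermat.Agent.GL.W3
open Fermat.Agent.GL.CuspVal

variable (M' : ℕ) [NeZero M'] (q : ℕ) [hqF : Fact q.Prime] [NeZero q]
variable (A : ValuationSubring Kbar) (hQ : HallDvd (q ^ 2) (M' * q * q))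
variable (hqM : ¬ q ∣ M') (hA : A.LiesOverPrime q)

local notation "kA" => ResidueField A

/-- `f(z)` at level `M' q²` -/
def d0 : FN M' →ₐ[Kbar] FN (M' * q * q) := (alphaB (M' * q) q).comp (alphaB M' q)

/-- `f(qz)` at level `M' q²` -/
def d1 : FN M' →ₐ[Kbar] FN (M' * q * q) := (alphaB (M' * q) q).comp (betaB M' q)

/-- `f(q²z)` at level `M' q²` -/
def d2 : FN M' →ₐ[Kbar] FN (M' * q * q) := (betaB (M' * q) q).comp (betaB M' q)

theorem d0_apply (f : FN M') : d0 M' q f = alphaB (M' * q) q (alphaB M' q f) := rfl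
theorem d1_apply (f : FN M') : d1 M' q f = alphaB (M' * q) q (betaB M' q f) := rfl
theorem d2_apply (f : FN M') : d2 M' q f = betaB (M' * q) q (betaB M' q f) := rfl

/-- **the ring `B3`** of functions of level `M' q²` regular off the cusps with
`w₁, w₂, w₃ ≥ 0` -/
def B3 : Subring (FN (M' * q * q)) where
  carrier := {x | RegFin Kbar (jF (M' * q * q)) x ∧ x ∈ (redDataBar (M' * q * q) A).Rw ∧
    x ∈ (redData2Q (M' * q * q) A hQ).Rw ∧ x ∈ (redData3 (M' * q * q) A q).Rw}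
  mul_mem' := fun ⟨a1, a2, a3, a4⟩ ⟨b1, b2, b3, b4⟩ =>
    ⟨a1.mul b1, mul_mem a2 b2, mul_mem a3 b3, mul_mem a4 b4⟩
  one_mem' := ⟨regFin_one _, one_mem _, one_mem _, one_mem _⟩
  add_mem' := fun ⟨a1, a2, a3, a4⟩ ⟨b1, b2, b3, b4⟩ =>
    ⟨a1.add b1, add_mem a2 b2, add_mem a3 b3, add_mem a4 b4⟩
  zero_mem' := ⟨regFin_zero _, zero_mem _, zero_mem _, zero_mem _⟩
  neg_mem' := fun ⟨a1, a2, a3, a4⟩ => ⟨a1.neg, neg_mem a2, neg_mem a3, neg_mem a4⟩

variable {M' q A hQ}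

theorem mem_B3 {x : FN (M' * q * q)} :
    x ∈ B3 M' q A hQ ↔ RegFin Kbar (jF (M' * q * q)) x ∧ x ∈ (redDataBar (M' * q * q) A).Rw ∧
      x ∈ (redData2Q (M' * q * q) A hQ).Rw ∧ x ∈ (redData3 (M' * q * q) A q).Rw := Iff.rfl

/-- constants of `A` lie in `B3` -/
theorem algebraMap_mem_B3 (a : A) :
    algebraMap Kbar (FN (M' * q * q)) (a : Kbar) ∈ B3 M' q A hQ :=
  ⟨regFin_algebraMap _ _, ((redDataBar (M' * q * q) A).mem_A_iff a).1 a.2,
    ((redData2Q (M' * q * q) A hQ).mem_A_iff a).1 a.2,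
    ((redData3 (M' * q * q) A q).mem_A_iff a).1 a.2⟩

/-- `q ∥ M' q` -/
theorem exactDvd1 (hqM : ¬ q ∣ M') : ExactDvd q (M' * q) :=
  W3Table.exactDvd_level hqF.out hqM

section Mem

variable {f : FN M'} (hf : RegFin Kbar (jF M') f) (hw : f ∈ RwBar M' A)
include hf hw hqM

theorem d0_mem_B3 : d0 M' q f ∈ B3 M' q A hQ := by
  have hB := alphaB_mem_BRing (h := exactDvd1 hqM) hf hw
  refine ⟨regFin_alphaB (M' * q) q hB.1, (TableW.alphaB_mem_Rw1_iff M' A _).mpr hB.2.1,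
    (TableW.alphaB_mem_Rw2Q_iff M' A hQ (exactDvd1 hqM) _).mpr hB.2.2,
    (W3Table.alphaB_mem_Rw3_iff A hqF.out _).mpr hB.2.1⟩

theorem d1_mem_B3 : d1 M' q f ∈ B3 M' q A hQ := by
  have hB := betaB_mem_BRing (h := exactDvd1 hqM) hf hw
  refine ⟨regFin_alphaB (M' * q) q hB.1, (TableW.alphaB_mem_Rw1_iff M' A _).mpr hB.2.1,
    (TableW.alphaB_mem_Rw2Q_iff M' A hQ (exactDvd1 hqM) _).mpr hB.2.2,
    (W3Table.alphaB_mem_Rw3_iff A hqF.out _).mpr hB.2.1⟩

theorem d2_mem_B3 : d2 M' q f ∈ B3 M' q A hQ := by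
  have hB := betaB_mem_BRing (h := exactDvd1 hqM) hf hw
  refine ⟨regFin_betaB (M' * q) q hB.1, (TableW.betaB_mem_Rw1_iff M' A _).mpr hB.2.1,
    (TableW.betaB_mem_Rw2Q_iff M' A hQ (exactDvd1 hqM) _).mpr hB.2.2,
    (W3Table.betaB_mem_Rw3_iff A hqF.out hqM _).mpr hB.2.2⟩

end Mem

/-! ### the nine reductions -/

section Red

variable (f : FN M') (hw : f ∈ RwBar M' A)

/-- coercion `FresBar (M' q) A → k((Q))` -/
local notation "cq" => (fun y : FresBar (M' * q) A => (y : LaurentSeries kA))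

include hw in
theorem alpha1_mem : alphaB M' q f ∈ (redDataBar (M' * q) A).Rw :=
  (alpha_mem_RwBar_iff M' q A f).mpr hw

include hw in
theorem beta1_mem : betaB M' q f ∈ (redDataBar (M' * q) A).Rw :=
  (beta_mem_RwBar_iff M' q A f).mpr hw

include hw in
theorem alpha1_mem2 (hqM : ¬ q ∣ M') :
    alphaB M' q f ∈ (redData2 (M' * q) A (exactDvd1 hqM)).Rw := by
  rw [mem_Rw2_iff, wAut_alphaB]
  exact beta1_mem f hw

include hw in
theorem beta1_mem2 (hqM : ¬ q ∣ M') :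
    betaB M' q f ∈ (redData2 (M' * q) A (exactDvd1 hqM)).Rw := by
  rw [mem_Rw2_iff, wAut_betaB]
  exact alpha1_mem f hw

/-- `red₂' (α' f) = a(Q^q)` -/
theorem coe_red2_alpha1 (hqM : ¬ q ∣ M') :
    (((redData2 (M' * q) A (exactDvd1 hqM)).red ⟨alphaB M' q f, alpha1_mem2 f hw hqM⟩ :
        FresBar (M' * q) A) : LaurentSeries kA) =
      qExpand kA q (((redDataBar M' A).red ⟨f, hw⟩ : FresBar M' A) : LaurentSeries kA) :=
  (congrArg cq (red2_alphaB f (alpha1_mem2 f hw hqM) (beta1_mem f hw))).trans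
    (coe_red_beta M' q A ⟨f, hw⟩ (beta1_mem f hw))

/-- `red₂' (β' f) = a` -/
theorem coe_red2_beta1 (hqM : ¬ q ∣ M') :
    (((redData2 (M' * q) A (exactDvd1 hqM)).red ⟨betaB M' q f, beta1_mem2 f hw hqM⟩ :
        FresBar (M' * q) A) : LaurentSeries kA) =
      (((redDataBar M' A).red ⟨f, hw⟩ : FresBar M' A) : LaurentSeries kA) :=
  (congrArg cq (red2_betaB f (beta1_mem2 f hw hqM) (alpha1_mem f hw))).trans
    (coe_red_alpha M' q A ⟨f, hw⟩ (alpha1_mem f hw))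

/-- `red₁ (d0 f) = a` -/
theorem coe_red1_d0 (h : d0 M' q f ∈ (redDataBar (M' * q * q) A).Rw) :
    (((redDataBar (M' * q * q) A).red ⟨d0 M' q f, h⟩ : FresBar (M' * q * q) A) :
        LaurentSeries kA) =
      (((redDataBar M' A).red ⟨f, hw⟩ : FresBar M' A) : LaurentSeries kA) :=
  (TableW.coe_red1_alphaB M' A (alphaB M' q f) (alpha1_mem f hw) h).trans
    (coe_red_alpha M' q A ⟨f, hw⟩ (alpha1_mem f hw))

/-- `red₁ (d1 f) = a(Q^q)` -/
theorem coe_red1_d1 (h : d1 M' q f ∈ (redDataBar (M' * q * q) A).Rw) :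
    (((redDataBar (M' * q * q) A).red ⟨d1 M' q f, h⟩ : FresBar (M' * q * q) A) :
        LaurentSeries kA) =
      qExpand kA q (((redDataBar M' A).red ⟨f, hw⟩ : FresBar M' A) : LaurentSeries kA) :=
  (TableW.coe_red1_alphaB M' A (betaB M' q f) (beta1_mem f hw) h).trans
    (coe_red_beta M' q A ⟨f, hw⟩ (beta1_mem f hw))

/-- `red₁ (d2 f) = a(Q^{q²})` -/
theorem coe_red1_d2 (h : d2 M' q f ∈ (redDataBar (M' * q * q) A).Rw) :
    (((redDataBar (M' * q * q) A).red ⟨d2 M' q f, h⟩ : FresBar (M' * q * q) A) :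
        LaurentSeries kA) =
      qExpand kA q (qExpand kA q
        (((redDataBar M' A).red ⟨f, hw⟩ : FresBar M' A) : LaurentSeries kA)) :=
  (TableW.coe_red1_betaB M' A (betaB M' q f) (beta1_mem f hw) h).trans
    (congrArg (qExpand kA q) (coe_red_beta M' q A ⟨f, hw⟩ (beta1_mem f hw)))

/-- `red₂ (d0 f) = a(Q^{q²})` -/
theorem coe_red2_d0 (hqM : ¬ q ∣ M') (h : d0 M' q f ∈ (redData2Q (M' * q * q) A hQ).Rw) :
    (((redData2Q (M' * q * q) A hQ).red ⟨d0 M' q f, h⟩ : FresBar (M' * q * q) A) :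
        LaurentSeries kA) =
      qExpand kA q (qExpand kA q
        (((redDataBar M' A).red ⟨f, hw⟩ : FresBar M' A) : LaurentSeries kA)) :=
  (TableW.coe_red2Q_alphaB M' A hQ (exactDvd1 hqM) (alphaB M' q f)
    (alpha1_mem2 f hw hqM) h).trans (congrArg (qExpand kA q) (coe_red2_alpha1 f hw hqM))

/-- `red₂ (d1 f) = a(Q^q)` -/
theorem coe_red2_d1 (hqM : ¬ q ∣ M') (h : d1 M' q f ∈ (redData2Q (M' * q * q) A hQ).Rw) :
    (((redData2Q (M' * q * q) A hQ).red ⟨d1 M' q f, h⟩ : FresBar (M' * q * q) A) :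
        LaurentSeries kA) =
      qExpand kA q (((redDataBar M' A).red ⟨f, hw⟩ : FresBar M' A) : LaurentSeries kA) :=
  (TableW.coe_red2Q_alphaB M' A hQ (exactDvd1 hqM) (betaB M' q f)
    (beta1_mem2 f hw hqM) h).trans (congrArg (qExpand kA q) (coe_red2_beta1 f hw hqM))

/-- `red₂ (d2 f) = a` -/
theorem coe_red2_d2 (hqM : ¬ q ∣ M') (h : d2 M' q f ∈ (redData2Q (M' * q * q) A hQ).Rw) :
    (((redData2Q (M' * q * q) A hQ).red ⟨d2 M' q f, h⟩ : FresBar (M' * q * q) A) :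
        LaurentSeries kA) =
      (((redDataBar M' A).red ⟨f, hw⟩ : FresBar M' A) : LaurentSeries kA) :=
  (TableW.coe_red2Q_betaB M' A hQ (exactDvd1 hqM) (betaB M' q f)
    (beta1_mem2 f hw hqM) h).trans (coe_red2_beta1 f hw hqM)

/-- `red₃ (d0 f) = a(t^N)` -/
theorem coe_red3_d0 (h : d0 M' q f ∈ (redData3 (M' * q * q) A q).Rw) :
    (((redData3 (M' * q * q) A q).red ⟨d0 M' q f, h⟩ :
        FresCusp (M' * q * q) A (cusp3 (M' * q * q) q)) : LaurentSeries kA) =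
      qExpand kA (M' * q * q)
        (((redDataBar M' A).red ⟨f, hw⟩ : FresBar M' A) : LaurentSeries kA) :=
  (W3Table.coe_red3_alphaB A hqF.out (alphaB M' q f) (alpha1_mem f hw) h).trans
    (congrArg (qExpand kA (M' * q * q)) (coe_red_alpha M' q A ⟨f, hw⟩ (alpha1_mem f hw)))

/-- `red₃ (d1 f) = a(t^{N q})` -/
theorem coe_red3_d1 (h : d1 M' q f ∈ (redData3 (M' * q * q) A q).Rw) :
    (((redData3 (M' * q * q) A q).red ⟨d1 M' q f, h⟩ :
        FresCusp (M' * q * q) A (cusp3 (M' * q * q) q)) : LaurentSeries kA) =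
      qExpand kA (M' * q * q) (qExpand kA q
        (((redDataBar M' A).red ⟨f, hw⟩ : FresBar M' A) : LaurentSeries kA)) :=
  (W3Table.coe_red3_alphaB A hqF.out (betaB M' q f) (beta1_mem f hw) h).trans
    (congrArg (qExpand kA (M' * q * q)) (coe_red_beta M' q A ⟨f, hw⟩ (beta1_mem f hw)))

/-- `red₃ (d2 f) = a(t^N)` -/
theorem coe_red3_d2 (hqM : ¬ q ∣ M') (hA : A.LiesOverPrime q)
    (h : d2 M' q f ∈ (redData3 (M' * q * q) A q).Rw) :
    (((redData3 (M' * q * q) A q).red ⟨d2 M' q f, h⟩ :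
        FresCusp (M' * q * q) A (cusp3 (M' * q * q) q)) : LaurentSeries kA) =
      qExpand kA (M' * q * q)
        (((redDataBar M' A).red ⟨f, hw⟩ : FresBar M' A) : LaurentSeries kA) :=
  (W3Table.coe_red3_betaB A hqF.out hqM hA (betaB M' q f) (beta1_mem2 f hw hqM) h).trans
    (congrArg (qExpand kA (M' * q * q)) (coe_red2_beta1 f hw hqM))

end Red

/-! ### the reduction `B̃₃ ⊂ C × C × C` -/

variable (M' q A hQ)

/-- `B3 → Rw₁` -/
def toRwa : B3 M' q A hQ →+* (redDataBar (M' * q * q) A).Rw where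
  toFun x := ⟨x.1, x.2.2.1⟩
  map_one' := Subtype.ext rfl
  map_mul' _ _ := Subtype.ext rfl
  map_zero' := Subtype.ext rfl
  map_add' _ _ := Subtype.ext rfl

/-- `B3 → Rw₂` -/
def toRwb : B3 M' q A hQ →+* (redData2Q (M' * q * q) A hQ).Rw where
  toFun x := ⟨x.1, x.2.2.2.1⟩
  map_one' := Subtype.ext rfl
  map_mul' _ _ := Subtype.ext rfl
  map_zero' := Subtype.ext rfl
  map_add' _ _ := Subtype.ext rfl

/-- `B3 → Rw₃` -/
def toRwc : B3 M' q A hQ →+* (redData3 (M' * q * q) A q).Rw where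
  toFun x := ⟨x.1, x.2.2.2.2⟩
  map_one' := Subtype.ext rfl
  map_mul' _ _ := Subtype.ext rfl
  map_zero' := Subtype.ext rfl
  map_add' _ _ := Subtype.ext rfl

/-- **`red₁` on `B3`**, with values in `k((Q))` -/
def rd1 : B3 M' q A hQ →+* LaurentSeries kA :=
  (FresBar (M' * q * q) A).val.toRingHom.comp
    ((redDataBar (M' * q * q) A).red.comp (toRwa M' q A hQ))

/-- **`red₂` on `B3`**, with values in `k((Q))` -/
def rd2 : B3 M' q A hQ →+* LaurentSeries kA :=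
  (FresBar (M' * q * q) A).val.toRingHom.comp
    ((redData2Q (M' * q * q) A hQ).red.comp (toRwb M' q A hQ))

/-- **`red₃` on `B3`**, with values in `k((t))` -/
def rd3 : B3 M' q A hQ →+* LaurentSeries kA :=
  (FresCusp (M' * q * q) A (cusp3 (M' * q * q) q)).val.toRingHom.comp
    ((redData3 (M' * q * q) A q).red.comp (toRwc M' q A hQ))

theorem rd1_apply (x : B3 M' q A hQ) :
    rd1 M' q A hQ x = (((redDataBar (M' * q * q) A).red ⟨x.1, x.2.2.1⟩ :
      FresBar (M' * q * q) A) : LaurentSeries kA) := rfl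

theorem rd2_apply (x : B3 M' q A hQ) :
    rd2 M' q A hQ x = (((redData2Q (M' * q * q) A hQ).red ⟨x.1, x.2.2.2.1⟩ :
      FresBar (M' * q * q) A) : LaurentSeries kA) := rfl

theorem rd3_apply (x : B3 M' q A hQ) :
    rd3 M' q A hQ x = (((redData3 (M' * q * q) A q).red ⟨x.1, x.2.2.2.2⟩ :
      FresCusp (M' * q * q) A (cusp3 (M' * q * q) q)) : LaurentSeries kA) := rfl

theorem rd1_algebraMap (a : A) :
    rd1 M' q A hQ ⟨algebraMap Kbar (FN (M' * q * q)) (a : Kbar), algebraMap_mem_B3 a⟩ =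
      algebraMap kA (LaurentSeries kA) (residue A a) := by
  rw [rd1_apply]
  have := (redDataBar (M' * q * q) A).red_algebraMap a
  exact congrArg (fun y : FresBar (M' * q * q) A => (y : LaurentSeries kA)) this

theorem rd2_algebraMap (a : A) :
    rd2 M' q A hQ ⟨algebraMap Kbar (FN (M' * q * q)) (a : Kbar), algebraMap_mem_B3 a⟩ =
      algebraMap kA (LaurentSeries kA) (residue A a) := by
  rw [rd2_apply]
  have := (redData2Q (M' * q * q) A hQ).red_algebraMap a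
  exact congrArg (fun y : FresBar (M' * q * q) A => (y : LaurentSeries kA)) this

theorem rd3_algebraMap (a : A) :
    rd3 M' q A hQ ⟨algebraMap Kbar (FN (M' * q * q)) (a : Kbar), algebraMap_mem_B3 a⟩ =
      algebraMap kA (LaurentSeries kA) (residue A a) := by
  rw [rd3_apply]
  have := (redData3 (M' * q * q) A q).red_algebraMap a
  exact congrArg (fun y : FresCusp (M' * q * q) A (cusp3 (M' * q * q) q) =>
    (y : LaurentSeries kA)) this

/-- the third coordinate: `z ↦ z(t^N)` -/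
def cVal3 : CRing M' A →+* LaurentSeries kA :=
  (qExpand kA (M' * q * q)).comp (cVal M' A).toRingHom

theorem cVal3_apply (c : CRing M' A) :
    cVal3 M' q A c = qExpand kA (M' * q * q) (cVal M' A c) := rfl

/-- `B̃₃` as a subring of `C × C × C` -/
def BT3sub : Subring (CRing M' A × CRing M' A × CRing M' A) :=
  (((rd1 M' q A hQ).prod ((rd2 M' q A hQ).prod (rd3 M' q A hQ))).range).comap
    (RingHom.prodMap (cVal M' A).toRingHom
      (RingHom.prodMap (cVal M' A).toRingHom (cVal3 M' q A)))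

theorem mem_BT3sub {z : CRing M' A × CRing M' A × CRing M' A} :
    z ∈ BT3sub M' q A hQ ↔ ∃ x : B3 M' q A hQ, rd1 M' q A hQ x = cVal M' A z.1 ∧
      rd2 M' q A hQ x = cVal M' A z.2.1 ∧ rd3 M' q A hQ x = cVal3 M' q A z.2.2 := by
  rw [BT3sub, Subring.mem_comap, RingHom.mem_range]
  constructor
  · rintro ⟨x, hx⟩
    exact ⟨x, congrArg Prod.fst hx, congrArg (fun w => w.2.1) hx, congrArg (fun w => w.2.2) hx⟩
  · rintro ⟨x, h1, h2, h3⟩
    exact ⟨x, Prod.ext h1 (Prod.ext h2 h3)⟩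

/-- **`B̃₃`**, the reduction of `B3` inside `C × C × C` -/
def BT3 : Subalgebra kA (CRing M' A × CRing M' A × CRing M' A) where
  toSubsemiring := (BT3sub M' q A hQ).toSubsemiring
  algebraMap_mem' := by
    intro c
    obtain ⟨a, rfl⟩ := residue_surjective c
    show _ ∈ BT3sub M' q A hQ
    rw [mem_BT3sub]
    refine ⟨⟨algebraMap Kbar (FN (M' * q * q)) (a : Kbar), algebraMap_mem_B3 a⟩, ?_, ?_, ?_⟩
    · show _ = cVal M' A (algebraMap kA (CRing M' A) (residue A a))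
      exact (rd1_algebraMap M' q A hQ a).trans ((cVal M' A).commutes _).symm
    · show _ = cVal M' A (algebraMap kA (CRing M' A) (residue A a))
      exact (rd2_algebraMap M' q A hQ a).trans ((cVal M' A).commutes _).symm
    · show _ = cVal3 M' q A (algebraMap kA (CRing M' A) (residue A a))
      rw [rd3_algebraMap, cVal3_apply, (cVal M' A).commutes, algebraMap_laurentSeries_eq_single,
        qExpand_single, mul_zero]

theorem mem_BT3 {z : CRing M' A × CRing M' A × CRing M' A} :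
    z ∈ BT3 M' q A hQ ↔ ∃ x : B3 M' q A hQ, rd1 M' q A hQ x = cVal M' A z.1 ∧
      rd2 M' q A hQ x = cVal M' A z.2.1 ∧ rd3 M' q A hQ x = cVal3 M' q A z.2.2 :=
  mem_BT3sub M' q A hQ

/-! ### the old triples -/

theorem cVal_psiC (hqM : ¬ q ∣ M') (hA : A.LiesOverPrime q) (c : CRing M' A) :
    cVal M' A (psiC M' q A hqM hA c) = qExpand kA q (cVal M' A c) := rfl

section Old

variable (h2 : q = 2 → 3 ∣ M') (h3 : q = 3 → 2 ∣ M')
include h2 h3

/-- coercion `FresBar M' A → k((Q))` -/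
local notation "c0" => (fun y : FresBar M' A => (y : LaurentSeries kA))

/-- **`(c, Ψ² c, c) ∈ B̃₃`** (reduction of `d0 f`, `f` a lift of `c`) -/
theorem old0_mem_BT3 (c : CRing M' A) :
    ((c, psiC M' q A hqM hA (psiC M' q A hqM hA c), c) :
      CRing M' A × CRing M' A × CRing M' A) ∈ BT3 M' q A hQ := by
  obtain ⟨f, hfw, hfreg, hfa⟩ := exists_lift_bar M' A hqM hA h2 h3 c.2
  have hfa' : (((redDataBar M' A).red ⟨f, hfw⟩ : FresBar M' A) : LaurentSeries kA) =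
      cVal M' A c := congrArg c0 hfa
  have hB := d0_mem_B3 (hQ := hQ) hqM hfreg hfw
  rw [mem_BT3]
  refine ⟨⟨d0 M' q f, hB⟩, ?_, ?_, ?_⟩
  · rw [rd1_apply]
    exact (coe_red1_d0 f hfw hB.2.1).trans hfa'
  · rw [rd2_apply]
    show _ = cVal M' A (psiC M' q A hqM hA (psiC M' q A hqM hA c))
    rw [cVal_psiC M' q A hqM hA, cVal_psiC M' q A hqM hA, ← hfa']
    exact coe_red2_d0 f hfw hqM hB.2.2.1
  · rw [rd3_apply, cVal3_apply]
    show _ = qExpand kA (M' * q * q) (cVal M' A c)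
    rw [← hfa']
    exact coe_red3_d0 f hfw hB.2.2.2

/-- **`(Ψ c, Ψ c, Ψ c) ∈ B̃₃`** (reduction of `d1 f`, `f` a lift of `c`) -/
theorem old1_mem_BT3 (c : CRing M' A) :
    ((psiC M' q A hqM hA c, psiC M' q A hqM hA c, psiC M' q A hqM hA c) :
      CRing M' A × CRing M' A × CRing M' A) ∈ BT3 M' q A hQ := by
  obtain ⟨f, hfw, hfreg, hfa⟩ := exists_lift_bar M' A hqM hA h2 h3 c.2
  have hfa' : (((redDataBar M' A).red ⟨f, hfw⟩ : FresBar M' A) : LaurentSeries kA) =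
      cVal M' A c := congrArg c0 hfa
  have hB := d1_mem_B3 (hQ := hQ) hqM hfreg hfw
  rw [mem_BT3]
  refine ⟨⟨d1 M' q f, hB⟩, ?_, ?_, ?_⟩
  · rw [rd1_apply]
    show _ = cVal M' A (psiC M' q A hqM hA c)
    rw [cVal_psiC M' q A hqM hA, ← hfa']
    exact coe_red1_d1 f hfw hB.2.1
  · rw [rd2_apply]
    show _ = cVal M' A (psiC M' q A hqM hA c)
    rw [cVal_psiC M' q A hqM hA, ← hfa']
    exact coe_red2_d1 f hfw hqM hB.2.2.1
  · rw [rd3_apply, cVal3_apply]
    show _ = qExpand kA (M' * q * q) (cVal M' A (psiC M' q A hqM hA c))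
    rw [cVal_psiC M' q A hqM hA, ← hfa']
    exact coe_red3_d1 f hfw hB.2.2.2

/-- **`(Ψ² c, c, c) ∈ B̃₃`** (reduction of `d2 f`, `f` a lift of `c`) -/
theorem old2_mem_BT3 (c : CRing M' A) :
    ((psiC M' q A hqM hA (psiC M' q A hqM hA c), c, c) :
      CRing M' A × CRing M' A × CRing M' A) ∈ BT3 M' q A hQ := by
  obtain ⟨f, hfw, hfreg, hfa⟩ := exists_lift_bar M' A hqM hA h2 h3 c.2
  have hfa' : (((redDataBar M' A).red ⟨f, hfw⟩ : FresBar M' A) : LaurentSeries kA) =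
      cVal M' A c := congrArg c0 hfa
  have hB := d2_mem_B3 (hQ := hQ) hqM hfreg hfw
  rw [mem_BT3]
  refine ⟨⟨d2 M' q f, hB⟩, ?_, ?_, ?_⟩
  · rw [rd1_apply]
    show _ = cVal M' A (psiC M' q A hqM hA (psiC M' q A hqM hA c))
    rw [cVal_psiC M' q A hqM hA, cVal_psiC M' q A hqM hA, ← hfa']
    exact coe_red1_d2 f hfw hB.2.1
  · rw [rd2_apply]
    exact (coe_red2_d2 f hfw hqM hB.2.2.1).trans hfa'
  · rw [rd3_apply, cVal3_apply]
    show _ = qExpand kA (M' * q * q) (cVal M' A c)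
    rw [← hfa']
    exact coe_red3_d2 f hfw hqM hA hB.2.2.2

/-- **the conductor of `B̃₃` in `C × C × C` contains `𝔞² × 𝔞² × 𝔞²`**, `𝔞 = fixIdeal Ψ`
(helper29's `FrobGlue3.conductor_mul_mem` for the old triples). -/
theorem conductor_BT3 {x y z : CRing M' A}
    (hx : x ∈ fixIdeal (psiC M' q A hqM hA) ^ 2) (hy : y ∈ fixIdeal (psiC M' q A hqM hA) ^ 2)
    (hz : z ∈ fixIdeal (psiC M' q A hqM hA) ^ 2) (w : CRing M' A × CRing M' A × CRing M' A) :
    ((x, y, z) : CRing M' A × CRing M' A × CRing M' A) * w ∈ BT3 M' q A hQ :=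
  Fermat.Agent.GL.FrobGlue3.conductor_mul_mem (psiC M' q A hqM hA) (BT3 M' q A hQ)
    (old0_mem_BT3 M' q A hQ hqM hA h2 h3) (old1_mem_BT3 M' q A hQ hqM hA h2 h3)
    (old2_mem_BT3 M' q A hQ hqM hA h2 h3) hx hy hz w

/-- `𝔞 ⊆ J₁₃`: the components `1` and `3` of `B̃₃` are glued along (at most) `fixIdeal Ψ` -/
theorem fixIdeal_le_J13_BT3 :
    fixIdeal (psiC M' q A hqM hA) ≤
      Fermat.Agent.GL.FrobGlue3.J13 (psiC M' q A hqM hA) (BT3 M' q A hQ)
        (old0_mem_BT3 M' q A hQ hqM hA h2 h3) :=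
  Fermat.Agent.GL.FrobGlue3.fixIdeal_le_J13 (psiC M' q A hqM hA) (BT3 M' q A hQ)
    (old0_mem_BT3 M' q A hQ hqM hA h2 h3) (old2_mem_BT3 M' q A hQ hqM hA h2 h3)

/-- `𝔞 ⊆ J₂₃` -/
theorem fixIdeal_le_J23_BT3 :
    fixIdeal (psiC M' q A hqM hA) ≤
      Fermat.Agent.GL.FrobGlue3.J23 (psiC M' q A hqM hA) (BT3 M' q A hQ)
        (old2_mem_BT3 M' q A hQ hqM hA h2 h3) :=
  Fermat.Agent.GL.FrobGlue3.fixIdeal_le_J23 (psiC M' q A hqM hA) (BT3 M' q A hQ)
    (old0_mem_BT3 M' q A hQ hqM hA h2 h3) (old2_mem_BT3 M' q A hQ hqM hA h2 h3)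

end Old

end Fermat.Agent.GL.OldTriples
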