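import Fermat.Agent.GL.Fibre.OldTriplesK0
import Fermat.Agent.GK.Red.FrobChart

/-!
# GATE-L / (hB3) over `K₀` (helper15): the three reductions of `B3K0` land in `C`

Notation of `GL/Fibre/OldTriplesK0.lean`: `N = M' q q`, `B3K0 ⊂ K₀(X₀(N))` the chart ring of the
`j`-frame over `R₀`, `rdK1 rdK2 rdK3 : B3K0 →+* k((X))`, `C = CRing M' A`,
`cVal : C → k((Q))`, `cVal3 = (X ↦ X^N) ∘ cVal`.

WARNING: the statement is FALSE over `A ⊂ ℚ̄` (for `B3` instead of `B3K0`): over `ℚ̄` the residue field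
of `w₃` is a proper extension of `k(X₀(M'))` (this is why `e₃ = q - 1` only over `K₀`).

* `rhoK1 rhoK2 rhoK3` : the three reductions on the WHOLE valuation rings `RwK0`, `(redData2QK0).Rw`,
  `Rw3K0` (values in `k((X))`), kernels = nonunits; `rdK_i x0 = rhoK_i ⟨x0, _⟩`
  (the `ρ_i` of helper29's `RegRedRing`, with `c_i := cVal, cVal, cVal3`);
* `isIntegral_map_of_subring` : integrality passes to a reduction (generic);
* `j0 : B3K0`, `rdK1_j0 = j~`, `rdK2_j0 = j~(X^{q²})`, `rdK3_j0 = j~(X^N)`;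
* **`exists_cVal_eq`** = (hB3): for every `x0 : B3K0` there is `z : C × C × C` with
  `cVal z.1 = rdK1 x0`, `cVal z.2.1 = rdK2 x0`, `cVal3 z.2.2 = rdK3 x0`, from
  (INT)  `x0` integral over `R₀[j]`            [L1e: `mem_ball_W3_iff` + helper96 `IntegralBridge`],
  (RES1) `red₁ (RwK0 A N) ⊆ FresBar M' A`        [L1e: `f₁ = ψ(M')`],
  (RES3) `red₃ (Rw3K0 A N q) ⊆ (FresBar M' A)(X^N)` [L1e: `f₃ = ψ(M')`];
* `rK0 : B3K0 →+* C × C × C` the resulting reduction, `BT3K0 = range`, old triples in the range.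
-/

set_option autoImplicit false
set_option linter.unusedSectionVars false

noncomputable section

namespace Fermat.Agent.GL.RedInC

open HahnSeries ModularCurve IsLocalRing
open Fermat.Agent.S24 Fermat.Agent.S24_helper62 Fermat.Agent.S24_helper82
open Fermat.Agent.GJ.J1 Fermat.Agent.GJ.J1.Val Fermat.Agent.GJ.J1.Haupt Fermat.Agent.GJ.HN
open Fermat.Agent.GK.AL
open Fermat.Agent.GK.QS Fermat.Agent.GK.FrobGlue Fermat.Agent.GL.AL Fermat.Agent.GL.W3
open Fermat.Agent.GL.CuspVal Fermat.Agent.GL.OldTriples Fermat.Agent.GL.OldTriplesK0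
open Fermat.Agent.GL.Val.GaussK0 Fermat.Agent.GL.Val.SecondK0 Fermat.Agent.GL.Val.SecondK0Hall
open Fermat.Agent.GL.Val.ThirdK0 Fermat.Agent.GL.Table.K0 Fermat.Agent.GL.RatChart
open Fermat.Agent.GL.Val.OrthK0 Fermat.Agent.GL.Val.DegBase Fermat.Agent.GK.Red

/-! ### generic: integrality passes to a reduction -/

section Generic

open Polynomial

/-- **integrality passes to a reduction**: `S ⊆ B ⊆ F`, `ρ : B →+* L` with `ρ S ⊆ T`;
`x ∈ B` integral over `S` ⟹ `ρ x` integral over `T`. -/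
theorem isIntegral_map_of_subring {Rb F L kk : Type*} [CommRing Rb] [Field F] [Algebra Rb F]
    [CommRing kk] [CommRing L] [Algebra kk L] (S : Subalgebra Rb F) (B : Subring F)
    (hSB : ∀ z ∈ S, z ∈ B) (ρ : B →+* L) (T : Subalgebra kk L)
    (hρ : ∀ z (hz : z ∈ S), ρ ⟨z, hSB z hz⟩ ∈ T) {x : F} (hx : x ∈ B)
    (hint : IsIntegral S x) : IsIntegral T (ρ ⟨x, hx⟩) := by
  obtain ⟨p, hpm, hp0⟩ := hint
  let inclSB : S →+* B := (S.val.toRingHom : S →+* F).codRestrict B (fun z => hSB z.1 z.2)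
  let θ : S →+* T := (ρ.comp inclSB).codRestrict T (fun z => hρ z.1 z.2)
  refine ⟨p.map θ, hpm.map θ, ?_⟩
  rw [eval₂_map]
  have hcomp : (algebraMap T L).comp θ = ρ.comp inclSB := RingHom.ext fun z => rfl
  rw [hcomp, ← hom_eval₂]
  have h0 : eval₂ inclSB (⟨x, hx⟩ : B) p = 0 := by
    apply Subtype.ext
    show B.subtype (eval₂ inclSB (⟨x, hx⟩ : B) p) = 0
    rw [hom_eval₂]
    exact hp0
  rw [h0, map_zero]

end Generic

variable (M' : ℕ) [NeZero M'] (q : ℕ) [hqF : Fact q.Prime] [NeZero q]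
variable (A : ValuationSubring Kbar) (hQ : HallDvd (q ^ 2) (M' * q * q))
variable (hqM : ¬ q ∣ M') (hA : A.LiesOverPrime q)

local notation "kA" => ResidueField A

/-! ### the three reductions on the whole valuation rings -/

/-- `red₁` on `RwK0`, with values in `k((X))` -/
def rhoK1 : RwK0 A (M' * q * q) →+* LaurentSeries kA :=
  (FresBar (M' * q * q) A).val.toRingHom.comp ((redDataBar (M' * q * q) A).red.comp
    (((mapK0Bar A (M' * q * q)).comp (RwK0 A (M' * q * q)).subtype).codRestrict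
      (redDataBar (M' * q * q) A).Rw (fun x => (mem_Rw1K0_iff A (M' * q * q) x.1).1 x.2)))

/-- `red₂` on `(redData2QK0).Rw`, with values in `k((X))` -/
def rhoK2 : (redData2QK0 A (M' * q * q) hQ).Rw →+* LaurentSeries kA :=
  (FresBar (M' * q * q) A).val.toRingHom.comp ((redData2Q (M' * q * q) A hQ).red.comp
    (((mapK0Bar A (M' * q * q)).comp (redData2QK0 A (M' * q * q) hQ).Rw.subtype).codRestrict
      (redData2Q (M' * q * q) A hQ).Rw (fun x => (mem_Rw2QK0_iff A (M' * q * q) hQ x.1).1 x.2)))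

/-- `red₃` on `Rw3K0`, with values in `k((X))` -/
def rhoK3 : Rw3K0 A (M' * q * q) q →+* LaurentSeries kA :=
  (FresCusp (M' * q * q) A (cusp3 (M' * q * q) q)).val.toRingHom.comp
    ((redData3 (M' * q * q) A q).red.comp
    (((mapK0Bar A (M' * q * q)).comp (Rw3K0 A (M' * q * q) q).subtype).codRestrict
      (redData3 (M' * q * q) A q).Rw
      (fun x => (mem_Rw3K0_iff_mapK0Bar A (M' * q * q) x.1).1 x.2)))

theorem rhoK1_apply (x : RwK0 A (M' * q * q)) :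
    rhoK1 M' q A x = (((redDataBar (M' * q * q) A).red
      ⟨mapK0Bar A (M' * q * q) x.1, (mem_Rw1K0_iff A (M' * q * q) x.1).1 x.2⟩ :
        FresBar (M' * q * q) A) : LaurentSeries kA) := rfl

theorem rhoK2_apply (x : (redData2QK0 A (M' * q * q) hQ).Rw) :
    rhoK2 M' q A hQ x = (((redData2Q (M' * q * q) A hQ).red
      ⟨mapK0Bar A (M' * q * q) x.1, (mem_Rw2QK0_iff A (M' * q * q) hQ x.1).1 x.2⟩ :
        FresBar (M' * q * q) A) : LaurentSeries kA) := rfl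

theorem rhoK3_apply (x : Rw3K0 A (M' * q * q) q) :
    rhoK3 M' q A x = (((redData3 (M' * q * q) A q).red
      ⟨mapK0Bar A (M' * q * q) x.1, (mem_Rw3K0_iff_mapK0Bar A (M' * q * q) x.1).1 x.2⟩ :
        FresCusp (M' * q * q) A (cusp3 (M' * q * q) q)) : LaurentSeries kA) := rfl

/-- `rdK1` is the restriction of `rhoK1` -/
theorem rdK1_eq_rhoK1 (x0 : B3K0 M' q A hQ) :
    rdK1 M' q A hQ x0 = rhoK1 M' q A ⟨x0.1, (mem_B3K0_iff.1 x0.2).2.1⟩ := rfl

/-- `rdK2` is the restriction of `rhoK2` -/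
theorem rdK2_eq_rhoK2 (x0 : B3K0 M' q A hQ) :
    rdK2 M' q A hQ x0 = rhoK2 M' q A hQ ⟨x0.1, (mem_B3K0_iff.1 x0.2).2.2.1⟩ := rfl

/-- `rdK3` is the restriction of `rhoK3` -/
theorem rdK3_eq_rhoK3 (x0 : B3K0 M' q A hQ) :
    rdK3 M' q A hQ x0 = rhoK3 M' q A ⟨x0.1, (mem_B3K0_iff.1 x0.2).2.2.2⟩ := rfl

/-! ### kernels -/

theorem coe_mem_maximalIdeal_iff {F : Type*} [Field F] (W : ValuationSubring F) (x : W) :
    x ∈ maximalIdeal W ↔ (x : F) ∈ W.nonunits := by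
  rw [ValuationSubring.mem_nonunits_iff_exists_mem_maximalIdeal]
  exact ⟨fun h => ⟨x.2, h⟩, fun ⟨_, h⟩ => h⟩

/-- `ker rhoK1 = {w₁ > 0}` -/
theorem rhoK1_eq_zero_iff (x : RwK0 A (M' * q * q)) :
    rhoK1 M' q A x = 0 ↔ (x : modularFunctionFieldFullC (K0 A) (M' * q * q)) ∈
      (RwK0 A (M' * q * q)).nonunits := by
  rw [rhoK1_apply, ZeroMemClass.coe_eq_zero, (redDataBar (M' * q * q) A).red_eq_zero_iff,
    coe_mem_maximalIdeal_iff, mem_nonunits_Rw1K0_iff]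

/-- `ker rhoK2 = {w₂ > 0}` -/
theorem rhoK2_eq_zero_iff (x : (redData2QK0 A (M' * q * q) hQ).Rw) :
    rhoK2 M' q A hQ x = 0 ↔ (x : modularFunctionFieldFullC (K0 A) (M' * q * q)) ∈
      (redData2QK0 A (M' * q * q) hQ).Rw.nonunits := by
  rw [rhoK2_apply, ZeroMemClass.coe_eq_zero, (redData2Q (M' * q * q) A hQ).red_eq_zero_iff,
    coe_mem_maximalIdeal_iff, mem_nonunits_Rw2QK0_iff]

/-- `ker rhoK3 = {w₃ > 0}` -/
theorem rhoK3_eq_zero_iff (x : Rw3K0 A (M' * q * q) q) :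
    rhoK3 M' q A x = 0 ↔ (x : modularFunctionFieldFullC (K0 A) (M' * q * q)) ∈
      (Rw3K0 A (M' * q * q) q).nonunits := by
  rw [rhoK3_apply, ZeroMemClass.coe_eq_zero, (redData3 (M' * q * q) A q).red_eq_zero_iff,
    coe_mem_maximalIdeal_iff]
  exact (mem_nonunits_of_comap (mapK0Bar A (M' * q * q)) _ _
    (Fermat.Agent.GL.Table.K0.mem_Rw3K0_iff_mapK0Bar A (M' * q * q)) x.1).symm

/-! ### the chart `j` -/

theorem mapK0Bar_jC : mapK0Bar A (M' * q * q) (jC (M' * q * q) (K0 A)) = d0 M' q (jF M') := by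
  rw [← jK0_eq_jC, mapK0Bar_jK0, d0_apply, alphaB_jF, alphaB_jF]

include hqM in
theorem d0_jF_mem_B3 : d0 M' q (jF M') ∈ B3 M' q A hQ :=
  d0_mem_B3 hqM (regFin_self _) (jF_mem_Rw M' A)

include hqM in
theorem jC_mem_B3K0 : jC (M' * q * q) (K0 A) ∈ B3K0 M' q A hQ := by
  rw [mem_B3K0, mapK0Bar_jC]
  exact d0_jF_mem_B3 M' q A hQ hqM

/-- the chart `j` as an element of `B3K0` -/
def j0 (hqM : ¬ q ∣ M') : B3K0 M' q A hQ := ⟨jC (M' * q * q) (K0 A), jC_mem_B3K0 M' q A hQ hqM⟩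

theorem toB3_j0 : toB3 M' q A hQ (j0 M' q A hQ hqM) =
    ⟨d0 M' q (jF M'), d0_jF_mem_B3 M' q A hQ hqM⟩ :=
  Subtype.ext (mapK0Bar_jC M' q A)

/-- `red₁ j = j~` -/
theorem rdK1_j0 : rdK1 M' q A hQ (j0 M' q A hQ hqM) =
    ((Fermat.Agent.GK.QS.jt M' A : FresBar M' A) : LaurentSeries kA) := by
  rw [rdK1_apply, toB3_j0, rd1_apply]
  exact coe_red1_d0 (jF M') (jF_mem_Rw M' A) (d0_jF_mem_B3 M' q A hQ hqM).2.1

/-- `red₂ j = j~(X^{q²})` -/
theorem rdK2_j0 : rdK2 M' q A hQ (j0 M' q A hQ hqM) =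
    qExpand kA q (qExpand kA q ((Fermat.Agent.GK.QS.jt M' A : FresBar M' A) : LaurentSeries kA)) := by
  rw [rdK2_apply, toB3_j0, rd2_apply]
  exact coe_red2_d0 (jF M') (jF_mem_Rw M' A) hqM (d0_jF_mem_B3 M' q A hQ hqM).2.2.1

/-- `red₃ j = j~(X^N)` -/
theorem rdK3_j0 : rdK3 M' q A hQ (j0 M' q A hQ hqM) =
    qExpand kA (M' * q * q) ((Fermat.Agent.GK.QS.jt M' A : FresBar M' A) : LaurentSeries kA) := by
  rw [rdK3_apply, toB3_j0, rd3_apply]
  exact coe_red3_d0 (jF M') (jF_mem_Rw M' A) (d0_jF_mem_B3 M' q A hQ hqM).2.2.2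

include hA in
/-- `red₂ j = (j~)^{q²}` inside `FresBar M' A` -/
theorem rdK2_j0_eq_pow : rdK2 M' q A hQ (j0 M' q A hQ hqM) =
    (((Fermat.Agent.GK.QS.jt M' A ^ q) ^ q : FresBar M' A) : LaurentSeries kA) := by
  rw [rdK2_j0, ← psiF_jt M' q A hqM hA, ← map_pow, ← psiF_jt M' q A hqM hA, coe_psiF, coe_psiF]

/-! ### integrality of the reductions -/

section Int

variable {Rb : Type*} [CommRing Rb]
  [Algebra Rb (modularFunctionFieldFullC (K0 A) (M' * q * q))]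
  (hRb : ∀ r : Rb, ∃ a : R0 A,
    algebraMap Rb (modularFunctionFieldFullC (K0 A) (M' * q * q)) r =
      algebraMap (K0 A) (modularFunctionFieldFullC (K0 A) (M' * q * q)) (a : K0 A))

include hRb hqM in
/-- `R₀[j] ⊆ B3K0` -/
theorem adjoin_le_B3K0 :
    ∀ z ∈ Algebra.adjoin Rb {jC (M' * q * q) (K0 A)}, z ∈ B3K0 M' q A hQ := by
  intro z hz
  induction hz using Algebra.adjoin_induction with
  | mem y hy =>
    rw [Set.mem_singleton_iff.1 hy]
    exact jC_mem_B3K0 M' q A hQ hqM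
  | algebraMap r =>
    obtain ⟨a, ha⟩ := hRb r
    rw [ha]
    exact algebraMap_mem_B3K0 M' q A hQ a
  | add _ _ _ _ hx hy => exact add_mem hx hy
  | mul _ _ _ _ hx hy => exact mul_mem hx hy

include hRb in
/-- a reduction `ρ` of `B3K0` sending `R₀` to constants sends `R₀[j]` into `k[ρ j]` -/
theorem exists_map_adjoin_mem (ρ : B3K0 M' q A hQ →+* LaurentSeries kA)
    (hρc : ∀ a : R0 A, ρ ⟨_, algebraMap_mem_B3K0 M' q A hQ a⟩ ∈
      (algebraMap kA (LaurentSeries kA)).range)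
    (z : modularFunctionFieldFullC (K0 A) (M' * q * q))
    (hz : z ∈ Algebra.adjoin Rb {jC (M' * q * q) (K0 A)}) :
    ∃ hz' : z ∈ B3K0 M' q A hQ,
      ρ ⟨z, hz'⟩ ∈ Algebra.adjoin kA {ρ (j0 M' q A hQ hqM)} := by
  induction hz using Algebra.adjoin_induction with
  | mem y hy =>
    refine ⟨by rw [Set.mem_singleton_iff.1 hy]; exact jC_mem_B3K0 M' q A hQ hqM, ?_⟩
    have : (⟨y, by rw [Set.mem_singleton_iff.1 hy]; exact jC_mem_B3K0 M' q A hQ hqM⟩ :
        B3K0 M' q A hQ) = j0 M' q A hQ hqM := Subtype.ext (Set.mem_singleton_iff.1 hy)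
    rw [this]
    exact Algebra.self_mem_adjoin_singleton kA _
  | algebraMap r =>
    obtain ⟨a, ha⟩ := hRb r
    refine ⟨by rw [ha]; exact algebraMap_mem_B3K0 M' q A hQ a, ?_⟩
    have : (⟨algebraMap Rb (modularFunctionFieldFullC (K0 A) (M' * q * q)) r,
        by rw [ha]; exact algebraMap_mem_B3K0 M' q A hQ a⟩ : B3K0 M' q A hQ) =
        ⟨_, algebraMap_mem_B3K0 M' q A hQ a⟩ := Subtype.ext ha
    rw [this]
    obtain ⟨c, hc⟩ := hρc a
    rw [← hc]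
    exact Subalgebra.algebraMap_mem _ c
  | add x y _ _ hx hy =>
    obtain ⟨hx', hx''⟩ := hx
    obtain ⟨hy', hy''⟩ := hy
    refine ⟨add_mem hx' hy', ?_⟩
    have : (⟨x + y, add_mem hx' hy'⟩ : B3K0 M' q A hQ) = ⟨x, hx'⟩ + ⟨y, hy'⟩ := rfl
    rw [this, map_add]
    exact add_mem hx'' hy''
  | mul x y _ _ hx hy =>
    obtain ⟨hx', hx''⟩ := hx
    obtain ⟨hy', hy''⟩ := hy
    refine ⟨mul_mem hx' hy', ?_⟩
    have : (⟨x * y, mul_mem hx' hy'⟩ : B3K0 M' q A hQ) = ⟨x, hx'⟩ * ⟨y, hy'⟩ := rfl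
    rw [this, map_mul]
    exact mul_mem hx'' hy''

include hRb in
/-- **integrality passes to the reductions of `B3K0`** -/
theorem regFin_map_of_isIntegral (ρ : B3K0 M' q A hQ →+* LaurentSeries kA)
    (hρc : ∀ a : R0 A, ρ ⟨_, algebraMap_mem_B3K0 M' q A hQ a⟩ ∈
      (algebraMap kA (LaurentSeries kA)).range)
    (x0 : B3K0 M' q A hQ)
    (hint : IsIntegral (Algebra.adjoin Rb {jC (M' * q * q) (K0 A)})
      (x0 : modularFunctionFieldFullC (K0 A) (M' * q * q))) :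
    RegFin kA (ρ (j0 M' q A hQ hqM)) (ρ x0) :=
  isIntegral_map_of_subring (Algebra.adjoin Rb {jC (M' * q * q) (K0 A)}) (B3K0 M' q A hQ)
    (adjoin_le_B3K0 M' q A hQ hqM hRb) ρ (Algebra.adjoin kA {ρ (j0 M' q A hQ hqM)})
    (fun z hz => (exists_map_adjoin_mem M' q A hQ hqM hRb ρ hρc z hz).2) x0.2 hint

end Int

/-! ### `w₂` has the same residue field as `w₁` -/

/-- `red₂ x = red₁ (W_{q²} x)` -/
theorem rhoK2_eq_rhoK1 (x : (redData2QK0 A (M' * q * q) hQ).Rw) :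
    rhoK2 M' q A hQ x = rhoK1 M' q A ⟨wAutQK0 A (M' * q * q) hQ x.1, x.2⟩ := by
  rw [rhoK2_apply, rhoK1_apply, red2Q_eq]
  have : (⟨wAutQ hQ (mapK0Bar A (M' * q * q) x.1),
      (mem_Rw2QK0_iff A (M' * q * q) hQ x.1).1 x.2⟩ : (redDataBar (M' * q * q) A).Rw) =
      ⟨mapK0Bar A (M' * q * q) (wAutQK0 A (M' * q * q) hQ x.1),
        (mem_Rw1K0_iff A (M' * q * q) _).1 x.2⟩ :=
    Subtype.ext (mapK0Bar_wAutQK0 A (M' * q * q) hQ x.1).symm
  rw [this]

/-! ### (hB3) -/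

theorem isIntegralElem_id {k : Type*} [Field k] (c : k) : (RingHom.id k).IsIntegralElem c :=
  ⟨Polynomial.X - Polynomial.C c, Polynomial.monic_X_sub_C c, by simp⟩

/-- `RegFin` descends along `FresBar M' A ⊂ k((Q))` -/
theorem regFin_of_coe {s y : FresBar M' A}
    (h : RegFin kA ((s : FresBar M' A) : LaurentSeries kA) (y : LaurentSeries kA)) :
    RegFin kA s y :=
  Fermat.Agent.GL.RatBRing.regFin_of_map (RingHom.id kA) (FresBar M' A).val.toRingHom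
    (fun _ => rfl) isIntegralElem_id h

/-- `RegFin` descends along `FresBar M' A → k((X))`, `Q ↦ X^n` -/
theorem regFin_of_qExpand (n : ℕ) [NeZero n] {s y : FresBar M' A}
    (h : RegFin kA (qExpand kA n ((s : FresBar M' A) : LaurentSeries kA))
      (qExpand kA n (y : LaurentSeries kA))) : RegFin kA s y :=
  Fermat.Agent.GL.RatBRing.regFin_of_map (RingHom.id kA)
    ((qExpand kA n).comp (FresBar M' A).val.toRingHom)
    (fun a => by
      show qExpand kA n (algebraMap kA (LaurentSeries kA) a) = algebraMap kA (LaurentSeries kA) a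
      rw [algebraMap_laurentSeries_eq_single, qExpand_single, mul_zero])
    isIntegralElem_id h

section HB3

variable {Rb : Type*} [CommRing Rb]
  [Algebra Rb (modularFunctionFieldFullC (K0 A) (M' * q * q))]
  (hRb : ∀ r : Rb, ∃ a : R0 A,
    algebraMap Rb (modularFunctionFieldFullC (K0 A) (M' * q * q)) r =
      algebraMap (K0 A) (modularFunctionFieldFullC (K0 A) (M' * q * q)) (a : K0 A))
  (hint : ∀ x0 : B3K0 M' q A hQ, IsIntegral (Algebra.adjoin Rb {jC (M' * q * q) (K0 A)})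
    (x0 : modularFunctionFieldFullC (K0 A) (M' * q * q)))
  (hres1 : ∀ x : RwK0 A (M' * q * q), rhoK1 M' q A x ∈ FresBar M' A)
  (hres3 : ∀ x : Rw3K0 A (M' * q * q) q, ∃ y : FresBar M' A,
    rhoK3 M' q A x =
      qExpand (ResidueField A) (M' * q * q) (y : LaurentSeries (ResidueField A)))

include hqM hRb hint hres1 in
/-- (hB3), first component -/
theorem exists_cVal_eq_rdK1 (x0 : B3K0 M' q A hQ) :
    ∃ c : CRing M' A, cVal M' A c = rdK1 M' q A hQ x0 := by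
  have h1 := regFin_map_of_isIntegral M' q A hQ hqM hRb (rdK1 M' q A hQ)
    (fun a => ⟨_, (rdK1_algebraMap M' q A hQ a).symm⟩) x0 (hint x0)
  rw [rdK1_j0] at h1
  have hy : rdK1 M' q A hQ x0 ∈ FresBar M' A := hres1 ⟨x0.1, (mem_B3K0_iff.1 x0.2).2.1⟩
  exact ⟨⟨⟨_, hy⟩, regFin_of_coe M' A h1⟩, rfl⟩

include hqM hA hRb hint hres1 in
/-- (hB3), second component -/
theorem exists_cVal_eq_rdK2 (x0 : B3K0 M' q A hQ) :
    ∃ c : CRing M' A, cVal M' A c = rdK2 M' q A hQ x0 := by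
  have h1 := regFin_map_of_isIntegral M' q A hQ hqM hRb (rdK2 M' q A hQ)
    (fun a => ⟨_, (rdK2_algebraMap M' q A hQ a).symm⟩) x0 (hint x0)
  rw [rdK2_j0_eq_pow M' q A hQ hqM hA] at h1
  have hy : rdK2 M' q A hQ x0 ∈ FresBar M' A := by
    rw [rdK2_eq_rhoK2, rhoK2_eq_rhoK1]
    exact hres1 _
  have hq0 : 0 < q := Nat.pos_of_ne_zero (NeZero.ne q)
  have h2 : RegFin kA (Fermat.Agent.GK.QS.jt M' A) (⟨_, hy⟩ : FresBar M' A) :=
    (regFin_pow_iff hq0).1 ((regFin_pow_iff hq0).1 (regFin_of_coe M' A h1))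
  exact ⟨⟨⟨_, hy⟩, h2⟩, rfl⟩

include hqM hRb hint hres3 in
/-- (hB3), third component -/
theorem exists_cVal3_eq_rdK3 (x0 : B3K0 M' q A hQ) :
    ∃ c : CRing M' A, cVal3 M' q A c = rdK3 M' q A hQ x0 := by
  have h1 := regFin_map_of_isIntegral M' q A hQ hqM hRb (rdK3 M' q A hQ)
    (fun a => ⟨_, (rdK3_algebraMap M' q A hQ a).symm⟩) x0 (hint x0)
  obtain ⟨y, hy⟩ := hres3 ⟨x0.1, (mem_B3K0_iff.1 x0.2).2.2.2⟩
  have hy' : rdK3 M' q A hQ x0 = qExpand kA (M' * q * q) (y : LaurentSeries kA) := hy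
  rw [rdK3_j0, hy'] at h1
  exact ⟨⟨y, regFin_of_qExpand M' A _ h1⟩, hy'.symm⟩

include hqM hA hRb hint hres1 hres3 in
/-- **(hB3)**: the three reductions of every `x0 ∈ B3K0` lie in (the images of) `C` -/
theorem exists_cVal_eq (x0 : B3K0 M' q A hQ) :
    ∃ z : CRing M' A × CRing M' A × CRing M' A, cVal M' A z.1 = rdK1 M' q A hQ x0 ∧
      cVal M' A z.2.1 = rdK2 M' q A hQ x0 ∧ cVal3 M' q A z.2.2 = rdK3 M' q A hQ x0 := by
  obtain ⟨c1, h1⟩ := exists_cVal_eq_rdK1 M' q A hQ hqM hRb hint hres1 x0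
  obtain ⟨c2, h2⟩ := exists_cVal_eq_rdK2 M' q A hQ hqM hA hRb hint hres1 x0
  obtain ⟨c3, h3⟩ := exists_cVal3_eq_rdK3 M' q A hQ hqM hRb hint hres3 x0
  exact ⟨(c1, c2, c3), h1, h2, h3⟩

end HB3

/-! ### the three reductions with values in `k(X₀(M')) = FresBar M' A` -/

section Fields

variable (hres1 : ∀ x : RwK0 A (M' * q * q), rhoK1 M' q A x ∈ FresBar M' A)
  (hres3 : ∀ x : Rw3K0 A (M' * q * q) q, ∃ y : FresBar M' A,
    rhoK3 M' q A x =
      qExpand (ResidueField A) (M' * q * q) (y : LaurentSeries (ResidueField A)))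

/-- **`red₁ : RwK0 → k(X₀(M'))`** -/
def redF1 : RwK0 A (M' * q * q) →+* FresBar M' A :=
  (rhoK1 M' q A).codRestrict (FresBar M' A) hres1

theorem coe_redF1 (x : RwK0 A (M' * q * q)) :
    ((redF1 M' q A hres1 x : FresBar M' A) : LaurentSeries kA) = rhoK1 M' q A x := rfl

include hres1 in
theorem rhoK2_mem (x : (redData2QK0 A (M' * q * q) hQ).Rw) :
    rhoK2 M' q A hQ x ∈ FresBar M' A := by
  rw [rhoK2_eq_rhoK1]
  exact hres1 _

/-- **`red₂ : Rw₂ → k(X₀(M'))`** -/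
def redF2 : (redData2QK0 A (M' * q * q) hQ).Rw →+* FresBar M' A :=
  (rhoK2 M' q A hQ).codRestrict (FresBar M' A) (rhoK2_mem M' q A hQ hres1)

theorem coe_redF2 (x : (redData2QK0 A (M' * q * q) hQ).Rw) :
    ((redF2 M' q A hQ hres1 x : FresBar M' A) : LaurentSeries kA) = rhoK2 M' q A hQ x := rfl

/-- the embedding `k(X₀(M')) → k((X))`, `Q ↦ X^N` -/
def emb3 : FresBar M' A →+* LaurentSeries kA :=
  (qExpand kA (M' * q * q)).comp (FresBar M' A).val.toRingHom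

theorem emb3_apply (y : FresBar M' A) :
    emb3 M' q A y = qExpand kA (M' * q * q) (y : LaurentSeries kA) := rfl

theorem emb3_injective : Function.Injective (emb3 M' q A) := fun _ _ hab =>
  Subtype.ext (qExpand_injective (M' * q * q) hab)

/-- `k(X₀(M'))` as a subring of `k((X))` via `Q ↦ X^N` -/
def emb3Equiv : FresBar M' A ≃+* (emb3 M' q A).range :=
  RingEquiv.ofBijective (emb3 M' q A).rangeRestrict
    ⟨fun _ _ h => emb3_injective M' q A (congrArg Subtype.val h),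
      (emb3 M' q A).rangeRestrict_surjective⟩

theorem emb3_emb3Equiv_symm (y : (emb3 M' q A).range) :
    emb3 M' q A ((emb3Equiv M' q A).symm y) = y :=
  congrArg Subtype.val ((emb3Equiv M' q A).apply_symm_apply y)

include hres3 in
theorem rhoK3_mem (x : Rw3K0 A (M' * q * q) q) : rhoK3 M' q A x ∈ (emb3 M' q A).range := by
  obtain ⟨y, hy⟩ := hres3 x
  exact ⟨y, hy.symm⟩

/-- **`red₃ : Rw3K0 → k(X₀(M'))`** (the reduction in the variable `t`, `t^N = Q`, read in `Q`) -/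
def redF3 : Rw3K0 A (M' * q * q) q →+* FresBar M' A :=
  ((emb3Equiv M' q A).symm : (emb3 M' q A).range →+* FresBar M' A).comp
    ((rhoK3 M' q A).codRestrict (emb3 M' q A).range (rhoK3_mem M' q A hres3))

theorem emb3_redF3 (x : Rw3K0 A (M' * q * q) q) :
    qExpand kA (M' * q * q) ((redF3 M' q A hres3 x : FresBar M' A) : LaurentSeries kA) =
      rhoK3 M' q A x :=
  emb3_emb3Equiv_symm M' q A _

/-- `ker redF1 = {w₁ > 0}` -/
theorem redF1_eq_zero_iff (x : RwK0 A (M' * q * q)) :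
    redF1 M' q A hres1 x = 0 ↔ (x : modularFunctionFieldFullC (K0 A) (M' * q * q)) ∈
      (RwK0 A (M' * q * q)).nonunits := by
  rw [← rhoK1_eq_zero_iff, ← coe_redF1 M' q A hres1, ZeroMemClass.coe_eq_zero]

/-- `ker redF2 = {w₂ > 0}` -/
theorem redF2_eq_zero_iff (x : (redData2QK0 A (M' * q * q) hQ).Rw) :
    redF2 M' q A hQ hres1 x = 0 ↔ (x : modularFunctionFieldFullC (K0 A) (M' * q * q)) ∈
      (redData2QK0 A (M' * q * q) hQ).Rw.nonunits := by
  rw [← rhoK2_eq_zero_iff, ← coe_redF2 M' q A hQ hres1, ZeroMemClass.coe_eq_zero]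

/-- `ker redF3 = {w₃ > 0}` -/
theorem redF3_eq_zero_iff (x : Rw3K0 A (M' * q * q) q) :
    redF3 M' q A hres3 x = 0 ↔ (x : modularFunctionFieldFullC (K0 A) (M' * q * q)) ∈
      (Rw3K0 A (M' * q * q) q).nonunits := by
  rw [← rhoK3_eq_zero_iff, ← emb3_redF3 M' q A hres3, ← emb3_apply,
    map_eq_zero_iff _ (emb3_injective M' q A)]

end Fields

/-! ### the reduction `rK0 : B3K0 →+* C × C × C` -/

section RK0

variable {Rb : Type*} [CommRing Rb]
  [Algebra Rb (modularFunctionFieldFullC (K0 A) (M' * q * q))]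
  (hRb : ∀ r : Rb, ∃ a : R0 A,
    algebraMap Rb (modularFunctionFieldFullC (K0 A) (M' * q * q)) r =
      algebraMap (K0 A) (modularFunctionFieldFullC (K0 A) (M' * q * q)) (a : K0 A))
  (hint : ∀ x0 : B3K0 M' q A hQ, IsIntegral (Algebra.adjoin Rb {jC (M' * q * q) (K0 A)})
    (x0 : modularFunctionFieldFullC (K0 A) (M' * q * q)))
  (hres1 : ∀ x : RwK0 A (M' * q * q), rhoK1 M' q A x ∈ FresBar M' A)
  (hres3 : ∀ x : Rw3K0 A (M' * q * q) q, ∃ y : FresBar M' A,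
    rhoK3 M' q A x =
      qExpand (ResidueField A) (M' * q * q) (y : LaurentSeries (ResidueField A)))

/-- `B3K0 → RwK0` -/
def inc1 : B3K0 M' q A hQ →+* RwK0 A (M' * q * q) :=
  (B3K0 M' q A hQ).subtype.codRestrict (RwK0 A (M' * q * q))
    (fun x => (mem_B3K0_iff.1 x.2).2.1)

/-- `B3K0 → Rw₂` -/
def inc2 : B3K0 M' q A hQ →+* (redData2QK0 A (M' * q * q) hQ).Rw :=
  (B3K0 M' q A hQ).subtype.codRestrict (redData2QK0 A (M' * q * q) hQ).Rw
    (fun x => (mem_B3K0_iff.1 x.2).2.2.1)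

/-- `B3K0 → Rw3K0` -/
def inc3 : B3K0 M' q A hQ →+* Rw3K0 A (M' * q * q) q :=
  (B3K0 M' q A hQ).subtype.codRestrict (Rw3K0 A (M' * q * q) q)
    (fun x => (mem_B3K0_iff.1 x.2).2.2.2)

include hqM hRb hint in
theorem redF1_mem_CRing (x0 : B3K0 M' q A hQ) :
    redF1 M' q A hres1 (inc1 M' q A hQ x0) ∈ CRing M' A := by
  obtain ⟨c, hc⟩ := exists_cVal_eq_rdK1 M' q A hQ hqM hRb hint hres1 x0
  have : redF1 M' q A hres1 (inc1 M' q A hQ x0) = (c : FresBar M' A) := Subtype.ext hc.symm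
  rw [this]
  exact c.2

include hqM hA hRb hint in
theorem redF2_mem_CRing (x0 : B3K0 M' q A hQ) :
    redF2 M' q A hQ hres1 (inc2 M' q A hQ x0) ∈ CRing M' A := by
  obtain ⟨c, hc⟩ := exists_cVal_eq_rdK2 M' q A hQ hqM hA hRb hint hres1 x0
  have : redF2 M' q A hQ hres1 (inc2 M' q A hQ x0) = (c : FresBar M' A) := Subtype.ext hc.symm
  rw [this]
  exact c.2

include hqM hRb hint in
theorem redF3_mem_CRing (x0 : B3K0 M' q A hQ) :
    redF3 M' q A hres3 (inc3 M' q A hQ x0) ∈ CRing M' A := by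
  obtain ⟨c, hc⟩ := exists_cVal3_eq_rdK3 M' q A hQ hqM hRb hint hres3 x0
  have : redF3 M' q A hres3 (inc3 M' q A hQ x0) = (c : FresBar M' A) := by
    apply emb3_injective M' q A
    rw [emb3_apply, emb3_redF3]
    exact hc.symm
  rw [this]
  exact c.2

/-- **`red₁ : B3K0 →+* C`** -/
def redC1 : B3K0 M' q A hQ →+* CRing M' A :=
  ((redF1 M' q A hres1).comp (inc1 M' q A hQ)).codRestrict (CRing M' A)
    (redF1_mem_CRing M' q A hQ hqM hRb hint hres1)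

/-- **`red₂ : B3K0 →+* C`** -/
def redC2 (hA : A.LiesOverPrime q) : B3K0 M' q A hQ →+* CRing M' A :=
  ((redF2 M' q A hQ hres1).comp (inc2 M' q A hQ)).codRestrict (CRing M' A)
    (redF2_mem_CRing M' q A hQ hqM hA hRb hint hres1)

/-- **`red₃ : B3K0 →+* C`** -/
def redC3 : B3K0 M' q A hQ →+* CRing M' A :=
  ((redF3 M' q A hres3).comp (inc3 M' q A hQ)).codRestrict (CRing M' A)
    (redF3_mem_CRing M' q A hQ hqM hRb hint hres3)

theorem cVal_redC1 (x0 : B3K0 M' q A hQ) :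
    cVal M' A (redC1 M' q A hQ hqM hRb hint hres1 x0) = rdK1 M' q A hQ x0 := rfl

theorem cVal_redC2 (x0 : B3K0 M' q A hQ) :
    cVal M' A (redC2 M' q A hQ hqM hRb hint hres1 hA x0) = rdK2 M' q A hQ x0 := rfl

theorem cVal3_redC3 (x0 : B3K0 M' q A hQ) :
    cVal3 M' q A (redC3 M' q A hQ hqM hRb hint hres3 x0) = rdK3 M' q A hQ x0 :=
  emb3_redF3 M' q A hres3 _

theorem cVal3_injective : Function.Injective (cVal3 M' q A) := fun _ _ hab =>
  cVal_injective M' A (qExpand_injective (M' * q * q) hab)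

/-- **the reduction `B3K0 →+* C × C × C`** -/
def rK0 (hA : A.LiesOverPrime q) : B3K0 M' q A hQ →+* CRing M' A × CRing M' A × CRing M' A :=
  (redC1 M' q A hQ hqM hRb hint hres1).prod
    ((redC2 M' q A hQ hqM hRb hint hres1 hA).prod (redC3 M' q A hQ hqM hRb hint hres3))

theorem rK0_apply (x0 : B3K0 M' q A hQ) :
    rK0 M' q A hQ hqM hRb hint hres1 hres3 hA x0 =
      (redC1 M' q A hQ hqM hRb hint hres1 x0, redC2 M' q A hQ hqM hRb hint hres1 hA x0,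
        redC3 M' q A hQ hqM hRb hint hres3 x0) := rfl

/-- `rK0 x0 = z` in terms of the Laurent series -/
theorem rK0_eq_iff (x0 : B3K0 M' q A hQ) (z : CRing M' A × CRing M' A × CRing M' A) :
    rK0 M' q A hQ hqM hRb hint hres1 hres3 hA x0 = z ↔
      rdK1 M' q A hQ x0 = cVal M' A z.1 ∧ rdK2 M' q A hQ x0 = cVal M' A z.2.1 ∧
        rdK3 M' q A hQ x0 = cVal3 M' q A z.2.2 := by
  constructor
  · rintro rfl
    exact ⟨(cVal_redC1 M' q A hQ hqM hRb hint hres1 x0).symm,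
      (cVal_redC2 M' q A hQ hqM hA hRb hint hres1 x0).symm,
      (cVal3_redC3 M' q A hQ hqM hRb hint hres3 x0).symm⟩
  · rintro ⟨h1, h2, h3⟩
    exact Prod.ext
      (cVal_injective M' A ((cVal_redC1 M' q A hQ hqM hRb hint hres1 x0).trans h1))
      (Prod.ext
        (cVal_injective M' A ((cVal_redC2 M' q A hQ hqM hA hRb hint hres1 x0).trans h2))
        (cVal3_injective M' q A ((cVal3_redC3 M' q A hQ hqM hRb hint hres3 x0).trans h3)))

/-- `ker rK0 = {w₁ > 0, w₂ > 0, w₃ > 0}` -/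
theorem rK0_eq_zero_iff (x0 : B3K0 M' q A hQ) :
    rK0 M' q A hQ hqM hRb hint hres1 hres3 hA x0 = 0 ↔
      (x0 : modularFunctionFieldFullC (K0 A) (M' * q * q)) ∈ (RwK0 A (M' * q * q)).nonunits ∧
      (x0 : modularFunctionFieldFullC (K0 A) (M' * q * q)) ∈
        (redData2QK0 A (M' * q * q) hQ).Rw.nonunits ∧
      (x0 : modularFunctionFieldFullC (K0 A) (M' * q * q)) ∈
        (Rw3K0 A (M' * q * q) q).nonunits := by
  rw [rK0_eq_iff]
  show rdK1 M' q A hQ x0 = cVal M' A 0 ∧ rdK2 M' q A hQ x0 = cVal M' A 0 ∧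
    rdK3 M' q A hQ x0 = cVal3 M' q A 0 ↔ _
  rw [map_zero, map_zero, rdK1_eq_rhoK1, rdK2_eq_rhoK2, rdK3_eq_rhoK3, rhoK1_eq_zero_iff,
    rhoK2_eq_zero_iff, rhoK3_eq_zero_iff]

section Old

variable (h2 : q = 2 → 3 ∣ M') (h3 : q = 3 → 2 ∣ M')
include h2 h3

/-- **`(c, Ψ² c, c) ∈ rK0 '' B3K0`** -/
theorem exists_rK0_eq_old0 (c : CRing M' A) :
    ∃ x0 : B3K0 M' q A hQ, rK0 M' q A hQ hqM hRb hint hres1 hres3 hA x0 =
      (c, psiC M' q A hqM hA (psiC M' q A hqM hA c), c) := by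
  obtain ⟨x0, h⟩ := old0K0 M' q A hQ hqM hA h2 h3 c
  exact ⟨x0, (rK0_eq_iff M' q A hQ hqM hA hRb hint hres1 hres3 x0 _).2 h⟩

/-- **`(Ψ c, Ψ c, Ψ c) ∈ rK0 '' B3K0`** -/
theorem exists_rK0_eq_old1 (c : CRing M' A) :
    ∃ x0 : B3K0 M' q A hQ, rK0 M' q A hQ hqM hRb hint hres1 hres3 hA x0 =
      (psiC M' q A hqM hA c, psiC M' q A hqM hA c, psiC M' q A hqM hA c) := by
  obtain ⟨x0, h⟩ := old1K0 M' q A hQ hqM hA h2 h3 c
  exact ⟨x0, (rK0_eq_iff M' q A hQ hqM hA hRb hint hres1 hres3 x0 _).2 h⟩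

/-- **`(Ψ² c, c, c) ∈ rK0 '' B3K0`** -/
theorem exists_rK0_eq_old2 (c : CRing M' A) :
    ∃ x0 : B3K0 M' q A hQ, rK0 M' q A hQ hqM hRb hint hres1 hres3 hA x0 =
      (psiC M' q A hqM hA (psiC M' q A hqM hA c), c, c) := by
  obtain ⟨x0, h⟩ := old2K0 M' q A hQ hqM hA h2 h3 c
  exact ⟨x0, (rK0_eq_iff M' q A hQ hqM hA hRb hint hres1 hres3 x0 _).2 h⟩

end Old

/-- **`rK0 '' B3K0 = B̃₃(R₀)`** -/
theorem rK0_mem_BT3K0 (x0 : B3K0 M' q A hQ) :
    rK0 M' q A hQ hqM hRb hint hres1 hres3 hA x0 ∈ BT3K0 M' q A hQ hA :=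
  (mem_BT3K0 M' q A hQ hA).2
    ⟨x0, ((rK0_eq_iff M' q A hQ hqM hA hRb hint hres1 hres3 x0 _).1 rfl)⟩

theorem exists_rK0_eq_of_mem_BT3K0 {z : CRing M' A × CRing M' A × CRing M' A}
    (hz : z ∈ BT3K0 M' q A hQ hA) :
    ∃ x0 : B3K0 M' q A hQ, rK0 M' q A hQ hqM hRb hint hres1 hres3 hA x0 = z := by
  obtain ⟨x0, h⟩ := (mem_BT3K0 M' q A hQ hA).1 hz
  exact ⟨x0, (rK0_eq_iff M' q A hQ hqM hA hRb hint hres1 hres3 x0 z).2 h⟩

end RK0

end Fermat.Agent.GL.RedInC
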