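import Fermat.Agent.GL.Fibre.OldTriples
import Fermat.Agent.GL.Red.RatFinal
import Fermat.Agent.GL.Table.RowsK0W3

/-!
# GATE-L / (LOC-III) producer (P2) over `K₀` (helper15): the `K₀`-RATIONAL old triples

`q ∤ M'`, `N = M' q q`, `A | q` a valuation subring of `ℚ̄`, `K₀ = ℚ̄^{I_A}`, `R₀ = A ∩ K₀`,
`k` the residue field of `A` (= that of `R₀`), `C = CRing M' A`, `Ψ = psiC M' q A`.

* `B3K0 : Subring (K₀(X₀(N)))` : the `K₀`-rational functions of `B3` (`GL/Fibre/OldTriples.lean`);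
  `mem_B3K0_iff` : `x0 ∈ B3K0 ↔ RegFin K₀ j x0 ∧ x0 ∈ RwK0 ∧ x0 ∈ (redData2QK0 ..).Rw ∧ x0 ∈ Rw3K0`
  (= the chart ring of the `j`-frame over `R₀`: integral over `K₀[j]` with `w₁, w₂, w₃ ≥ 0`);
* `toB3 : B3K0 →+* B3`, `rdK1 rdK2 rdK3 : B3K0 →+* k((X))` the three reductions;
* `d0K d1K d2K : K₀(X₀(M')) →ₐ[K₀] K₀(X₀(N))` the three degeneracy maps over `K₀`;
* **`old0K0`, `old1K0`, `old2K0`** : for every `c : C` there is `x0 : B3K0` with
  `(rdK1, rdK2, rdK3) x0 = (c, Ψ² c, c(t^N))`, `(Ψ c, Ψ c, (Ψ c)(t^N))`, `(Ψ² c, c, c(t^N))`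
  (helper96's `RatFinal.lift_K0` + the nine reductions of `OldTriples`);
* `BT3K0 : Subalgebra k (C × C × C)` the triples which are reductions of elements of `B3K0`,
  `old0_mem_BT3K0` … = hypotheses `h0 h1 h2` of helper29's `FrobGlue3` for `R := BT3K0`,
  `conductor_BT3K0`.
-/

set_option autoImplicit false
set_option linter.unusedSectionVars false

noncomputable section

namespace Fermat.Agent.GL.OldTriplesK0

open HahnSeries ModularCurve IsLocalRing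
open Fermat.Agent.S24 Fermat.Agent.S24_helper62 Fermat.Agent.S24_helper82
open Fermat.Agent.GJ.J1 Fermat.Agent.GJ.J1.Val Fermat.Agent.GJ.HN Fermat.Agent.GK.AL
open Fermat.Agent.GK.QS Fermat.Agent.GK.FrobGlue Fermat.Agent.GL.AL Fermat.Agent.GL.W3
open Fermat.Agent.GL.CuspVal Fermat.Agent.GL.OldTriples
open Fermat.Agent.GL.Val.GaussK0 Fermat.Agent.GL.Val.SecondK0 Fermat.Agent.GL.Val.SecondK0Hall
open Fermat.Agent.GL.Val.ThirdK0 Fermat.Agent.GL.Table.K0 Fermat.Agent.GL.RatChart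
open Fermat.Agent.GL.Val.OrthK0 Fermat.Agent.GL.Val.DegBase

variable (M' : ℕ) [NeZero M'] (q : ℕ) [hqF : Fact q.Prime] [NeZero q]
variable (A : ValuationSubring Kbar) (hQ : HallDvd (q ^ 2) (M' * q * q))
variable (hqM : ¬ q ∣ M') (hA : A.LiesOverPrime q)

local notation "kA" => ResidueField A
local notation "FK0" => modularFunctionFieldFullC (K0 A)

/-- **`B3K0`**: the `K₀`-rational functions of level `M' q²` integral over `K₀[j]` with
`w₁, w₂, w₃ ≥ 0` -/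
def B3K0 : Subring (FK0 (M' * q * q)) := (B3 M' q A hQ).comap (mapK0Bar A (M' * q * q))

variable {M' q A hQ}

theorem mem_B3K0 {x0 : FK0 (M' * q * q)} :
    x0 ∈ B3K0 M' q A hQ ↔ mapK0Bar A (M' * q * q) x0 ∈ B3 M' q A hQ := Iff.rfl

/-- `B3K0` in terms of the objects over `K₀` -/
theorem mem_B3K0_iff {x0 : FK0 (M' * q * q)} :
    x0 ∈ B3K0 M' q A hQ ↔ RegFin (K0 A) (jC (M' * q * q) (K0 A)) x0 ∧
      x0 ∈ RwK0 A (M' * q * q) ∧ x0 ∈ (redData2QK0 A (M' * q * q) hQ).Rw ∧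
      x0 ∈ Rw3K0 A (M' * q * q) q := by
  rw [mem_B3K0, mem_B3, regFin_iff_map, ← jK0_eq_jC, mapK0Bar_jK0, mem_Rw1K0_iff,
    mem_Rw2QK0_iff, mem_Rw3K0_iff_mapK0Bar]

variable (M' q A hQ)

/-- `B3K0 → B3` -/
def toB3 : B3K0 M' q A hQ →+* B3 M' q A hQ :=
  ((mapK0Bar A (M' * q * q)).comp (B3K0 M' q A hQ).subtype).codRestrict (B3 M' q A hQ)
    (fun x => x.2)

theorem coe_toB3 (x0 : B3K0 M' q A hQ) :
    ((toB3 M' q A hQ x0 : B3 M' q A hQ) : FN (M' * q * q)) =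
      mapK0Bar A (M' * q * q) (x0 : FK0 (M' * q * q)) := rfl

/-- `red₁` on `B3K0` -/
def rdK1 : B3K0 M' q A hQ →+* LaurentSeries kA := (rd1 M' q A hQ).comp (toB3 M' q A hQ)

/-- `red₂` on `B3K0` -/
def rdK2 : B3K0 M' q A hQ →+* LaurentSeries kA := (rd2 M' q A hQ).comp (toB3 M' q A hQ)

/-- `red₃` on `B3K0` -/
def rdK3 : B3K0 M' q A hQ →+* LaurentSeries kA := (rd3 M' q A hQ).comp (toB3 M' q A hQ)

theorem rdK1_apply (x0 : B3K0 M' q A hQ) :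
    rdK1 M' q A hQ x0 = rd1 M' q A hQ (toB3 M' q A hQ x0) := rfl

theorem rdK2_apply (x0 : B3K0 M' q A hQ) :
    rdK2 M' q A hQ x0 = rd2 M' q A hQ (toB3 M' q A hQ x0) := rfl

theorem rdK3_apply (x0 : B3K0 M' q A hQ) :
    rdK3 M' q A hQ x0 = rd3 M' q A hQ (toB3 M' q A hQ x0) := rfl

/-- `f(z)` at level `M' q²`, over `K₀` -/
def d0K : FK0 M' →ₐ[K0 A] FK0 (M' * q * q) := (alphaK0 A (M' * q) q).comp (alphaK0 A M' q)

/-- `f(qz)` at level `M' q²`, over `K₀` -/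
def d1K : FK0 M' →ₐ[K0 A] FK0 (M' * q * q) := (alphaK0 A (M' * q) q).comp (betaK0 A M' q)

/-- `f(q²z)` at level `M' q²`, over `K₀` -/
def d2K : FK0 M' →ₐ[K0 A] FK0 (M' * q * q) := (betaK0 A (M' * q) q).comp (betaK0 A M' q)

theorem mapK0Bar_d0K (x : FK0 M') :
    mapK0Bar A (M' * q * q) (d0K M' q A x) = d0 M' q (mapK0Bar A M' x) := by
  show mapK0Bar A (M' * q * q) (alphaK0 A (M' * q) q (alphaK0 A M' q x)) = _
  rw [mapK0Bar_alphaK0, mapK0Bar_alphaK0, d0_apply]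

theorem mapK0Bar_d1K (x : FK0 M') :
    mapK0Bar A (M' * q * q) (d1K M' q A x) = d1 M' q (mapK0Bar A M' x) := by
  show mapK0Bar A (M' * q * q) (alphaK0 A (M' * q) q (betaK0 A M' q x)) = _
  rw [mapK0Bar_alphaK0, mapK0Bar_betaK0, d1_apply]

theorem mapK0Bar_d2K (x : FK0 M') :
    mapK0Bar A (M' * q * q) (d2K M' q A x) = d2 M' q (mapK0Bar A M' x) := by
  show mapK0Bar A (M' * q * q) (betaK0 A (M' * q) q (betaK0 A M' q x)) = _
  rw [mapK0Bar_betaK0, mapK0Bar_betaK0, d2_apply]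

variable {M' q A hQ}

section Mem

variable {x : modularFunctionFieldFullC (K0 A) M'} (hx : RegFin (K0 A) (jC M' (K0 A)) x) (hw : x ∈ RwK0 A M')
include hx hw hqM

theorem regFin_map_of_regFin : RegFin Kbar (jF M') (mapK0Bar A M' x) := by
  have := (regFin_iff_map A M' (jC M' (K0 A)) x).1 hx
  rwa [← jK0_eq_jC, mapK0Bar_jK0] at this

theorem d0K_mem_B3K0 : d0K M' q A x ∈ B3K0 M' q A hQ := by
  rw [mem_B3K0, mapK0Bar_d0K]
  exact d0_mem_B3 hqM (regFin_map_of_regFin hqM hx hw) ((mem_Rw1K0_iff A M' x).1 hw)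

theorem d1K_mem_B3K0 : d1K M' q A x ∈ B3K0 M' q A hQ := by
  rw [mem_B3K0, mapK0Bar_d1K]
  exact d1_mem_B3 hqM (regFin_map_of_regFin hqM hx hw) ((mem_Rw1K0_iff A M' x).1 hw)

theorem d2K_mem_B3K0 : d2K M' q A x ∈ B3K0 M' q A hQ := by
  rw [mem_B3K0, mapK0Bar_d2K]
  exact d2_mem_B3 hqM (regFin_map_of_regFin hqM hx hw) ((mem_Rw1K0_iff A M' x).1 hw)

end Mem

/-! ### the old triples over `K₀` -/

section Old

variable (h2 : q = 2 → 3 ∣ M') (h3 : q = 3 → 2 ∣ M')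
include h2 h3

/-- coercion `FresBar M' A → k((Q))` -/
local notation "c0" => (fun y : FresBar M' A => (y : LaurentSeries kA))

variable (M' q A hQ)

/-- **`(c, Ψ² c, c)` is the reduction of a `K₀`-rational element of `B3`** -/
theorem old0K0 (c : CRing M' A) :
    ∃ x0 : B3K0 M' q A hQ, rdK1 M' q A hQ x0 = cVal M' A c ∧
      rdK2 M' q A hQ x0 = cVal M' A (psiC M' q A hqM hA (psiC M' q A hqM hA c)) ∧
      rdK3 M' q A hQ x0 = cVal3 M' q A c := by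
  obtain ⟨f0, hf0w, hf0reg, hfw, hfa⟩ := Fermat.Agent.GL.RatFinal.lift_K0 M' A hqM hA h2 h3 c.2
  have hfa' : (((redDataBar M' A).red ⟨mapK0Bar A M' f0, hfw⟩ : FresBar M' A) :
      LaurentSeries kA) = cVal M' A c := congrArg c0 hfa
  have hB0 := d0K_mem_B3K0 (hQ := hQ) hqM hf0reg hf0w
  have hB : d0 M' q (mapK0Bar A M' f0) ∈ B3 M' q A hQ := by
    rw [← mapK0Bar_d0K]; exact hB0
  have hto : toB3 M' q A hQ ⟨d0K M' q A f0, hB0⟩ = ⟨d0 M' q (mapK0Bar A M' f0), hB⟩ :=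
    Subtype.ext (mapK0Bar_d0K M' q A f0)
  refine ⟨⟨d0K M' q A f0, hB0⟩, ?_, ?_, ?_⟩
  · rw [rdK1_apply, hto, rd1_apply]
    exact (coe_red1_d0 _ hfw hB.2.1).trans hfa'
  · rw [rdK2_apply, hto, rd2_apply, cVal_psiC M' q A hqM hA, cVal_psiC M' q A hqM hA, ← hfa']
    exact coe_red2_d0 _ hfw hqM hB.2.2.1
  · rw [rdK3_apply, hto, rd3_apply, cVal3_apply, ← hfa']
    exact coe_red3_d0 _ hfw hB.2.2.2

/-- **`(Ψ c, Ψ c, Ψ c)` is the reduction of a `K₀`-rational element of `B3`** -/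
theorem old1K0 (c : CRing M' A) :
    ∃ x0 : B3K0 M' q A hQ, rdK1 M' q A hQ x0 = cVal M' A (psiC M' q A hqM hA c) ∧
      rdK2 M' q A hQ x0 = cVal M' A (psiC M' q A hqM hA c) ∧
      rdK3 M' q A hQ x0 = cVal3 M' q A (psiC M' q A hqM hA c) := by
  obtain ⟨f0, hf0w, hf0reg, hfw, hfa⟩ := Fermat.Agent.GL.RatFinal.lift_K0 M' A hqM hA h2 h3 c.2
  have hfa' : (((redDataBar M' A).red ⟨mapK0Bar A M' f0, hfw⟩ : FresBar M' A) :
      LaurentSeries kA) = cVal M' A c := congrArg c0 hfa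
  have hB0 := d1K_mem_B3K0 (hQ := hQ) hqM hf0reg hf0w
  have hB : d1 M' q (mapK0Bar A M' f0) ∈ B3 M' q A hQ := by
    rw [← mapK0Bar_d1K]; exact hB0
  have hto : toB3 M' q A hQ ⟨d1K M' q A f0, hB0⟩ = ⟨d1 M' q (mapK0Bar A M' f0), hB⟩ :=
    Subtype.ext (mapK0Bar_d1K M' q A f0)
  refine ⟨⟨d1K M' q A f0, hB0⟩, ?_, ?_, ?_⟩
  · rw [rdK1_apply, hto, rd1_apply, cVal_psiC M' q A hqM hA, ← hfa']
    exact coe_red1_d1 _ hfw hB.2.1
  · rw [rdK2_apply, hto, rd2_apply, cVal_psiC M' q A hqM hA, ← hfa']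
    exact coe_red2_d1 _ hfw hqM hB.2.2.1
  · rw [rdK3_apply, hto, rd3_apply, cVal3_apply, cVal_psiC M' q A hqM hA, ← hfa']
    exact coe_red3_d1 _ hfw hB.2.2.2

/-- **`(Ψ² c, c, c)` is the reduction of a `K₀`-rational element of `B3`** -/
theorem old2K0 (c : CRing M' A) :
    ∃ x0 : B3K0 M' q A hQ,
      rdK1 M' q A hQ x0 = cVal M' A (psiC M' q A hqM hA (psiC M' q A hqM hA c)) ∧
      rdK2 M' q A hQ x0 = cVal M' A c ∧ rdK3 M' q A hQ x0 = cVal3 M' q A c := by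
  obtain ⟨f0, hf0w, hf0reg, hfw, hfa⟩ := Fermat.Agent.GL.RatFinal.lift_K0 M' A hqM hA h2 h3 c.2
  have hfa' : (((redDataBar M' A).red ⟨mapK0Bar A M' f0, hfw⟩ : FresBar M' A) :
      LaurentSeries kA) = cVal M' A c := congrArg c0 hfa
  have hB0 := d2K_mem_B3K0 (hQ := hQ) hqM hf0reg hf0w
  have hB : d2 M' q (mapK0Bar A M' f0) ∈ B3 M' q A hQ := by
    rw [← mapK0Bar_d2K]; exact hB0
  have hto : toB3 M' q A hQ ⟨d2K M' q A f0, hB0⟩ = ⟨d2 M' q (mapK0Bar A M' f0), hB⟩ :=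
    Subtype.ext (mapK0Bar_d2K M' q A f0)
  refine ⟨⟨d2K M' q A f0, hB0⟩, ?_, ?_, ?_⟩
  · rw [rdK1_apply, hto, rd1_apply, cVal_psiC M' q A hqM hA, cVal_psiC M' q A hqM hA, ← hfa']
    exact coe_red1_d2 _ hfw hB.2.1
  · rw [rdK2_apply, hto, rd2_apply]
    exact (coe_red2_d2 _ hfw hqM hB.2.2.1).trans hfa'
  · rw [rdK3_apply, hto, rd3_apply, cVal3_apply, ← hfa']
    exact coe_red3_d2 _ hfw hqM hA hB.2.2.2

end Old

/-! ### the reduction `B̃₃(R₀) ⊂ C × C × C` -/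

variable (M' q A hQ)

/-- constants of `R₀` lie in `B3K0` -/
theorem algebraMap_mem_B3K0 (a : R0 A) :
    algebraMap (K0 A) (modularFunctionFieldFullC (K0 A) (M' * q * q)) (a : K0 A) ∈
      B3K0 M' q A hQ := by
  rw [mem_B3K0, mapK0Bar_algebraMap]
  exact algebraMap_mem_B3 (⟨ι0 A (a : K0 A), (mem_R0_iff A _).1 a.2⟩ : A)

theorem rdK1_algebraMap (a : R0 A) :
    rdK1 M' q A hQ ⟨_, algebraMap_mem_B3K0 M' q A hQ a⟩ =
      algebraMap kA (LaurentSeries kA)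
        (residue A ⟨ι0 A (a : K0 A), (mem_R0_iff A _).1 a.2⟩) := by
  have hto : toB3 M' q A hQ ⟨_, algebraMap_mem_B3K0 M' q A hQ a⟩ =
      ⟨algebraMap Kbar (FN (M' * q * q))
        ((⟨ι0 A (a : K0 A), (mem_R0_iff A _).1 a.2⟩ : A) : Kbar), algebraMap_mem_B3 _⟩ :=
    Subtype.ext (mapK0Bar_algebraMap A (M' * q * q) (a : K0 A))
  rw [rdK1_apply, hto]
  exact rd1_algebraMap M' q A hQ _

theorem rdK2_algebraMap (a : R0 A) :
    rdK2 M' q A hQ ⟨_, algebraMap_mem_B3K0 M' q A hQ a⟩ =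
      algebraMap kA (LaurentSeries kA)
        (residue A ⟨ι0 A (a : K0 A), (mem_R0_iff A _).1 a.2⟩) := by
  have hto : toB3 M' q A hQ ⟨_, algebraMap_mem_B3K0 M' q A hQ a⟩ =
      ⟨algebraMap Kbar (FN (M' * q * q))
        ((⟨ι0 A (a : K0 A), (mem_R0_iff A _).1 a.2⟩ : A) : Kbar), algebraMap_mem_B3 _⟩ :=
    Subtype.ext (mapK0Bar_algebraMap A (M' * q * q) (a : K0 A))
  rw [rdK2_apply, hto]
  exact rd2_algebraMap M' q A hQ _

theorem rdK3_algebraMap (a : R0 A) :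
    rdK3 M' q A hQ ⟨_, algebraMap_mem_B3K0 M' q A hQ a⟩ =
      algebraMap kA (LaurentSeries kA)
        (residue A ⟨ι0 A (a : K0 A), (mem_R0_iff A _).1 a.2⟩) := by
  have hto : toB3 M' q A hQ ⟨_, algebraMap_mem_B3K0 M' q A hQ a⟩ =
      ⟨algebraMap Kbar (FN (M' * q * q))
        ((⟨ι0 A (a : K0 A), (mem_R0_iff A _).1 a.2⟩ : A) : Kbar), algebraMap_mem_B3 _⟩ :=
    Subtype.ext (mapK0Bar_algebraMap A (M' * q * q) (a : K0 A))
  rw [rdK3_apply, hto]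
  exact rd3_algebraMap M' q A hQ _

/-- `B̃₃(R₀)` as a subring of `C × C × C` -/
def BT3K0sub : Subring (CRing M' A × CRing M' A × CRing M' A) :=
  (((rdK1 M' q A hQ).prod ((rdK2 M' q A hQ).prod (rdK3 M' q A hQ))).range).comap
    (RingHom.prodMap (cVal M' A).toRingHom
      (RingHom.prodMap (cVal M' A).toRingHom (cVal3 M' q A)))

theorem mem_BT3K0sub {z : CRing M' A × CRing M' A × CRing M' A} :
    z ∈ BT3K0sub M' q A hQ ↔ ∃ x0 : B3K0 M' q A hQ, rdK1 M' q A hQ x0 = cVal M' A z.1 ∧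
      rdK2 M' q A hQ x0 = cVal M' A z.2.1 ∧ rdK3 M' q A hQ x0 = cVal3 M' q A z.2.2 := by
  rw [BT3K0sub, Subring.mem_comap, RingHom.mem_range]
  constructor
  · rintro ⟨x, hx⟩
    exact ⟨x, congrArg Prod.fst hx, congrArg (fun w => w.2.1) hx, congrArg (fun w => w.2.2) hx⟩
  · rintro ⟨x, h1, h2, h3⟩
    exact ⟨x, Prod.ext h1 (Prod.ext h2 h3)⟩

theorem BT3K0sub_le : BT3K0sub M' q A hQ ≤ (BT3 M' q A hQ).toSubring := by
  intro z hz
  obtain ⟨x0, h1, h2, h3⟩ := (mem_BT3K0sub M' q A hQ).1 hz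
  exact (mem_BT3 M' q A hQ).2 ⟨toB3 M' q A hQ x0, h1, h2, h3⟩

include hA in
/-- every element of the residue field `k` of `A` is the residue of an element of `R₀` -/
theorem exists_R0_residue_eq (c : kA) :
    ∃ a : R0 A, residue A ⟨ι0 A (a : K0 A), (mem_R0_iff A _).1 a.2⟩ = c := by
  obtain ⟨y, rfl⟩ := (resMapK0_bijective A hqF.out hA).2 c
  obtain ⟨a, rfl⟩ := residue_surjective y
  exact ⟨a, (Fermat.Agent.GK.Val.BaseChange.resMap_residue (ι0 A) (R0 A) A (hA0 A) a).symm⟩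

/-- **`B̃₃(R₀)`**, the reduction of `B3K0` inside `C × C × C` -/
def BT3K0 (hA : A.LiesOverPrime q) :
    Subalgebra kA (CRing M' A × CRing M' A × CRing M' A) where
  toSubsemiring := (BT3K0sub M' q A hQ).toSubsemiring
  algebraMap_mem' := by
    intro c
    obtain ⟨a, rfl⟩ := exists_R0_residue_eq q A hA c
    show _ ∈ BT3K0sub M' q A hQ
    rw [mem_BT3K0sub]
    refine ⟨⟨_, algebraMap_mem_B3K0 M' q A hQ a⟩, ?_, ?_, ?_⟩
    · show _ = cVal M' A (algebraMap kA (CRing M' A) _)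
      exact (rdK1_algebraMap M' q A hQ a).trans ((cVal M' A).commutes _).symm
    · show _ = cVal M' A (algebraMap kA (CRing M' A) _)
      exact (rdK2_algebraMap M' q A hQ a).trans ((cVal M' A).commutes _).symm
    · show _ = cVal3 M' q A (algebraMap kA (CRing M' A) _)
      rw [rdK3_algebraMap, cVal3_apply, (cVal M' A).commutes, algebraMap_laurentSeries_eq_single,
        qExpand_single, mul_zero]

theorem mem_BT3K0 {z : CRing M' A × CRing M' A × CRing M' A} :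
    z ∈ BT3K0 M' q A hQ hA ↔ ∃ x0 : B3K0 M' q A hQ, rdK1 M' q A hQ x0 = cVal M' A z.1 ∧
      rdK2 M' q A hQ x0 = cVal M' A z.2.1 ∧ rdK3 M' q A hQ x0 = cVal3 M' q A z.2.2 :=
  mem_BT3K0sub M' q A hQ

theorem BT3K0_le : BT3K0 M' q A hQ hA ≤ BT3 M' q A hQ := BT3K0sub_le M' q A hQ

section OldMem

variable (h2 : q = 2 → 3 ∣ M') (h3 : q = 3 → 2 ∣ M')
include h2 h3

/-- **`(c, Ψ² c, c) ∈ B̃₃(R₀)`** -/
theorem old0_mem_BT3K0 (c : CRing M' A) :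
    ((c, psiC M' q A hqM hA (psiC M' q A hqM hA c), c) :
      CRing M' A × CRing M' A × CRing M' A) ∈ BT3K0 M' q A hQ hA :=
  (mem_BT3K0 M' q A hQ hA).2 (old0K0 M' q A hQ hqM hA h2 h3 c)

/-- **`(Ψ c, Ψ c, Ψ c) ∈ B̃₃(R₀)`** -/
theorem old1_mem_BT3K0 (c : CRing M' A) :
    ((psiC M' q A hqM hA c, psiC M' q A hqM hA c, psiC M' q A hqM hA c) :
      CRing M' A × CRing M' A × CRing M' A) ∈ BT3K0 M' q A hQ hA :=
  (mem_BT3K0 M' q A hQ hA).2 (old1K0 M' q A hQ hqM hA h2 h3 c)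

/-- **`(Ψ² c, c, c) ∈ B̃₃(R₀)`** -/
theorem old2_mem_BT3K0 (c : CRing M' A) :
    ((psiC M' q A hqM hA (psiC M' q A hqM hA c), c, c) :
      CRing M' A × CRing M' A × CRing M' A) ∈ BT3K0 M' q A hQ hA :=
  (mem_BT3K0 M' q A hQ hA).2 (old2K0 M' q A hQ hqM hA h2 h3 c)

/-- **the conductor of `B̃₃(R₀)` in `C × C × C` contains `𝔞² × 𝔞² × 𝔞²`**, `𝔞 = fixIdeal Ψ` -/
theorem conductor_BT3K0 {x y z : CRing M' A}
    (hx : x ∈ fixIdeal (psiC M' q A hqM hA) ^ 2) (hy : y ∈ fixIdeal (psiC M' q A hqM hA) ^ 2)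
    (hz : z ∈ fixIdeal (psiC M' q A hqM hA) ^ 2) (w : CRing M' A × CRing M' A × CRing M' A) :
    ((x, y, z) : CRing M' A × CRing M' A × CRing M' A) * w ∈ BT3K0 M' q A hQ hA :=
  Fermat.Agent.GL.FrobGlue3.conductor_mul_mem (psiC M' q A hqM hA) (BT3K0 M' q A hQ hA)
    (old0_mem_BT3K0 M' q A hQ hqM hA h2 h3) (old1_mem_BT3K0 M' q A hQ hqM hA h2 h3)
    (old2_mem_BT3K0 M' q A hQ hqM hA h2 h3) hx hy hz w

end OldMem

end Fermat.Agent.GL.OldTriplesK0
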