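/-
GATE-L / L5-I at the cusps (helper9): the `1/j` twin of helper56 `GK/SS/CRingFacts.lean`.

`CRingInv N' A` := the integral closure of `k[1/j~]` in the residue function field `FresBar N' A`
(the coordinate ring of the chart at infinity of the good-level special fibre; the target of
helper96 `RatFinal.lift_K0_inv`).

* `adjoin_inv_eq` : `K⟮s⁻¹⟯ = K⟮s⟯`;
* `isDedekindDomain_integralClosure_adjoin_inv`, `isFractionRing_integralClosure_adjoin_inv`,
  `finite_integralClosure_adjoin_inv` : generic (`F / K(s)` finite separable);
* `isDedekindDomain_CRingInv`, `isFractionRing_CRingInv`, `not_isField_CRingInv`.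
-/
import Fermat.Agent.GK.SS.CRingFacts

set_option autoImplicit false
set_option linter.style.haveILetI false
set_option linter.unusedSectionVars false
set_option linter.dupNamespace false
noncomputable section
namespace Fermat.Agent.GL.CRingInv

open IntermediateField IsLocalRing ModularCurve HahnSeries Polynomial
open Fermat.Agent.S24 Fermat.Agent.GJ.J1 Fermat.Agent.GJ.J1.Val Fermat.Agent.GJ.J1.Haupt
open Fermat.Agent.GK.QS

local notation "Kbar" => AlgebraicClosure ℚ

section Generic

variable {K F : Type*} [Field K] [Field F] [Algebra K F]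

/-- `K(s⁻¹) = K(s)` -/
theorem adjoin_inv_eq (s : F) :
    IntermediateField.adjoin K {s⁻¹} = IntermediateField.adjoin K {s} := by
  apply le_antisymm
  · rw [IntermediateField.adjoin_simple_le_iff]
    exact (IntermediateField.adjoin K {s}).inv_mem (IntermediateField.mem_adjoin_simple_self K s)
  · rw [IntermediateField.adjoin_simple_le_iff]
    have h := (IntermediateField.adjoin K {s⁻¹}).inv_mem
      (IntermediateField.mem_adjoin_simple_self K s⁻¹)
    rwa [inv_inv] at h

variable (s : F) [FiniteDimensional (IntermediateField.adjoin K {s}) F]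
  [Algebra.IsSeparable (IntermediateField.adjoin K {s}) F]

theorem finiteDimensional_adjoin_inv :
    FiniteDimensional (IntermediateField.adjoin K {s⁻¹}) F := by
  rw [adjoin_inv_eq]
  infer_instance

theorem isSeparable_adjoin_inv :
    Algebra.IsSeparable (IntermediateField.adjoin K {s⁻¹}) F := by
  rw [adjoin_inv_eq]
  infer_instance

/-- the integral closure of `K[1/s]` is a Dedekind domain -/
theorem isDedekindDomain_integralClosure_adjoin_inv :
    IsDedekindDomain (integralClosure (Algebra.adjoin K {s⁻¹}) F) := by
  haveI := finiteDimensional_adjoin_inv (K := K) s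
  haveI := isSeparable_adjoin_inv (K := K) s
  infer_instance

/-- the integral closure of `K[1/s]` has fraction field `F` -/
theorem isFractionRing_integralClosure_adjoin_inv :
    IsFractionRing (integralClosure (Algebra.adjoin K {s⁻¹}) F) F := by
  haveI := finiteDimensional_adjoin_inv (K := K) s
  haveI := isSeparable_adjoin_inv (K := K) s
  infer_instance

/-- the integral closure of `K[1/s]` is a finite `K[1/s]`-module -/
theorem finite_integralClosure_adjoin_inv :
    Module.Finite (Algebra.adjoin K {s⁻¹}) (integralClosure (Algebra.adjoin K {s⁻¹}) F) := by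
  haveI := finiteDimensional_adjoin_inv (K := K) s
  haveI := isSeparable_adjoin_inv (K := K) s
  infer_instance

end Generic

variable (N' : ℕ) [NeZero N'] (ℓ : ℕ) [Fact ℓ.Prime] (A : ValuationSubring Kbar)

local notation "kA" => IsLocalRing.ResidueField A

/-- **the coordinate ring of the chart at infinity of the special fibre of level `N'`**: the
integral closure of `k[1/j~]` in `F̃'` -/
def CRingInv : Subalgebra kA (FresBar N' A) where
  carrier := {y | RegFin kA (jt N' A)⁻¹ y}
  mul_mem' := RegFin.mul
  add_mem' := RegFin.add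
  algebraMap_mem' c := regFin_algebraMap _ c

theorem mem_CRingInv {y : FresBar N' A} : y ∈ CRingInv N' A ↔ RegFin kA (jt N' A)⁻¹ y := Iff.rfl

theorem inv_jt_mem_CRingInv : (jt N' A)⁻¹ ∈ CRingInv N' A := regFin_self _

/-- `j~` is transcendental over `k` -/
theorem transcendental_jt : Transcendental kA (jt N' A) := by
  apply Fres.transcendental_of_coe
  rw [coe_jt]
  exact transcendental_jqModC _

theorem jt_ne_zero : jt N' A ≠ 0 := fun h0 =>
  transcendental_jt N' A (h0 ▸ isAlgebraic_zero)

/-- `1/j~` is transcendental over `k` -/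
theorem transcendental_inv_jt : Transcendental kA (jt N' A)⁻¹ := by
  intro h
  exact transcendental_jt N' A (by simpa using h.inv)

/-- **the coordinate ring at infinity of the good level is a Dedekind domain** -/
theorem isDedekindDomain_CRingInv (hA : A.LiesOverPrime ℓ) :
    IsDedekindDomain (CRingInv N' A) := by
  have hℓ : ℓ.Prime := Fact.out
  haveI : CharP (ResidueField A) ℓ := charP_residue A hℓ hA
  haveI : FiniteDimensional (ResidueField A)⟮jt N' A⟯ (FresBar N' A) :=
    (Fermat.Agent.GK.Val.Degrees.finiteDimensional_f1 N' A (jF_mem_Rw N' A)).1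
  haveI : Algebra.IsSeparable (ResidueField A)⟮jt N' A⟯ (FresBar N' A) :=
    Fermat.Agent.GJ.J1.G1.isSeparable_adjoin_of_embedding ℓ (FresBar N' A).val (jt N' A)
      (hord_jF N' A hℓ _)
  have hD : IsDedekindDomain
      (integralClosure (Algebra.adjoin (ResidueField A) {(jt N' A)⁻¹}) (FresBar N' A)) :=
    isDedekindDomain_integralClosure_adjoin_inv (jt N' A)
  exact hD

/-- **its fraction field is the residue function field** -/
theorem isFractionRing_CRingInv (hA : A.LiesOverPrime ℓ) :
    IsFractionRing (CRingInv N' A) (FresBar N' A) := by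
  have hℓ : ℓ.Prime := Fact.out
  haveI : CharP (ResidueField A) ℓ := charP_residue A hℓ hA
  haveI : FiniteDimensional (ResidueField A)⟮jt N' A⟯ (FresBar N' A) :=
    (Fermat.Agent.GK.Val.Degrees.finiteDimensional_f1 N' A (jF_mem_Rw N' A)).1
  haveI : Algebra.IsSeparable (ResidueField A)⟮jt N' A⟯ (FresBar N' A) :=
    Fermat.Agent.GJ.J1.G1.isSeparable_adjoin_of_embedding ℓ (FresBar N' A).val (jt N' A)
      (hord_jF N' A hℓ _)
  have hD : IsFractionRing
      (integralClosure (Algebra.adjoin (ResidueField A) {(jt N' A)⁻¹}) (FresBar N' A))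
      (FresBar N' A) :=
    isFractionRing_integralClosure_adjoin_inv (jt N' A)
  exact hD

/-- the coordinate ring at infinity is not a field -/
theorem not_isField_CRingInv : ¬ IsField (CRingInv N' A) := by
  intro hF
  have htr := transcendental_inv_jt N' A
  have hj0 : (⟨(jt N' A)⁻¹, inv_jt_mem_CRingInv N' A⟩ : CRingInv N' A) ≠ 0 := by
    intro h0
    have h1 : (jt N' A)⁻¹ = 0 := congrArg Subtype.val h0
    exact htr (h1 ▸ isAlgebraic_zero)
  obtain ⟨b, hb⟩ := hF.mul_inv_cancel hj0
  have hb' : (jt N' A)⁻¹ * (b : FresBar N' A) = 1 := congrArg Subtype.val hb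
  have hbinv : (b : FresBar N' A) = ((jt N' A)⁻¹)⁻¹ := eq_inv_of_mul_eq_one_right hb'
  exact Fermat.Agent.GK.SS.Modular.not_regFin_inv_self htr (hbinv ▸ b.2)

end Fermat.Agent.GL.CRingInv
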