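import Fermat.Agent.GL.Fibre.RedInC
import Fermat.Agent.GL.Red.BRingChart
import Fermat.Agent.GL.Val.ResK0Top
import Fermat.Agent.GL.Val.ResW3Top
import Fermat.Agent.GL.Val.CuspK0Red
import Fermat.Agent.GL.Val.ThirdK0Red
import Fermat.Agent.GL.Fibre.CRingFin

/-!
# GATE-L / (hB3) UNCONDITIONAL over `K₀` (helper15)

`A | q` a valuation subring of `ℚ̄`, `q ∤ M'`, `N = M' q q`, `F₀ = K₀(X₀(N))`,
`B3K0 = {RegFin K₀ j, w₁ ≥ 0, w₂ ≥ 0, w₃ ≥ 0}` (`OldTriplesK0`), `C = CRing M' A`.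
The three hypotheses (INT) (RES1) (RES3) of `RedInC` are now theorems:

* (INT) `b3K0_eq_chartRing : B3K0 = chartRing (R0 A) (jC N (K0 A))` (helper96 `BRingChart`, helper75
  `L1eThm`), hence `isIntegral_coe_B3K0`, and the instances `isNoetherianRing_B3K0`,
  `isIntegrallyClosed_B3K0`, `isFractionRing_B3K0`;
* (RES1) `rhoK1_mem_FresBar` (helper75 `ResK0Top`);
* (RES3) `exists_rhoK3_eq_qExpand` (helper45 `ResW3Top.mem_Fres3K0_iff`, helper26 `CuspK0Red`).

Consequences, with NO hypothesis beyond `q ∤ M'`, `A | q`: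
`exists_cVal_eq` ((hB3)), `rK0 : B3K0 →+* C × C × C`, its kernel, its range ⊆ `BT3K0`, the old
triples in its range, surjectivity of `redC_i` and `redF_i`, root closedness `hroot_i`.
-/

set_option autoImplicit false
set_option linter.unusedSectionVars false
set_option linter.style.haveILetI false
set_option synthInstance.maxHeartbeats 400000

noncomputable section

namespace Fermat.Agent.GL.RedInCThm

open HahnSeries ModularCurve IsLocalRing
open Fermat.Agent.S24 Fermat.Agent.S24_helper62 Fermat.Agent.S24_helper82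
open Fermat.Agent.GJ.J1 Fermat.Agent.GJ.J1.Val Fermat.Agent.GJ.J1.Haupt Fermat.Agent.GJ.HN
open Fermat.Agent.GK.AL
open Fermat.Agent.GK.QS Fermat.Agent.GK.FrobGlue Fermat.Agent.GL.AL Fermat.Agent.GL.W3
open Fermat.Agent.GL.CuspVal Fermat.Agent.GL.OldTriples Fermat.Agent.GL.OldTriplesK0
open Fermat.Agent.GL.Val.GaussK0 Fermat.Agent.GL.Val.SecondK0 Fermat.Agent.GL.Val.SecondK0Hall
open Fermat.Agent.GL.Val.ThirdK0 Fermat.Agent.GL.Table.K0 Fermat.Agent.GL.RatChart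
open Fermat.Agent.GL.Val.OrthK0 Fermat.Agent.GL.Val.DegBase Fermat.Agent.GK.Red
open Fermat.Agent.GL.Frame.Inst Fermat.Agent.GL.BRingChart Fermat.Agent.GL.RedInC
open Fermat.Agent.GL.Val.CuspK0

variable (M' : ℕ) [NeZero M'] (q : ℕ) [hqF : Fact q.Prime] [NeZero q]
variable (A : ValuationSubring Kbar) (hQ : HallDvd (q ^ 2) (M' * q * q))
variable (hqM : ¬ q ∣ M') (hA : A.LiesOverPrime q)

local notation "kA" => ResidueField A

omit [NeZero M'] hqF [NeZero q] in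
theorem level_eq : M' * q * q = M' * q ^ 2 := by ring

/-! ### (INT): `B3K0` is the chart ring `B_j` over `R₀` -/

include hqM hA in
/-- **`B3K0 = B_j`**: the ring `{RegFin, w₁ ≥ 0, w₂ ≥ 0, w₃ ≥ 0}` of level `M' q q` over `K₀` is
the integral closure of `R₀[j]` in `K₀(X₀(M' q q))` (helper80's `chartRing`). -/
theorem b3K0_eq_chartRing :
    B3K0 M' q A hQ = chartRing (R0 A) (jC (M' * q * q) (K0 A)) := by
  ext x
  rw [mem_B3K0_iff, mem_chartRing_jC_iff_three A (M' * q * q) hqF.out (level_eq M' q) hqM hA hQ]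

include hqM hA in
theorem mem_B3K0_iff_isIntegral {x : modularFunctionFieldFullC (K0 A) (M' * q * q)} :
    x ∈ B3K0 M' q A hQ ↔ IsIntegral (Algebra.adjoin (R0 A) {jC (M' * q * q) (K0 A)}) x := by
  rw [b3K0_eq_chartRing M' q A hQ hqM hA]
  exact mem_icRing (R0 A)

include hqM hA in
/-- **(INT)** for `Rb := R0 A` -/
theorem isIntegral_coe_B3K0 (x0 : B3K0 M' q A hQ) :
    IsIntegral (Algebra.adjoin (R0 A) {jC (M' * q * q) (K0 A)})
      (x0 : modularFunctionFieldFullC (K0 A) (M' * q * q)) :=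
  (mem_B3K0_iff_isIntegral M' q A hQ hqM hA).1 x0.2

omit [NeZero M'] hqF [NeZero q] in
/-- the `hRb` of `RedInC` for `Rb := R0 A` -/
theorem hRb_R0 : ∀ r : R0 A, ∃ a : R0 A,
    algebraMap (R0 A) (modularFunctionFieldFullC (K0 A) (M' * q * q)) r =
      algebraMap (K0 A) (modularFunctionFieldFullC (K0 A) (M' * q * q)) (a : K0 A) :=
  fun r => ⟨r, rfl⟩

include hqM hA in
/-- **`B3K0` is noetherian** -/
theorem isNoetherianRing_B3K0 : IsNoetherianRing (B3K0 M' q A hQ) := by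
  haveI := isScalarTower_R0 A (M' * q * q)
  haveI := isDiscreteValuationRing_R0 A hqF.out hA
  haveI := finiteDimensional_jC A (M' * q * q)
  haveI := isSeparable_jC A (M' * q * q)
  rw [b3K0_eq_chartRing M' q A hQ hqM hA]
  exact isNoetherianRing_chartRing (K := K0 A) _ (transcendental_jC_R0 A (M' * q * q))

include hqM hA in
/-- **`B3K0` is integrally closed** -/
theorem isIntegrallyClosed_B3K0 : IsIntegrallyClosed (B3K0 M' q A hQ) := by
  haveI := isScalarTower_R0 A (M' * q * q)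
  haveI := isDiscreteValuationRing_R0 A hqF.out hA
  haveI := finiteDimensional_jC A (M' * q * q)
  haveI := isSeparable_jC A (M' * q * q)
  rw [b3K0_eq_chartRing M' q A hQ hqM hA]
  exact isIntegrallyClosed_chartRing (K := K0 A) _ (transcendental_jC_R0 A (M' * q * q))

include hqM hA in
/-- **`K₀(X₀(M' q q))` is the fraction field of `B3K0`** -/
theorem isFractionRing_B3K0 :
    IsFractionRing (B3K0 M' q A hQ) (modularFunctionFieldFullC (K0 A) (M' * q * q)) := by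
  haveI := isScalarTower_R0 A (M' * q * q)
  haveI := isDiscreteValuationRing_R0 A hqF.out hA
  haveI := finiteDimensional_jC A (M' * q * q)
  haveI := isSeparable_jC A (M' * q * q)
  rw [b3K0_eq_chartRing M' q A hQ hqM hA]
  exact isFractionRing_chartRing (K := K0 A) _ (transcendental_jC_R0 A (M' * q * q))

/-- the ring isomorphism `B3K0 ≃ B_j` (identity on elements) -/
def b3K0Equiv (hqM : ¬ q ∣ M') (hA : A.LiesOverPrime q) :
    B3K0 M' q A hQ ≃+* chartRing (R0 A) (jC (M' * q * q) (K0 A)) :=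
  RingEquiv.subringCongr (b3K0_eq_chartRing M' q A hQ hqM hA)

@[simp] theorem coe_b3K0Equiv (x : B3K0 M' q A hQ) :
    ((b3K0Equiv M' q A hQ hqM hA x : chartRing (R0 A) (jC (M' * q * q) (K0 A))) :
      modularFunctionFieldFullC (K0 A) (M' * q * q)) = x := rfl

@[simp] theorem coe_b3K0Equiv_symm (x : chartRing (R0 A) (jC (M' * q * q) (K0 A))) :
    (((b3K0Equiv M' q A hQ hqM hA).symm x : B3K0 M' q A hQ) :
      modularFunctionFieldFullC (K0 A) (M' * q * q)) = x := rfl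

/-! ### (RES1) -/

include hqM hA in
/-- **(RES1)**: the reduction at `w₁` of every `x ∈ RwK0` lies in `k(X₀(M'))` -/
theorem rhoK1_mem_FresBar (x : RwK0 A (M' * q * q)) : rhoK1 M' q A x ∈ FresBar M' A := by
  rw [rhoK1_apply, coe_red1K0 A (M' * q * q) x.1 x.2 ((mem_Rw1K0_iff A (M' * q * q) x.1).1 x.2)]
  exact Fermat.Agent.GL.Val.ResK0Top.coeffMap_red_mem_FresBar A hqF.out (level_eq M' q) hqM hA
    ⟨x.1, x.2⟩

/-! ### (RES3) -/

include hqM hA in
/-- **(RES3)**: the reduction at `w₃` of every `x ∈ Rw3K0` is `y(t^N)` with `y ∈ k(X₀(M'))` -/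
theorem exists_rhoK3_eq_qExpand (x : Rw3K0 A (M' * q * q) q) : ∃ y : FresBar M' A,
    rhoK3 M' q A x = qExpand kA (M' * q * q) (y : LaurentSeries kA) := by
  have hx' : toFN0 A (M' * q * q) x.1 ∈ (redDataCusp (M' * q * q) A (cusp3 (M' * q * q) q)).Rw :=
    x.2
  have h1 : rhoK3 M' q A x = coeffMap (resMapK0 A)
      (((redData3K0 A (M' * q * q) q hqF.out hA).red ⟨x.1, x.2⟩ :
        Fres3K0 A (M' * q * q) q hqF.out hA) : LaurentSeries (ResidueField (R0 A))) := by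
    rw [coeffMap_resMapK0_coe_red A (M' * q * q) (cusp3 (M' * q * q) q) hqF.out hA x.1 x.2 hx']
    rfl
  obtain ⟨z, hz, hzy⟩ := (Fermat.Agent.GL.Val.ResW3Top.mem_Fres3K0_iff A hqF.out hqM hA _).1
    ((redData3K0 A (M' * q * q) q hqF.out hA).red ⟨x.1, x.2⟩).2
  have hz' : coeffMap (resMapK0 A) z ∈ FresBar M' A := by
    rw [Fermat.Agent.GJ.J1.Res.FresBar_eq_fullC M' A hqM hA]
    exact Fermat.Agent.GK.Val.BaseChange.coeffMap_mem_fullC (resMapK0 A) M' hz
  refine ⟨⟨_, hz'⟩, ?_⟩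
  rw [h1, ← hzy, coeffMap_qExpand]

/-! ### (hB3), unconditional -/

include hqM hA in
/-- **(hB3)**, first component -/
theorem exists_cVal_eq_rdK1 (x0 : B3K0 M' q A hQ) :
    ∃ c : CRing M' A, cVal M' A c = rdK1 M' q A hQ x0 :=
  Fermat.Agent.GL.RedInC.exists_cVal_eq_rdK1 M' q A hQ hqM (hRb_R0 M' q A)
    (isIntegral_coe_B3K0 M' q A hQ hqM hA) (rhoK1_mem_FresBar M' q A hqM hA) x0

include hqM hA in
/-- **(hB3)**, second component (= the K-RED hypothesis of helper42 `ClassifyC5`) -/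
theorem exists_cVal_eq_rdK2 (x0 : B3K0 M' q A hQ) :
    ∃ c : CRing M' A, cVal M' A c = rdK2 M' q A hQ x0 :=
  Fermat.Agent.GL.RedInC.exists_cVal_eq_rdK2 M' q A hQ hqM hA (hRb_R0 M' q A)
    (isIntegral_coe_B3K0 M' q A hQ hqM hA) (rhoK1_mem_FresBar M' q A hqM hA) x0

include hqM hA in
/-- **(hB3)**, third component -/
theorem exists_cVal3_eq_rdK3 (x0 : B3K0 M' q A hQ) :
    ∃ c : CRing M' A, cVal3 M' q A c = rdK3 M' q A hQ x0 :=
  Fermat.Agent.GL.RedInC.exists_cVal3_eq_rdK3 M' q A hQ hqM (hRb_R0 M' q A)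
    (isIntegral_coe_B3K0 M' q A hQ hqM hA) (exists_rhoK3_eq_qExpand M' q A hqM hA) x0

include hqM hA in
/-- **(hB3)**: the three reductions of every `x0 ∈ B3K0` lie in (the images of) `C` -/
theorem exists_cVal_eq (x0 : B3K0 M' q A hQ) :
    ∃ z : CRing M' A × CRing M' A × CRing M' A, cVal M' A z.1 = rdK1 M' q A hQ x0 ∧
      cVal M' A z.2.1 = rdK2 M' q A hQ x0 ∧ cVal3 M' q A z.2.2 = rdK3 M' q A hQ x0 :=
  Fermat.Agent.GL.RedInC.exists_cVal_eq M' q A hQ hqM hA (hRb_R0 M' q A)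
    (isIntegral_coe_B3K0 M' q A hQ hqM hA) (rhoK1_mem_FresBar M' q A hqM hA)
    (exists_rhoK3_eq_qExpand M' q A hqM hA) x0

include hqM hA in
/-- range forms -/
theorem rdK1_mem_range (x0 : B3K0 M' q A hQ) :
    rdK1 M' q A hQ x0 ∈ ((cVal M' A : CRing M' A →+* LaurentSeries kA)).range := by
  obtain ⟨c, hc⟩ := exists_cVal_eq_rdK1 M' q A hQ hqM hA x0
  exact ⟨c, hc⟩

include hqM hA in
theorem rdK2_mem_range (x0 : B3K0 M' q A hQ) :
    rdK2 M' q A hQ x0 ∈ ((cVal M' A : CRing M' A →+* LaurentSeries kA)).range := by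
  obtain ⟨c, hc⟩ := exists_cVal_eq_rdK2 M' q A hQ hqM hA x0
  exact ⟨c, hc⟩

include hqM hA in
theorem rdK3_mem_range (x0 : B3K0 M' q A hQ) :
    rdK3 M' q A hQ x0 ∈ (cVal3 M' q A).range := by
  obtain ⟨c, hc⟩ := exists_cVal3_eq_rdK3 M' q A hQ hqM hA x0
  exact ⟨c, hc⟩

/-! ### the reductions with values in `k(X₀(M'))` and in `C`, unconditional -/

/-- **`red₁ : RwK0 → k(X₀(M'))`** -/
def redF1U (hqM : ¬ q ∣ M') (hA : A.LiesOverPrime q) : RwK0 A (M' * q * q) →+* FresBar M' A :=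
  redF1 M' q A (rhoK1_mem_FresBar M' q A hqM hA)

/-- **`red₂ : Rw₂ → k(X₀(M'))`** -/
def redF2U (hqM : ¬ q ∣ M') (hA : A.LiesOverPrime q) :
    (redData2QK0 A (M' * q * q) hQ).Rw →+* FresBar M' A :=
  redF2 M' q A hQ (rhoK1_mem_FresBar M' q A hqM hA)

/-- **`red₃ : Rw3K0 → k(X₀(M'))`** -/
def redF3U (hqM : ¬ q ∣ M') (hA : A.LiesOverPrime q) :
    Rw3K0 A (M' * q * q) q →+* FresBar M' A :=
  redF3 M' q A (exists_rhoK3_eq_qExpand M' q A hqM hA)

theorem coe_redF1U (x : RwK0 A (M' * q * q)) :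
    ((redF1U M' q A hqM hA x : FresBar M' A) : LaurentSeries kA) = rhoK1 M' q A x := rfl

theorem coe_redF2U (x : (redData2QK0 A (M' * q * q) hQ).Rw) :
    ((redF2U M' q A hQ hqM hA x : FresBar M' A) : LaurentSeries kA) = rhoK2 M' q A hQ x := rfl

theorem qExpand_redF3U (x : Rw3K0 A (M' * q * q) q) :
    qExpand kA (M' * q * q) ((redF3U M' q A hqM hA x : FresBar M' A) : LaurentSeries kA) =
      rhoK3 M' q A x :=
  emb3_redF3 M' q A _ x

theorem redF1U_eq_zero_iff (x : RwK0 A (M' * q * q)) :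
    redF1U M' q A hqM hA x = 0 ↔ (x : modularFunctionFieldFullC (K0 A) (M' * q * q)) ∈
      (RwK0 A (M' * q * q)).nonunits :=
  redF1_eq_zero_iff M' q A _ x

theorem redF2U_eq_zero_iff (x : (redData2QK0 A (M' * q * q) hQ).Rw) :
    redF2U M' q A hQ hqM hA x = 0 ↔ (x : modularFunctionFieldFullC (K0 A) (M' * q * q)) ∈
      (redData2QK0 A (M' * q * q) hQ).Rw.nonunits :=
  redF2_eq_zero_iff M' q A hQ _ x

theorem redF3U_eq_zero_iff (x : Rw3K0 A (M' * q * q) q) :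
    redF3U M' q A hqM hA x = 0 ↔ (x : modularFunctionFieldFullC (K0 A) (M' * q * q)) ∈
      (Rw3K0 A (M' * q * q) q).nonunits :=
  redF3_eq_zero_iff M' q A _ x

/-- **`red₁ : B3K0 →+* C`** -/
def redC1U (hqM : ¬ q ∣ M') (hA : A.LiesOverPrime q) : B3K0 M' q A hQ →+* CRing M' A :=
  redC1 M' q A hQ hqM (hRb_R0 M' q A) (isIntegral_coe_B3K0 M' q A hQ hqM hA)
    (rhoK1_mem_FresBar M' q A hqM hA)

/-- **`red₂ : B3K0 →+* C`** -/
def redC2U (hqM : ¬ q ∣ M') (hA : A.LiesOverPrime q) : B3K0 M' q A hQ →+* CRing M' A :=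
  redC2 M' q A hQ hqM (hRb_R0 M' q A) (isIntegral_coe_B3K0 M' q A hQ hqM hA)
    (rhoK1_mem_FresBar M' q A hqM hA) hA

/-- **`red₃ : B3K0 →+* C`** -/
def redC3U (hqM : ¬ q ∣ M') (hA : A.LiesOverPrime q) : B3K0 M' q A hQ →+* CRing M' A :=
  redC3 M' q A hQ hqM (hRb_R0 M' q A) (isIntegral_coe_B3K0 M' q A hQ hqM hA)
    (exists_rhoK3_eq_qExpand M' q A hqM hA)

theorem cVal_redC1U (x0 : B3K0 M' q A hQ) :
    cVal M' A (redC1U M' q A hQ hqM hA x0) = rdK1 M' q A hQ x0 := rfl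

theorem cVal_redC2U (x0 : B3K0 M' q A hQ) :
    cVal M' A (redC2U M' q A hQ hqM hA x0) = rdK2 M' q A hQ x0 := rfl

theorem cVal3_redC3U (x0 : B3K0 M' q A hQ) :
    cVal3 M' q A (redC3U M' q A hQ hqM hA x0) = rdK3 M' q A hQ x0 :=
  cVal3_redC3 M' q A hQ hqM _ _ _ x0

/-- **the reduction `B3K0 →+* C × C × C`**, unconditional -/
def rK0U (hqM : ¬ q ∣ M') (hA : A.LiesOverPrime q) :
    B3K0 M' q A hQ →+* CRing M' A × CRing M' A × CRing M' A :=
  rK0 M' q A hQ hqM (hRb_R0 M' q A) (isIntegral_coe_B3K0 M' q A hQ hqM hA)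
    (rhoK1_mem_FresBar M' q A hqM hA) (exists_rhoK3_eq_qExpand M' q A hqM hA) hA

theorem rK0U_apply (x0 : B3K0 M' q A hQ) :
    rK0U M' q A hQ hqM hA x0 =
      (redC1U M' q A hQ hqM hA x0, redC2U M' q A hQ hqM hA x0, redC3U M' q A hQ hqM hA x0) :=
  rfl

/-- `rK0U x0 = z` in terms of the Laurent series -/
theorem rK0U_eq_iff (x0 : B3K0 M' q A hQ) (z : CRing M' A × CRing M' A × CRing M' A) :
    rK0U M' q A hQ hqM hA x0 = z ↔
      rdK1 M' q A hQ x0 = cVal M' A z.1 ∧ rdK2 M' q A hQ x0 = cVal M' A z.2.1 ∧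
        rdK3 M' q A hQ x0 = cVal3 M' q A z.2.2 :=
  rK0_eq_iff M' q A hQ hqM hA _ _ _ _ x0 z

/-- `ker rK0U = {w₁ > 0, w₂ > 0, w₃ > 0}` -/
theorem rK0U_eq_zero_iff (x0 : B3K0 M' q A hQ) :
    rK0U M' q A hQ hqM hA x0 = 0 ↔
      (x0 : modularFunctionFieldFullC (K0 A) (M' * q * q)) ∈ (RwK0 A (M' * q * q)).nonunits ∧
      (x0 : modularFunctionFieldFullC (K0 A) (M' * q * q)) ∈
        (redData2QK0 A (M' * q * q) hQ).Rw.nonunits ∧
      (x0 : modularFunctionFieldFullC (K0 A) (M' * q * q)) ∈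
        (Rw3K0 A (M' * q * q) q).nonunits :=
  rK0_eq_zero_iff M' q A hQ hqM hA _ _ _ _ x0

/-- **`rK0U '' B3K0 ⊆ B̃₃(R₀)`** -/
theorem rK0U_mem_BT3K0 (x0 : B3K0 M' q A hQ) :
    rK0U M' q A hQ hqM hA x0 ∈ BT3K0 M' q A hQ hA :=
  rK0_mem_BT3K0 M' q A hQ hqM hA _ _ _ _ x0

/-- **`B̃₃(R₀) ⊆ rK0U '' B3K0`** -/
theorem exists_rK0U_eq_of_mem_BT3K0 {z : CRing M' A × CRing M' A × CRing M' A}
    (hz : z ∈ BT3K0 M' q A hQ hA) :
    ∃ x0 : B3K0 M' q A hQ, rK0U M' q A hQ hqM hA x0 = z :=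
  exists_rK0_eq_of_mem_BT3K0 M' q A hQ hqM hA _ _ _ _ hz

/-- **`rK0U '' B3K0 = B̃₃(R₀)`** -/
theorem range_rK0U :
    ((rK0U M' q A hQ hqM hA).range : Set (CRing M' A × CRing M' A × CRing M' A)) =
      (BT3K0 M' q A hQ hA : Set (CRing M' A × CRing M' A × CRing M' A)) := by
  ext z
  constructor
  · rintro ⟨x0, rfl⟩
    exact rK0U_mem_BT3K0 M' q A hQ hqM hA x0
  · intro hz
    obtain ⟨x0, hx0⟩ := exists_rK0U_eq_of_mem_BT3K0 M' q A hQ hqM hA hz
    exact ⟨x0, hx0⟩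

section Old

variable (h2 : q = 2 → 3 ∣ M') (h3 : q = 3 → 2 ∣ M')
include h2 h3

/-- **`(c, Ψ² c, c) ∈ rK0U '' B3K0`** -/
theorem exists_rK0U_eq_old0 (c : CRing M' A) :
    ∃ x0 : B3K0 M' q A hQ, rK0U M' q A hQ hqM hA x0 =
      (c, psiC M' q A hqM hA (psiC M' q A hqM hA c), c) :=
  exists_rK0_eq_old0 M' q A hQ hqM hA _ _ _ _ h2 h3 c

/-- **`(Ψ c, Ψ c, Ψ c) ∈ rK0U '' B3K0`** -/
theorem exists_rK0U_eq_old1 (c : CRing M' A) :
    ∃ x0 : B3K0 M' q A hQ, rK0U M' q A hQ hqM hA x0 =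
      (psiC M' q A hqM hA c, psiC M' q A hqM hA c, psiC M' q A hqM hA c) :=
  exists_rK0_eq_old1 M' q A hQ hqM hA _ _ _ _ h2 h3 c

/-- **`(Ψ² c, c, c) ∈ rK0U '' B3K0`** -/
theorem exists_rK0U_eq_old2 (c : CRing M' A) :
    ∃ x0 : B3K0 M' q A hQ, rK0U M' q A hQ hqM hA x0 =
      (psiC M' q A hqM hA (psiC M' q A hqM hA c), c, c) :=
  exists_rK0_eq_old2 M' q A hQ hqM hA _ _ _ _ h2 h3 c

/-- `red₁ : B3K0 → C` is onto -/
theorem redC1U_surjective : Function.Surjective (redC1U M' q A hQ hqM hA) := fun c => by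
  obtain ⟨x0, hx0⟩ := exists_rK0U_eq_old0 M' q A hQ hqM hA h2 h3 c
  exact ⟨x0, congrArg Prod.fst hx0⟩

/-- `red₂ : B3K0 → C` is onto -/
theorem redC2U_surjective : Function.Surjective (redC2U M' q A hQ hqM hA) := fun c => by
  obtain ⟨x0, hx0⟩ := exists_rK0U_eq_old2 M' q A hQ hqM hA h2 h3 c
  exact ⟨x0, congrArg (fun z => z.2.1) hx0⟩

/-- `red₃ : B3K0 → C` is onto -/
theorem redC3U_surjective : Function.Surjective (redC3U M' q A hQ hqM hA) := fun c => by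
  obtain ⟨x0, hx0⟩ := exists_rK0U_eq_old0 M' q A hQ hqM hA h2 h3 c
  exact ⟨x0, congrArg (fun z => z.2.2) hx0⟩

end Old

/-! ### the reductions `W_i → k(X₀(M'))` are onto -/

section Generic

/-- a ring hom from a local ring to a field whose kernel is the maximal ideal and whose range
contains a subring `C` with fraction field the target is onto -/
theorem surjective_of_isFractionRing {W κ C : Type*} [CommRing W] [IsLocalRing W] [Field κ]
    [CommRing C] [Algebra C κ] [IsFractionRing C κ] (ρ : W →+* κ)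
    (hker : ∀ x : W, ρ x = 0 ↔ x ∈ maximalIdeal W)
    (hC : ∀ c : C, ∃ x : W, ρ x = algebraMap C κ c) : Function.Surjective ρ := by
  intro y
  haveI : Nontrivial C := (algebraMap C κ).domain_nontrivial
  obtain ⟨c, d, hd, rfl⟩ := IsFractionRing.div_surjective (A := C) y
  obtain ⟨xc, hxc⟩ := hC c
  obtain ⟨xd, hxd⟩ := hC d
  have hd0 : algebraMap C κ d ≠ 0 := IsFractionRing.to_map_ne_zero_of_mem_nonZeroDivisors hd
  have hu : IsUnit xd := by
    by_contra hnu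
    exact hd0 (hxd ▸ (hker xd).2 ((mem_maximalIdeal xd).2 hnu))
  obtain ⟨u, rfl⟩ := hu
  refine ⟨xc * ((u⁻¹ : Wˣ) : W), ?_⟩
  rw [map_mul, hxc, div_eq_mul_inv]
  congr 1
  apply eq_inv_of_mul_eq_one_left
  rw [← hxd, ← map_mul, Units.inv_mul, map_one]

end Generic

section Onto

variable (h2 : q = 2 → 3 ∣ M') (h3 : q = 3 → 2 ∣ M')
include hQ h2 h3

/-- **`red₁ : RwK0 → k(X₀(M'))` is onto**: the residue field of `w₁` on `K₀(X₀(M' q q))`,
pushed to `k((Q))`, is exactly `k(X₀(M'))` -/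
theorem redF1U_surjective : Function.Surjective (redF1U M' q A hqM hA) := by
  haveI := Fermat.Agent.GL.CRingFin.isFractionRing_CRing M' A
  refine surjective_of_isFractionRing (C := CRing M' A) (redF1U M' q A hqM hA)
    (fun x => ?_) (fun c => ?_)
  · rw [redF1U_eq_zero_iff, ValuationSubring.coe_mem_nonunits_iff]
  · obtain ⟨x0, hx0⟩ := redC1U_surjective M' q A hQ hqM hA h2 h3 c
    exact ⟨inc1 M' q A hQ x0, congrArg Subtype.val hx0⟩

/-- **`red₂ : Rw₂ → k(X₀(M'))` is onto** -/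
theorem redF2U_surjective : Function.Surjective (redF2U M' q A hQ hqM hA) := by
  haveI := Fermat.Agent.GL.CRingFin.isFractionRing_CRing M' A
  refine surjective_of_isFractionRing (C := CRing M' A) (redF2U M' q A hQ hqM hA)
    (fun x => ?_) (fun c => ?_)
  · rw [redF2U_eq_zero_iff, ValuationSubring.coe_mem_nonunits_iff]
  · obtain ⟨x0, hx0⟩ := redC2U_surjective M' q A hQ hqM hA h2 h3 c
    exact ⟨inc2 M' q A hQ x0, congrArg Subtype.val hx0⟩

/-- **`red₃ : Rw3K0 → k(X₀(M'))` is onto** -/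
theorem redF3U_surjective : Function.Surjective (redF3U M' q A hqM hA) := by
  haveI := Fermat.Agent.GL.CRingFin.isFractionRing_CRing M' A
  refine surjective_of_isFractionRing (C := CRing M' A) (redF3U M' q A hqM hA)
    (fun x => ?_) (fun c => ?_)
  · rw [redF3U_eq_zero_iff, ValuationSubring.coe_mem_nonunits_iff]
  · obtain ⟨x0, hx0⟩ := redC3U_surjective M' q A hQ hqM hA h2 h3 c
    exact ⟨inc3 M' q A hQ x0, congrArg Subtype.val hx0⟩

end Onto

/-! ### root closedness: the `hroot_i` of helper29 `hIII_of_setup_series` -/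

include hqM hA in
/-- `hroot₁` on the whole valuation ring of `w₁` -/
theorem hroot1 {m : ℕ} (hm : m ≠ 0) (z : RwK0 A (M' * q * q))
    (h : rhoK1 M' q A z ^ m ∈ ((cVal M' A : CRing M' A →+* LaurentSeries kA)).range) :
    rhoK1 M' q A z ∈ ((cVal M' A : CRing M' A →+* LaurentSeries kA)).range := by
  obtain ⟨c, hc⟩ := h
  have h1 : (redF1U M' q A hqM hA z) ^ m = (c : FresBar M' A) := Subtype.ext hc.symm
  have h2 : redF1U M' q A hqM hA z ∈ CRing M' A :=
    Fermat.Agent.GL.CRingFin.mem_CRing_of_pow_mem M' A hm (h1 ▸ c.2)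
  exact ⟨⟨_, h2⟩, rfl⟩

include hqM hA in
/-- `hroot₂` on the whole valuation ring of `w₂` -/
theorem hroot2 {m : ℕ} (hm : m ≠ 0) (z : (redData2QK0 A (M' * q * q) hQ).Rw)
    (h : rhoK2 M' q A hQ z ^ m ∈ ((cVal M' A : CRing M' A →+* LaurentSeries kA)).range) :
    rhoK2 M' q A hQ z ∈ ((cVal M' A : CRing M' A →+* LaurentSeries kA)).range := by
  obtain ⟨c, hc⟩ := h
  have h1 : (redF2U M' q A hQ hqM hA z) ^ m = (c : FresBar M' A) := Subtype.ext hc.symm
  have h2 : redF2U M' q A hQ hqM hA z ∈ CRing M' A :=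
    Fermat.Agent.GL.CRingFin.mem_CRing_of_pow_mem M' A hm (h1 ▸ c.2)
  exact ⟨⟨_, h2⟩, rfl⟩

include hqM hA in
/-- `hroot₃` on the whole valuation ring of `w₃` -/
theorem hroot3 {m : ℕ} (hm : m ≠ 0) (z : Rw3K0 A (M' * q * q) q)
    (h : rhoK3 M' q A z ^ m ∈ (cVal3 M' q A).range) :
    rhoK3 M' q A z ∈ (cVal3 M' q A).range := by
  obtain ⟨c, hc⟩ := h
  have h1 : (redF3U M' q A hqM hA z) ^ m = (c : FresBar M' A) := by
    apply emb3_injective M' q A
    rw [map_pow, emb3_apply, emb3_apply, qExpand_redF3U]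
    exact hc.symm
  have h2 : redF3U M' q A hqM hA z ∈ CRing M' A :=
    Fermat.Agent.GL.CRingFin.mem_CRing_of_pow_mem M' A hm (h1 ▸ c.2)
  exact ⟨⟨_, h2⟩, qExpand_redF3U M' q A hqM hA z⟩

/-! ### constants: the `hconst` of helper29 `hIII_of_setup_series` -/

include hA in
/-- every `a ∈ k` is the common reduction of a constant `r ∈ R₀` -/
theorem exists_const (a : kA) : ∃ r : R0 A,
    residue A ⟨ι0 A (r : K0 A), (mem_R0_iff A _).1 r.2⟩ = a ∧
    rdK1 M' q A hQ ⟨_, algebraMap_mem_B3K0 M' q A hQ r⟩ =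
      cVal M' A (algebraMap kA (CRing M' A) a) ∧
    rdK2 M' q A hQ ⟨_, algebraMap_mem_B3K0 M' q A hQ r⟩ =
      cVal M' A (algebraMap kA (CRing M' A) a) ∧
    rdK3 M' q A hQ ⟨_, algebraMap_mem_B3K0 M' q A hQ r⟩ =
      cVal3 M' q A (algebraMap kA (CRing M' A) a) := by
  obtain ⟨r, hr⟩ := exists_R0_residue_eq q A hA a
  have hc : cVal M' A (algebraMap kA (CRing M' A) a) = algebraMap kA (LaurentSeries kA) a :=
    (cVal M' A).commutes a
  have hc3 : cVal3 M' q A (algebraMap kA (CRing M' A) a) =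
      algebraMap kA (LaurentSeries kA) a := by
    rw [cVal3_apply, hc, algebraMap_laurentSeries_eq_single, qExpand_single, mul_zero]
  refine ⟨r, hr, ?_, ?_, ?_⟩
  · rw [rdK1_algebraMap, hr, hc]
  · rw [rdK2_algebraMap, hr, hc]
  · rw [rdK3_algebraMap, hr, hc3]

end Fermat.Agent.GL.RedInCThm
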