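/-
GATE-L / ABS-2 (FL-ABS) (helper2), per helper48 STACK RULING 1 (board 2695, finding (F1)).

**Graded-Noetherian saturation.**  `k` a field, `κ` a commutative `k`-algebra, `s : κ`,
`C T : ℕ → Submodule k κ` two filtrations with `T n ≤ C n`, `T n ≤ T (n+1)`, `s • T n ≤ T (n+1)`,
every `C n` finite-dimensional,

* (gen)  `C (n+1) ≤ C n + s • C n` for `n ≥ n0`,
* (sat)  `z ∈ C a`, `s ^ c * z ∈ C (n + c)` ⟹ `z ∈ C n`.

Then there is `n1` such that for all `n ≥ n1`

  `{z | (∃ a, z ∈ T a) ∧ (∃ c, s ^ c * z ∈ T (n + c))} = T n`,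

i.e. the graded `k[X₀,X₁]`-module `⨁ T n` (`X₀` = inclusion, `X₁` = multiplication by `s`) agrees
with its saturation `⨁ H⁰(ℙ¹, M~(n))` in large degrees.

Proof: inside `κ[Y]` let `S` be the image of `k[X₀,X₁] → κ[Y]`, `X₀ ↦ Y`, `X₁ ↦ sY` (a Noetherian
ring).  By (gen) all `z Yⁿ` (`z ∈ C n`) lie in the `S`-span of finitely many polynomials, a Noetherian
`S`-module; by (sat) it contains the `S`-span of `H = {z Yⁿ | z ∈ Sat n}`, which is therefore
generated by finitely many `z_j Y^{d_j} ∈ H`.  Every monomial `X₀^α X₁^β` of large degree maps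
`z_j Y^{d_j}` into `⨁ T n`; comparing coefficients of `Yⁿ` gives `Sat n ≤ T n` for `n` large.
-/
import Mathlib

set_option autoImplicit false

noncomputable section

namespace Fermat.Agent.GL.FlatGraded

open Polynomial

variable {k κ : Type*} [Field k] [CommRing κ] [Algebra k κ]

/-! ### The graded homomorphism `k[X₀,X₁] → κ[Y]` -/

/-- the graded homomorphism `k[X₀,X₁] → κ[Y]`, `X₀ ↦ Y`, `X₁ ↦ sY` -/
def phi (s : κ) : MvPolynomial (Fin 2) k →ₐ[k] κ[X] :=
  MvPolynomial.aeval ![(X : κ[X]), C s * X]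

theorem phi_monomial (s : κ) (u : Fin 2 →₀ ℕ) (a : k) :
    phi s (MvPolynomial.monomial u a) = monomial (u 0 + u 1) (a • s ^ u 1) := by
  rw [phi, MvPolynomial.aeval_monomial, Finsupp.prod_fintype _ _ (fun i => pow_zero _),
    Fin.prod_univ_two]
  simp only [Matrix.cons_val_zero, Matrix.cons_val_one, mul_pow, ← C_pow]
  rw [Polynomial.algebraMap_apply, Algebra.smul_def, ← C_mul_X_pow_eq_monomial, pow_add]
  simp only [C_mul, C_pow]
  ring

/-- the image of `k[X₀,X₁]` in `κ[Y]`: the subalgebra generated by `Y` and `sY` -/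
def gradedRing (s : κ) : Subalgebra k κ[X] := (phi s).range

instance (s : κ) : IsNoetherianRing (gradedRing (k := k) s) :=
  isNoetherianRing_of_surjective _ _ (phi (k := k) s).rangeRestrict.toRingHom
    (phi (k := k) s).rangeRestrict_surjective

theorem X_mem_gradedRing (s : κ) : (X : κ[X]) ∈ gradedRing (k := k) s :=
  ⟨MvPolynomial.X 0, by simp [phi]⟩

theorem sX_mem_gradedRing (s : κ) : (C s * X : κ[X]) ∈ gradedRing (k := k) s :=
  ⟨MvPolynomial.X 1, by simp [phi]⟩

theorem smul_def' (s : κ) (r : gradedRing (k := k) s) (f : κ[X]) : r • f = (r : κ[X]) * f :=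
  smul_eq_mul (r : κ[X]) f

/-! ### The filtration lemmas -/

section Filtration

variable (s : κ) (T : ℕ → Submodule k κ)

theorem T_mono (hTmono : ∀ n, T n ≤ T (n + 1)) {a b : ℕ} (hab : a ≤ b) : T a ≤ T b :=
  monotone_nat_of_le_succ hTmono hab

theorem pow_mul_mem (hTs : ∀ n, ∀ z ∈ T n, s * z ∈ T (n + 1)) {a : ℕ} {z : κ} (hz : z ∈ T a)
    (b : ℕ) : s ^ b * z ∈ T (a + b) := by
  induction b with
  | zero => simpa using hz
  | succ b ih =>
    have := hTs _ _ ih
    rwa [← mul_assoc, ← pow_succ'] at this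

/-- the key computation: a monomial `X₀^α X₁^β` of large degree maps a homogeneous element of the
saturation into `⨁ T n` -/
theorem pow_mul_mem_of_le (hTmono : ∀ n, T n ≤ T (n + 1))
    (hTs : ∀ n, ∀ z ∈ T n, s * z ∈ T (n + 1)) {d a c : ℕ} {z : κ} (hza : z ∈ T a)
    (hzc : s ^ c * z ∈ T (d + c)) {α β n : ℕ} (hn : α + β + d = n) (hE : d + a + c ≤ n) :
    s ^ β * z ∈ T n := by
  rcases le_or_gt c β with hcb | hcb
  · -- `s^β z = s^(β-c) (s^c z) ∈ T (d + c + (β - c))`
    have h1 := pow_mul_mem s T hTs hzc (β - c)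
    rw [← mul_assoc, ← pow_add, Nat.sub_add_cancel hcb] at h1
    exact T_mono T hTmono (by omega) h1
  · exact T_mono T hTmono (by omega) (pow_mul_mem s T hTs hza β)

/-- one homogeneous generator: all coefficients of `r • (z Y^d)` in degrees `≥ d + a + c` lie in
`T` -/
theorem coeff_smul_monomial_mem (hTmono : ∀ n, T n ≤ T (n + 1))
    (hTs : ∀ n, ∀ z ∈ T n, s * z ∈ T (n + 1)) {d a c : ℕ} {z : κ} (hza : z ∈ T a)
    (hzc : s ^ c * z ∈ T (d + c)) (p : MvPolynomial (Fin 2) k) {n : ℕ} (hE : d + a + c ≤ n) :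
    (phi s p * monomial d z).coeff n ∈ T n := by
  induction p using MvPolynomial.induction_on' with
  | monomial u a' =>
    rw [phi_monomial, monomial_mul_monomial, coeff_monomial]
    split_ifs with h
    · rw [smul_mul_assoc]
      exact (T n).smul_mem _ (pow_mul_mem_of_le s T hTmono hTs hza hzc h hE)
    · exact zero_mem _
  | add p q hp hq =>
    rw [map_add, add_mul, coeff_add]
    exact add_mem hp hq

end Filtration

/-! ### Finite generation of the big graded module -/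

section FiniteGeneration

variable (s : κ) (Cn : ℕ → Submodule k κ)

/-- (gen) ⟹ all `z Yⁿ`, `z ∈ Cn n`, lie in the `k[Y,sY]`-span of a finite set of polynomials -/
theorem exists_finset_monomial_mem_span (hCfin : ∀ n, Module.Finite k (Cn n)) (n0 : ℕ)
    (hgen : ∀ n, n0 ≤ n → ∀ z ∈ Cn (n + 1), ∃ x ∈ Cn n, ∃ y ∈ Cn n, z = x + s * y) :
    ∃ G : Finset κ[X], ∀ n, ∀ z ∈ Cn n,
      monomial n z ∈ Submodule.span (gradedRing (k := k) s) (G : Set κ[X]) := by
  classical
  -- the finite-dimensional `k`-space `W = ⨁_{n ≤ n0} C n Yⁿ`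
  let mon : ℕ → κ →ₗ[k] κ[X] := fun n => (monomial n : κ →ₗ[κ] κ[X]).restrictScalars k
  let W : Submodule k κ[X] := ⨆ n ∈ Finset.range (n0 + 1), (Cn n).map (mon n)
  have hW : W.FG := by
    refine Submodule.fg_biSup _ _ fun n _ => Submodule.FG.map _ ?_
    exact Module.Finite.iff_fg.mp (hCfin n)
  obtain ⟨G, hG⟩ := hW
  refine ⟨G, ?_⟩
  have hbase : ∀ n, n ≤ n0 → ∀ z ∈ Cn n,
      monomial n z ∈ Submodule.span (gradedRing (k := k) s) (G : Set κ[X]) := by
    intro n hn z hz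
    have h1 : monomial n z ∈ W := by
      refine Submodule.mem_iSup_of_mem n (Submodule.mem_iSup_of_mem ?_ ?_)
      · exact Finset.mem_range.mpr (by omega)
      · exact ⟨z, hz, rfl⟩
    rw [← hG] at h1
    exact Submodule.span_le_restrictScalars k (gradedRing (k := k) s) _ h1
  intro n
  induction n with
  | zero => exact hbase 0 (Nat.zero_le _)
  | succ m ih =>
    intro z hz
    by_cases hm : m + 1 ≤ n0
    · exact hbase _ hm z hz
    · obtain ⟨x, hx, y, hy, rfl⟩ := hgen m (by omega) z hz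
      have e1 : (monomial (m + 1) x : κ[X])
          = (⟨X, X_mem_gradedRing s⟩ : gradedRing (k := k) s) • monomial m x := by
        rw [smul_def']
        show _ = X * monomial m x
        rw [X_mul_monomial]
      have e2 : (monomial (m + 1) (s * y) : κ[X])
          = (⟨C s * X, sX_mem_gradedRing s⟩ : gradedRing (k := k) s) • monomial m y := by
        rw [smul_def']
        show _ = C s * X * monomial m y
        rw [mul_assoc, X_mul_monomial, C_mul_monomial]
      rw [map_add, e1, e2]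
      exact add_mem (Submodule.smul_mem _ _ (ih x hx)) (Submodule.smul_mem _ _ (ih y hy))

end FiniteGeneration

/-! ### The saturation -/

section Main

variable (s : κ) (Cn T : ℕ → Submodule k κ)

/-- the degree-`n` part of the saturation of `⨁ T n`: `H⁰(ℙ¹, M~(n))` -/
def Sat (n : ℕ) : Set κ := {z | (∃ a, z ∈ T a) ∧ ∃ c, s ^ c * z ∈ T (n + c)}

theorem subset_Sat (n : ℕ) : (T n : Set κ) ⊆ Sat s T n :=
  fun z hz => ⟨⟨n, hz⟩, 0, by simpa using hz⟩

/-- the homogeneous elements of the saturation, inside `κ[Y]` -/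
def satMonomials : Set κ[X] := {f | ∃ n, ∃ z ∈ Sat s T n, f = monomial n z}

/-- a finite set of homogeneous elements of the saturation has all its high-degree
`k[Y,sY]`-multiples in `⨁ T n` -/
theorem exists_bound_of_finset (hTmono : ∀ n, T n ≤ T (n + 1))
    (hTs : ∀ n, ∀ z ∈ T n, s * z ∈ T (n + 1)) (H' : Finset κ[X])
    (hH' : (H' : Set κ[X]) ⊆ satMonomials s T) :
    ∃ n1, ∀ f ∈ Submodule.span (gradedRing (k := k) s) (H' : Set κ[X]), ∀ n, n1 ≤ n →
      f.coeff n ∈ T n := by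
  classical
  induction H' using Finset.induction_on with
  | empty =>
    refine ⟨0, fun f hf n _ => ?_⟩
    rw [Finset.coe_empty, Submodule.span_empty, Submodule.mem_bot] at hf
    rw [hf, coeff_zero]
    exact zero_mem _
  | insert h H'' _ ih =>
    rw [Finset.coe_insert, Set.insert_subset_iff] at hH'
    obtain ⟨n1, hn1⟩ := ih hH'.2
    obtain ⟨d, z, ⟨⟨a, hza⟩, c, hzc⟩, rfl⟩ := hH'.1
    refine ⟨max n1 (d + a + c), fun f hf n hn => ?_⟩
    rw [Finset.coe_insert, Submodule.mem_span_insert] at hf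
    obtain ⟨r, f', hf', rfl⟩ := hf
    rw [coeff_add]
    refine add_mem ?_ (hn1 f' hf' n (le_trans (le_max_left _ _) hn))
    obtain ⟨p, hp⟩ := r.2
    rw [smul_def', ← hp]
    exact coeff_smul_monomial_mem s T hTmono hTs hza hzc p (le_trans (le_max_right _ _) hn)

/-- **ABS-2 (FL-ABS): graded-Noetherian saturation.**  With (gen) and (sat) for the finite-dimensional
filtration `Cn ≥ T`, the filtration `T` agrees with its saturation in large degrees. -/
theorem exists_sat_subset (hCfin : ∀ n, Module.Finite k (Cn n)) (hTC : ∀ n, T n ≤ Cn n)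
    (hTmono : ∀ n, T n ≤ T (n + 1)) (hTs : ∀ n, ∀ z ∈ T n, s * z ∈ T (n + 1))
    (hgen : ∃ n0, ∀ n, n0 ≤ n → ∀ z ∈ Cn (n + 1), ∃ x ∈ Cn n, ∃ y ∈ Cn n, z = x + s * y)
    (hsat : ∀ a n c, ∀ z ∈ Cn a, s ^ c * z ∈ Cn (n + c) → z ∈ Cn n) :
    ∃ n1, ∀ n, n1 ≤ n → ∀ z, (∃ a, z ∈ T a) → (∃ c, s ^ c * z ∈ T (n + c)) → z ∈ T n := by
  obtain ⟨n0, hgen⟩ := hgen
  obtain ⟨G, hG⟩ := exists_finset_monomial_mem_span s Cn hCfin n0 hgen
  -- the span of the homogeneous elements of the saturation sits in a Noetherian module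
  have hle : Submodule.span (gradedRing (k := k) s) (satMonomials s T)
      ≤ Submodule.span (gradedRing (k := k) s) (G : Set κ[X]) := by
    refine Submodule.span_le.mpr ?_
    rintro _ ⟨n, z, ⟨⟨a, hza⟩, c, hzc⟩, rfl⟩
    exact hG n z (hsat a n c z (hTC a hza) (hTC _ hzc))
  have hnoeth : IsNoetherian (gradedRing (k := k) s)
      (Submodule.span (gradedRing (k := k) s) (G : Set κ[X])) :=
    isNoetherian_span_of_finite _ G.finite_toSet
  have hfg : (Submodule.span (gradedRing (k := k) s) (satMonomials s T)).FG :=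
    isNoetherian_submodule.mp hnoeth _ hle
  obtain ⟨H', hH', hspan⟩ := (Submodule.fg_span_iff_fg_span_finset_subset _).mp hfg
  obtain ⟨n1, hn1⟩ := exists_bound_of_finset s T hTmono hTs H' hH'
  refine ⟨n1, fun n hn z hza hzc => ?_⟩
  have hmem : monomial n z ∈ Submodule.span (gradedRing (k := k) s) (satMonomials s T) :=
    Submodule.subset_span ⟨n, z, ⟨hza, hzc⟩, rfl⟩
  rw [hspan] at hmem
  have := hn1 _ hmem n hn
  rwa [coeff_monomial, if_pos rfl] at this

/-- set form: `Sat n = T n` for `n` large -/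
theorem exists_sat_eq (hCfin : ∀ n, Module.Finite k (Cn n)) (hTC : ∀ n, T n ≤ Cn n)
    (hTmono : ∀ n, T n ≤ T (n + 1)) (hTs : ∀ n, ∀ z ∈ T n, s * z ∈ T (n + 1))
    (hgen : ∃ n0, ∀ n, n0 ≤ n → ∀ z ∈ Cn (n + 1), ∃ x ∈ Cn n, ∃ y ∈ Cn n, z = x + s * y)
    (hsat : ∀ a n c, ∀ z ∈ Cn a, s ^ c * z ∈ Cn (n + c) → z ∈ Cn n) :
    ∃ n1, ∀ n, n1 ≤ n → Sat s T n = (T n : Set κ) := by
  obtain ⟨n1, h⟩ := exists_sat_subset s Cn T hCfin hTC hTmono hTs hgen hsat
  exact ⟨n1, fun n hn => Set.Subset.antisymm (fun z hz => h n hn z hz.1 hz.2) (subset_Sat s T n)⟩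

/-- submodule form of the hypotheses: (gen) as `Cn (n+1) ≤ Cn n ⊔ s • Cn n` -/
theorem exists_sat_eq' (hCfin : ∀ n, Module.Finite k (Cn n)) (hTC : ∀ n, T n ≤ Cn n)
    (hTmono : ∀ n, T n ≤ T (n + 1))
    (hTs : ∀ n, (T n).map (LinearMap.mulLeft k s) ≤ T (n + 1))
    (hgen : ∃ n0, ∀ n, n0 ≤ n → Cn (n + 1) ≤ Cn n ⊔ (Cn n).map (LinearMap.mulLeft k s))
    (hsat : ∀ a n c, ∀ z ∈ Cn a, s ^ c * z ∈ Cn (n + c) → z ∈ Cn n) :
    ∃ n1, ∀ n, n1 ≤ n → Sat s T n = (T n : Set κ) := by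
  refine exists_sat_eq s Cn T hCfin hTC hTmono (fun n z hz => hTs n ⟨z, hz, rfl⟩) ?_ hsat
  obtain ⟨n0, h⟩ := hgen
  refine ⟨n0, fun n hn z hz => ?_⟩
  obtain ⟨x, hx, w, ⟨y, hy, rfl⟩, rfl⟩ := Submodule.mem_sup.mp (h n hn hz)
  exact ⟨x, hx, y, hy, rfl⟩

end Main

end Fermat.Agent.GL.FlatGraded
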