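import Fermat.Agent.GL.Fibre.CondLocal
import Fermat.Agent.GL.Lattice.LocOfReg

/-!
# GATE-L / (LOC) at ANY closed point of the fibre from a conductor of finite codimension (helper29)

`loc_of_conductor` = helper35's `LocOfReg.loc_of_chars` with `hcond`, `hsurj`, `hagree`, `hχ𝔯`,
`hχ𝔫`, `hm` all DISCHARGED from the fibre data:

* `rd : B →+* D` the reduction modulo the radical, `ker rd = 𝔯`;
* `Rt = rd '' B2` a `k`-subalgebra of `D` containing an ideal `𝔠` of `D` of finite codimension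
  (`FrobGlue3.conductor_mul_mem`: `𝔠 = 𝔞² × 𝔞² × 𝔞²`);
* `χ₀` the character of `Rt` with kernel `rd '' 𝔫`; `ψ i` ALL the characters of `D` over `χ₀`
  (the branch points over `𝔫`; ONE branch at a type I / II point, THREE at a triple point);
* `(m : k) ≠ 0`, `g ^ m ≡ w mod 𝔯` with `w ∈ B2 ∖ 𝔫`, and `ξ = 1`: `ψ i (rd g) = ψ j (rd g)`.

Conclusion: the conjunct of `CechKummer.exists_section.hloc` at `𝔫`.
-/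

set_option autoImplicit false

namespace Fermat.Agent.GL.CondLocal

variable {k D : Type*} [Field k] [CommRing D] [Algebra k D]

/-- **(LOC) at a closed point of the fibre from a conductor of finite codimension.** -/
theorem loc_of_conductor [IsAlgClosed k] {B : Type*} [CommRing B] (B2 : Subring B)
    (𝔯 : Ideal B) (𝔫 : Ideal B2) [𝔫.IsPrime] (rd : B →+* D) (hker : ∀ z : B, rd z = 0 ↔ z ∈ 𝔯)
    (Rt : Subalgebra k D) (hB2 : ∀ b : B2, rd (b : B) ∈ Rt)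
    (hRt : ∀ r ∈ Rt, ∃ b : B2, rd (b : B) = r)
    (𝔠 : Ideal D) (h𝔠 : ∀ x ∈ 𝔠, x ∈ Rt) [Module.Finite k (D ⧸ 𝔠)] (χ₀ : Rt →ₐ[k] k)
    (h𝔫 : ∀ b : B2, b ∈ 𝔫 ↔ χ₀ ⟨rd (b : B), hB2 b⟩ = 0)
    {ι : Type*} [Nonempty ι] (ψ : ι → D →ₐ[k] k)
    (hψ : ∀ i, ∀ r : Rt, ψ i r = χ₀ r)
    (hex : ∀ φ : D →ₐ[k] k, (∀ r : Rt, φ r = χ₀ r) → ∃ i, φ = ψ i)
    {m : ℕ} (hm : (m : k) ≠ 0) {g : B} {w : B2} (hw : w ∉ 𝔫) (hgw : g ^ m - (w : B) ∈ 𝔯)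
    (hξ : ∀ i j, ψ i (rd g) = ψ j (rd g)) :
    ∃ a b : B2, a ∉ 𝔫 ∧ b ∉ 𝔫 ∧ (a : B) * g - (b : B) ∈ 𝔯 := by
  obtain ⟨N, c₀, hc₀, hcond⟩ := hcond_of_conductor B2 𝔯 𝔫 rd (fun z hz => (hker z).1 hz) Rt hB2
    hRt 𝔠 h𝔠 χ₀ (fun b hb => (h𝔫 b).1 hb) ψ hex
  have hχ : ∀ i, ∀ b : B2, ψ i (rd (b : B)) = χ₀ ⟨rd (b : B), hB2 b⟩ := fun i b =>
    hψ i ⟨rd (b : B), hB2 b⟩
  refine LocOfReg.loc_of_chars B2 𝔯 𝔫 (fun i => (ψ i : D →+* k).comp rd) ?_ ?_ ?_ ?_ ?_ N c₀ hc₀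
    hcond hw hgw hξ
  · intro i z hz
    change ψ i (rd z) = 0
    rw [(hker z).2 hz, map_zero]
  · intro i b hb
    rw [h𝔫, ← hχ i b]
    exact hb
  · intro i j b
    change ψ i (rd (b : B)) = ψ j (rd (b : B))
    rw [hχ i b, hχ j b]
  · intro i x
    obtain ⟨b, hb⟩ := hRt (algebraMap k D x) (Rt.algebraMap_mem x)
    refine ⟨b, ?_⟩
    change ψ i (rd (b : B)) = x
    rw [hb, AlgHom.commutes]
    rfl
  · intro hm𝔫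
    have h1 := (h𝔫 _).1 hm𝔫
    obtain ⟨i⟩ := ‹Nonempty ι›
    rw [← hχ i] at h1
    apply hm
    have h2 : rd (((m : B2) : B2) : B) = (m : D) := by
      push_cast
      exact map_natCast rd m
    rw [h2, map_natCast] at h1
    exact h1

/-- **(LOC) at a closed point of the fibre, ALL-characters form**: no branch family to supply;
`ξ = 1` reads "any two characters of `D` over `χ₀` agree on `rd g`". -/
theorem loc_of_conductor_all [IsAlgClosed k] {B : Type*} [CommRing B] (B2 : Subring B)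
    (𝔯 : Ideal B) (𝔫 : Ideal B2) [𝔫.IsPrime] (rd : B →+* D) (hker : ∀ z : B, rd z = 0 ↔ z ∈ 𝔯)
    (Rt : Subalgebra k D) (hB2 : ∀ b : B2, rd (b : B) ∈ Rt)
    (hRt : ∀ r ∈ Rt, ∃ b : B2, rd (b : B) = r)
    (𝔠 : Ideal D) (h𝔠 : ∀ x ∈ 𝔠, x ∈ Rt) [Module.Finite k (D ⧸ 𝔠)] (χ₀ : Rt →ₐ[k] k)
    (h𝔫 : ∀ b : B2, b ∈ 𝔫 ↔ χ₀ ⟨rd (b : B), hB2 b⟩ = 0)
    {m : ℕ} (hm : (m : k) ≠ 0) {g : B} {w : B2} (hw : w ∉ 𝔫) (hgw : g ^ m - (w : B) ∈ 𝔯)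
    (hξ : ∀ φ φ' : D →ₐ[k] k, (∀ r : Rt, φ r = χ₀ r) → (∀ r : Rt, φ' r = χ₀ r) →
      φ (rd g) = φ' (rd g)) :
    ∃ a b : B2, a ∉ 𝔫 ∧ b ∉ 𝔫 ∧ (a : B) * g - (b : B) ∈ 𝔯 := by
  obtain ⟨φ₀, hφ₀⟩ := exists_algHom_over Rt 𝔠 h𝔠 χ₀
  have : Nonempty {φ : D →ₐ[k] k // ∀ r : Rt, φ r = χ₀ r} := ⟨⟨φ₀, hφ₀⟩⟩
  exact loc_of_conductor B2 𝔯 𝔫 rd hker Rt hB2 hRt 𝔠 h𝔠 χ₀ h𝔫
    (ι := {φ : D →ₐ[k] k // ∀ r : Rt, φ r = χ₀ r}) (fun φ => φ.1) (fun φ => φ.2)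
    (fun φ hφ => ⟨⟨φ, hφ⟩, rfl⟩) hm hw hgw (fun φ φ' => hξ φ.1 φ'.1 φ.2 φ'.2)

end Fermat.Agent.GL.CondLocal
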