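import Fermat.Agent.GL.Fibre.FrobGlue3
import Fermat.Agent.GL.Fibre.LocOfCond

/-!
# GATE-L / (LOC) on the three-component fibre `C × C × C` (helper29)

`FrobGlue3` (conductor `⊇ 𝔞² × 𝔞² × 𝔞²`) plugged into `CondLocal.loc_of_conductor_all`:

* `prod3 I = I × I × I`, `mem_prod3`, `finite_quotient_prod3`, `prod3_sq_le` (`prod3 (𝔞²) ⊆ R`);
* `algHom_prod3_cases` : a character of `C × C × C` factors through ONE projection;
* `old0`, `old2` : the old-triple embeddings `C →ₐ[k] R`; `eps1 χ₀ = χ₀ ∘ old0`,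
  `eps2 χ₀ = χ₀ ∘ old2` the (only possible) branch points on `C₁, C₃` resp. `C₂`;
* `eq_branch_of_over` : a character of `C × C × C` over `χ₀` is `eps1 ∘ pr₁`, `eps2 ∘ pr₂` or
  `eps1 ∘ pr₃`;
* `loc_frobGlue3` : (LOC) at ANY point `𝔫` of the fibre (`ξ = 1` over all characters over `χ₀`);
* `loc_frobGlue3_triple` : the same with `ξ = 1` in the explicit form
  `eps1 (rd g).1 = eps2 (rd g).2.1 = eps1 (rd g).2.2`.
-/

set_option autoImplicit false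

namespace Fermat.Agent.GL.FrobGlue3

open Fermat.Agent.GK.FrobGlue Fermat.Agent.GL.CondLocal

variable {k C : Type*} [Field k] [CommRing C] [Algebra k C]

/-- the product ideal `I × I × I` of `C × C × C`. -/
def prod3 (I : Ideal C) : Ideal (C × C × C) := Ideal.prod I (Ideal.prod I I)

lemma mem_prod3 {I : Ideal C} {w : C × C × C} :
    w ∈ prod3 I ↔ w.1 ∈ I ∧ w.2.1 ∈ I ∧ w.2.2 ∈ I := by
  simp [prod3, Ideal.mem_prod]

/-- `(C × C × C) ⧸ (I × I × I)` is finite-dimensional when `C ⧸ I` is. -/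
theorem finite_quotient_prod3 (I : Ideal C) [Module.Finite k (C ⧸ I)] :
    Module.Finite k ((C × C × C) ⧸ prod3 I) := by
  let F : (C × C × C) →ₐ[k] (C ⧸ I) × (C ⧸ I) × (C ⧸ I) :=
    AlgHom.prodMap (Ideal.Quotient.mkₐ k I)
      (AlgHom.prodMap (Ideal.Quotient.mkₐ k I) (Ideal.Quotient.mkₐ k I))
  have hF : ∀ w, F w = (Ideal.Quotient.mk I w.1, Ideal.Quotient.mk I w.2.1,
      Ideal.Quotient.mk I w.2.2) := fun w => rfl
  have h0 : ∀ a ∈ prod3 I, F a = 0 := by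
    intro a ha
    obtain ⟨h1, h2, h3⟩ := mem_prod3.1 ha
    rw [hF, Ideal.Quotient.eq_zero_iff_mem.2 h1, Ideal.Quotient.eq_zero_iff_mem.2 h2,
      Ideal.Quotient.eq_zero_iff_mem.2 h3]
    rfl
  have hker : RingHom.ker (F : (C × C × C) →+* (C ⧸ I) × (C ⧸ I) × (C ⧸ I)) ≤ prod3 I := by
    intro a ha
    have h1 : F a = 0 := ha
    rw [hF, Prod.ext_iff, Prod.ext_iff] at h1
    exact mem_prod3.2 ⟨Ideal.Quotient.eq_zero_iff_mem.1 h1.1,
      Ideal.Quotient.eq_zero_iff_mem.1 h1.2.1, Ideal.Quotient.eq_zero_iff_mem.1 h1.2.2⟩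
  have hinj := RingHom.lift_injective_of_ker_le_ideal (prod3 I)
    (f := (F : (C × C × C) →+* (C ⧸ I) × (C ⧸ I) × (C ⧸ I))) h0 hker
  exact Module.Finite.of_injective (Ideal.Quotient.liftₐ (prod3 I) F h0).toLinearMap hinj

section Triples

variable (Ψ : C →ₐ[k] C) (R : Subalgebra k (C × C × C))
  (h0 : ∀ f, ((f, Ψ (Ψ f), f) : C × C × C) ∈ R)
  (h1 : ∀ f, ((Ψ f, Ψ f, Ψ f) : C × C × C) ∈ R)
  (h2 : ∀ f, ((Ψ (Ψ f), f, f) : C × C × C) ∈ R)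

include h0 h1 h2 in
/-- `𝔞² × 𝔞² × 𝔞² ⊆ R`. -/
theorem prod3_sq_le : ∀ x ∈ prod3 (fixIdeal Ψ ^ 2), x ∈ R := by
  intro x hx
  obtain ⟨hx1, hx2, hx3⟩ := mem_prod3.1 hx
  have := conductor_mul_mem Ψ R h0 h1 h2 hx1 hx2 hx3 1
  simpa using this

/-- a character of `C × C × C` factors through ONE of the three projections. -/
theorem algHom_prod3_cases (φ : C × C × C →ₐ[k] k) :
    (∀ w, φ w = φ (w.1, 0, 0)) ∨ (∀ w, φ w = φ (0, w.2.1, 0)) ∨ (∀ w, φ w = φ (0, 0, w.2.2)) := by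
  have hsum : φ (1, 0, 0) + φ (0, 1, 0) + φ (0, 0, 1) = 1 := by
    rw [← map_add, ← map_add, ← map_one φ]
    congr 1
    ext <;> simp
  have hid : ∀ e : C × C × C, e * e = e → φ e = 0 ∨ φ e = 1 := by
    intro e he
    have : φ e * φ e = φ e := by rw [← map_mul, he]
    have h' : φ e * (φ e - 1) = 0 := by rw [mul_sub, this, mul_one, sub_self]
    rcases mul_eq_zero.1 h' with h | h
    · exact Or.inl h
    · exact Or.inr (sub_eq_zero.1 h)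
  have key : ∀ e : C × C × C, φ e = 1 → ∀ w, φ w = φ (w * e) := by
    intro e he w
    rw [map_mul, he, mul_one]
  rcases hid (1, 0, 0) (by ext <;> simp) with h1' | h1'
  · rcases hid (0, 1, 0) (by ext <;> simp) with h2' | h2'
    · rcases hid (0, 0, 1) (by ext <;> simp) with h3' | h3'
      · rw [h1', h2', h3'] at hsum
        simp at hsum
      · right; right
        intro w
        rw [key _ h3' w]
        congr 1
        ext <;> simp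
    · right; left
      intro w
      rw [key _ h2' w]
      congr 1
      ext <;> simp
  · left
    intro w
    rw [key _ h1' w]
    congr 1
    ext <;> simp

/-- the old triple `f ↦ (f, Ψ² f, f)` as an algebra map into `R`. -/
def old0 : C →ₐ[k] R :=
  AlgHom.codRestrict ((AlgHom.id k C).prod ((Ψ.comp Ψ).prod (AlgHom.id k C))) R (fun f => h0 f)

/-- the old triple `f ↦ (Ψ² f, f, f)` as an algebra map into `R`. -/
def old2 : C →ₐ[k] R :=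
  AlgHom.codRestrict ((Ψ.comp Ψ).prod ((AlgHom.id k C).prod (AlgHom.id k C))) R (fun f => h2 f)

@[simp] lemma coe_old0 (f : C) : ((old0 Ψ R h0 f : R) : C × C × C) = (f, Ψ (Ψ f), f) := rfl

@[simp] lemma coe_old2 (f : C) : ((old2 Ψ R h2 f : R) : C × C × C) = (Ψ (Ψ f), f, f) := rfl

/-- the branch point on `C₁` (and `C₃`) of a point `χ₀` of `R`. -/
def eps1 (χ₀ : R →ₐ[k] k) : C →ₐ[k] k := χ₀.comp (old0 Ψ R h0)

/-- the branch point on `C₂` of a point `χ₀` of `R`. -/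
def eps2 (χ₀ : R →ₐ[k] k) : C →ₐ[k] k := χ₀.comp (old2 Ψ R h2)

/-- **classification of the branches**: a character of `C × C × C` over `χ₀` is
`eps1 ∘ pr₁`, `eps2 ∘ pr₂` or `eps1 ∘ pr₃`. -/
theorem eq_branch_of_over (χ₀ : R →ₐ[k] k) (φ : C × C × C →ₐ[k] k)
    (hφ : ∀ r : R, φ r = χ₀ r) :
    (∀ w, φ w = eps1 Ψ R h0 χ₀ w.1) ∨ (∀ w, φ w = eps2 Ψ R h2 χ₀ w.2.1) ∨
      (∀ w, φ w = eps1 Ψ R h0 χ₀ w.2.2) := by
  rcases algHom_prod3_cases φ with h | h | h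
  · left
    intro w
    rw [h w]
    have := hφ (old0 Ψ R h0 w.1)
    rw [coe_old0, h] at this
    exact this
  · right; left
    intro w
    rw [h w]
    have := hφ (old2 Ψ R h2 w.2.1)
    rw [coe_old2, h] at this
    exact this
  · right; right
    intro w
    rw [h w]
    have := hφ (old0 Ψ R h0 w.2.2)
    rw [coe_old0, h] at this
    exact this

include h0 h1 h2 in
/-- **(LOC) at ANY closed point `𝔫` of the three-component fibre.**  `rd : B →+* C × C × C` with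
kernel `𝔯`, `rd '' B2 = R ∋` the three old triples, `C ⧸ 𝔞²` finite-dimensional, `χ₀` the point
`𝔫`, `g ^ m ≡ w mod 𝔯` with `w ∈ B2 ∖ 𝔫`, `m` invertible in `k`, and `ξ = 1`: all characters of
`C × C × C` over `χ₀` agree on `rd g`. -/
theorem loc_frobGlue3 [IsAlgClosed k] [Module.Finite k (C ⧸ fixIdeal Ψ ^ 2)]
    {B : Type*} [CommRing B] (B2 : Subring B)
    (𝔯 : Ideal B) (𝔫 : Ideal B2) [𝔫.IsPrime] (rd : B →+* C × C × C)
    (hker : ∀ z : B, rd z = 0 ↔ z ∈ 𝔯)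
    (hB2 : ∀ b : B2, rd (b : B) ∈ R) (hR : ∀ r ∈ R, ∃ b : B2, rd (b : B) = r)
    (χ₀ : R →ₐ[k] k) (h𝔫 : ∀ b : B2, b ∈ 𝔫 ↔ χ₀ ⟨rd (b : B), hB2 b⟩ = 0)
    {m : ℕ} (hm : (m : k) ≠ 0) {g : B} {w : B2} (hw : w ∉ 𝔫) (hgw : g ^ m - (w : B) ∈ 𝔯)
    (hξ : ∀ φ φ' : C × C × C →ₐ[k] k, (∀ r : R, φ r = χ₀ r) → (∀ r : R, φ' r = χ₀ r) →
      φ (rd g) = φ' (rd g)) :
    ∃ a b : B2, a ∉ 𝔫 ∧ b ∉ 𝔫 ∧ (a : B) * g - (b : B) ∈ 𝔯 := by
  have := finite_quotient_prod3 (k := k) (fixIdeal Ψ ^ 2)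
  exact loc_of_conductor_all B2 𝔯 𝔫 rd hker R hB2 hR (prod3 (fixIdeal Ψ ^ 2))
    (prod3_sq_le Ψ R h0 h1 h2) χ₀ h𝔫 hm hw hgw hξ

include h1 in
/-- **(LOC) at a point of the three-component fibre, explicit `ξ = 1`**: the three possible
branch values `eps1 (rd g).1`, `eps2 (rd g).2.1`, `eps1 (rd g).2.2` agree. -/
theorem loc_frobGlue3_triple [IsAlgClosed k] [Module.Finite k (C ⧸ fixIdeal Ψ ^ 2)]
    {B : Type*} [CommRing B] (B2 : Subring B)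
    (𝔯 : Ideal B) (𝔫 : Ideal B2) [𝔫.IsPrime] (rd : B →+* C × C × C)
    (hker : ∀ z : B, rd z = 0 ↔ z ∈ 𝔯)
    (hB2 : ∀ b : B2, rd (b : B) ∈ R) (hR : ∀ r ∈ R, ∃ b : B2, rd (b : B) = r)
    (χ₀ : R →ₐ[k] k) (h𝔫 : ∀ b : B2, b ∈ 𝔫 ↔ χ₀ ⟨rd (b : B), hB2 b⟩ = 0)
    {m : ℕ} (hm : (m : k) ≠ 0) {g : B} {w : B2} (hw : w ∉ 𝔫) (hgw : g ^ m - (w : B) ∈ 𝔯)
    (hξ12 : eps1 Ψ R h0 χ₀ (rd g).1 = eps2 Ψ R h2 χ₀ (rd g).2.1)
    (hξ13 : eps1 Ψ R h0 χ₀ (rd g).1 = eps1 Ψ R h0 χ₀ (rd g).2.2) :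
    ∃ a b : B2, a ∉ 𝔫 ∧ b ∉ 𝔫 ∧ (a : B) * g - (b : B) ∈ 𝔯 := by
  refine loc_frobGlue3 Ψ R h0 h1 h2 B2 𝔯 𝔫 rd hker hB2 hR χ₀ h𝔫 hm hw hgw ?_
  have hval : ∀ φ : C × C × C →ₐ[k] k, (∀ r : R, φ r = χ₀ r) →
      φ (rd g) = eps1 Ψ R h0 χ₀ (rd g).1 := by
    intro φ hφ
    rcases eq_branch_of_over Ψ R h0 h2 χ₀ φ hφ with h | h | h
    · exact h _
    · rw [h, hξ12]
    · rw [h, hξ13]
  intro φ φ' hφ hφ'
  rw [hval φ hφ, hval φ' hφ']

end Triples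

end Fermat.Agent.GL.FrobGlue3
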