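import Fermat.Agent.GL.Fibre.FrobGlue3Loc

/-!
# GATE-L / (LOC) from a conductor, maximal-ideal form (helper29)

The consumer-facing form of `CondLocal.loc_of_conductor_all`: the point is given as a maximal
ideal `𝔫` of `B2` (containing the kernel of the reduction), NOT as a character; `D` of finite
type over the algebraically closed `k`.

* `exists_algHom_ker_eq_of_finiteType` : Nullstellensatz for `D`;
* `exists_char_of_isMaximal` : a maximal ideal of `Rt` is the kernel of a character;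
* `loc_of_conductor_max` : (LOC) at the maximal ideal `𝔫`; `ξ = 1` reads: any two characters of
  `D` vanishing on `rd '' 𝔫` agree on `rd g`;
* `FrobGlue3.loc_frobGlue3_max` : the instance `D = C × C × C` with the three old triples.
-/

set_option autoImplicit false

namespace Fermat.Agent.GL.CondLocal

variable {k D : Type*} [Field k] [CommRing D] [Algebra k D]

/-- weak Nullstellensatz: a maximal ideal of a finite type algebra over an algebraically closed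
field is the kernel of a character. -/
theorem exists_algHom_ker_eq_of_finiteType [IsAlgClosed k] [Algebra.FiniteType k D]
    (Q : Ideal D) (hQ : Q.IsMaximal) : ∃ φ : D →ₐ[k] k, ∀ x : D, φ x = 0 ↔ x ∈ Q := by
  let _ : Field (D ⧸ Q) := Ideal.Quotient.field Q
  have hft : Algebra.FiniteType k (D ⧸ Q) :=
    Algebra.FiniteType.of_surjective (Ideal.Quotient.mkₐ k Q) (Ideal.Quotient.mkₐ_surjective k Q)
  have hfin : Module.Finite k (D ⧸ Q) := finite_of_finite_type_of_isJacobsonRing k (D ⧸ Q)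
  exact exists_algHom_ker_eq_of_isIntegral Q hQ (Algebra.IsIntegral.of_finite k (D ⧸ Q))

/-- a maximal ideal of `Rt` is the kernel of a character of `Rt`. -/
theorem exists_char_of_isMaximal [IsAlgClosed k] [Algebra.FiniteType k D] (Rt : Subalgebra k D)
    (𝔠 : Ideal D) (h𝔠 : ∀ x ∈ 𝔠, x ∈ Rt) [Module.Finite k (D ⧸ 𝔠)] (n : Ideal Rt)
    (hn : n.IsMaximal) : ∃ χ₀ : Rt →ₐ[k] k, ∀ r : Rt, χ₀ r = 0 ↔ r ∈ n := by
  have hintg : Algebra.IsIntegral Rt D := ⟨isIntegral_of_finite_quotient Rt 𝔠 h𝔠⟩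
  have hker : RingHom.ker (algebraMap Rt D) ≤ n := by
    intro x hx
    have h1 : (x : D) = 0 := hx
    have h2 : x = 0 := Subtype.ext h1
    rw [h2]
    exact n.zero_mem
  obtain ⟨Q, hQ, hQn⟩ := Ideal.exists_ideal_over_maximal_of_isIntegral (S := D) n hker
  obtain ⟨φ, hφ⟩ := exists_algHom_ker_eq_of_finiteType (k := k) Q hQ
  refine ⟨φ.comp Rt.val, fun r => ?_⟩
  rw [← hQn, Ideal.mem_comap]
  exact hφ _

/-- **(LOC) at a maximal ideal `𝔫` of `B2` from a conductor of finite codimension.** -/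
theorem loc_of_conductor_max [IsAlgClosed k] [Algebra.FiniteType k D] {B : Type*} [CommRing B]
    (B2 : Subring B) (𝔯 : Ideal B) (𝔫 : Ideal B2) (h𝔫max : 𝔫.IsMaximal) (rd : B →+* D)
    (hker : ∀ z : B, rd z = 0 ↔ z ∈ 𝔯) (h𝔫ker : ∀ b : B2, rd (b : B) = 0 → b ∈ 𝔫)
    (Rt : Subalgebra k D) (hB2 : ∀ b : B2, rd (b : B) ∈ Rt)
    (hRt : ∀ r ∈ Rt, ∃ b : B2, rd (b : B) = r)
    (𝔠 : Ideal D) (h𝔠 : ∀ x ∈ 𝔠, x ∈ Rt) [Module.Finite k (D ⧸ 𝔠)]
    {m : ℕ} (hm : (m : k) ≠ 0) {g : B} {w : B2} (hw : w ∉ 𝔫) (hgw : g ^ m - (w : B) ∈ 𝔯)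
    (hξ : ∀ φ φ' : D →ₐ[k] k, (∀ b ∈ 𝔫, φ (rd (b : B)) = 0) → (∀ b ∈ 𝔫, φ' (rd (b : B)) = 0) →
      φ (rd g) = φ' (rd g)) :
    ∃ a b : B2, a ∉ 𝔫 ∧ b ∉ 𝔫 ∧ (a : B) * g - (b : B) ∈ 𝔯 := by
  have h𝔫p : 𝔫.IsPrime := h𝔫max.isPrime
  -- the surjection `B2 → Rt`
  let rdR : B2 →+* Rt := (rd.comp B2.subtype).codRestrict Rt (fun b => hB2 b)
  have hrdR : ∀ b : B2, ((rdR b : Rt) : D) = rd (b : B) := fun b => rfl
  have hsurj : Function.Surjective rdR := by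
    intro r
    obtain ⟨b, hb⟩ := hRt r r.2
    exact ⟨b, Subtype.ext hb⟩
  have hkerR : RingHom.ker rdR ≤ 𝔫 := by
    intro b hb
    apply h𝔫ker
    have : rdR b = 0 := hb
    rw [← hrdR, this]
    rfl
  let n : Ideal Rt := Ideal.map rdR 𝔫
  have hcomap : Ideal.comap rdR n = 𝔫 := by
    rw [Ideal.comap_map_of_surjective rdR hsurj]
    exact sup_eq_left.2 hkerR
  have hn : n.IsMaximal := by
    rcases Ideal.map_eq_top_or_isMaximal_of_surjective rdR hsurj h𝔫max with h | h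
    · exfalso
      have : Ideal.comap rdR n = ⊤ := by
        change Ideal.comap rdR (Ideal.map rdR 𝔫) = ⊤
        rw [h, Ideal.comap_top]
      rw [hcomap] at this
      exact h𝔫max.ne_top this
    · exact h
  obtain ⟨χ₀, hχ₀⟩ := exists_char_of_isMaximal Rt 𝔠 h𝔠 n hn
  have h𝔫 : ∀ b : B2, b ∈ 𝔫 ↔ χ₀ ⟨rd (b : B), hB2 b⟩ = 0 := by
    intro b
    have e : (⟨rd (b : B), hB2 b⟩ : Rt) = rdR b := rfl
    rw [e, hχ₀, ← Ideal.mem_comap, hcomap]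
  -- characters over `χ₀` = characters killing `rd '' 𝔫`
  have hover : ∀ φ : D →ₐ[k] k, (∀ r : Rt, φ r = χ₀ r) → ∀ b ∈ 𝔫, φ (rd (b : B)) = 0 := by
    intro φ hφ b hb
    have := hφ ⟨rd (b : B), hB2 b⟩
    rw [(h𝔫 b).1 hb] at this
    exact this
  exact loc_of_conductor_all B2 𝔯 𝔫 rd hker Rt hB2 hRt 𝔠 h𝔠 χ₀ h𝔫 hm hw hgw
    (fun φ φ' hφ hφ' => hξ φ φ' (hover φ hφ) (hover φ' hφ'))

end Fermat.Agent.GL.CondLocal

namespace Fermat.Agent.GL.FrobGlue3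

open Fermat.Agent.GK.FrobGlue Fermat.Agent.GL.CondLocal

variable {k C : Type*} [Field k] [CommRing C] [Algebra k C]

/-- **(LOC) at a maximal ideal `𝔫` of `B2` on the three-component fibre `C × C × C`.** -/
theorem loc_frobGlue3_max (Ψ : C →ₐ[k] C) (R : Subalgebra k (C × C × C))
    (h0 : ∀ f, ((f, Ψ (Ψ f), f) : C × C × C) ∈ R)
    (h1 : ∀ f, ((Ψ f, Ψ f, Ψ f) : C × C × C) ∈ R)
    (h2 : ∀ f, ((Ψ (Ψ f), f, f) : C × C × C) ∈ R)
    [IsAlgClosed k] [Algebra.FiniteType k C] [Module.Finite k (C ⧸ fixIdeal Ψ ^ 2)]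
    {B : Type*} [CommRing B] (B2 : Subring B)
    (𝔯 : Ideal B) (𝔫 : Ideal B2) (h𝔫max : 𝔫.IsMaximal) (rd : B →+* C × C × C)
    (hker : ∀ z : B, rd z = 0 ↔ z ∈ 𝔯) (h𝔫ker : ∀ b : B2, rd (b : B) = 0 → b ∈ 𝔫)
    (hB2 : ∀ b : B2, rd (b : B) ∈ R) (hR : ∀ r ∈ R, ∃ b : B2, rd (b : B) = r)
    {m : ℕ} (hm : (m : k) ≠ 0) {g : B} {w : B2} (hw : w ∉ 𝔫) (hgw : g ^ m - (w : B) ∈ 𝔯)
    (hξ : ∀ φ φ' : C × C × C →ₐ[k] k, (∀ b ∈ 𝔫, φ (rd (b : B)) = 0) →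
      (∀ b ∈ 𝔫, φ' (rd (b : B)) = 0) → φ (rd g) = φ' (rd g)) :
    ∃ a b : B2, a ∉ 𝔫 ∧ b ∉ 𝔫 ∧ (a : B) * g - (b : B) ∈ 𝔯 := by
  have := finite_quotient_prod3 (k := k) (fixIdeal Ψ ^ 2)
  exact loc_of_conductor_max B2 𝔯 𝔫 h𝔫max rd hker h𝔫ker R hB2 hR (prod3 (fixIdeal Ψ ^ 2))
    (prod3_sq_le Ψ R h0 h1 h2) hm hw hgw hξ

end Fermat.Agent.GL.FrobGlue3
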