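/-
GATE-L / ABS-4 (LOC-ABS): the localisation principle for membership in a subalgebra,
the singular locus `Sing` of `Bt ⊆ Ct`, the section criterion for smoothness and lying over.
Mathlib only.
-/
import Mathlib

namespace Fermat.Agent.GL.Fibre.LocalMem

/-! ### (a) local membership -/

section A

variable {B κ : Type*} [CommRing B] [CommRing κ]

/-- The ideal of denominators of `w` with respect to `f : B →+* κ`. -/
def denomIdeal (f : B →+* κ) (w : κ) : Ideal B where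
  carrier := {e | ∃ b, f e * w = f b}
  add_mem' := by
    rintro a b ⟨x, hx⟩ ⟨y, hy⟩
    exact ⟨x + y, by rw [map_add, add_mul, hx, hy, map_add]⟩
  zero_mem' := ⟨0, by simp⟩
  smul_mem' := by
    rintro c a ⟨x, hx⟩
    exact ⟨c * x, by rw [smul_eq_mul, map_mul, mul_assoc, hx, map_mul]⟩

theorem mem_denomIdeal {f : B →+* κ} {w : κ} {e : B} :
    e ∈ denomIdeal f w ↔ ∃ b, f e * w = f b := Iff.rfl

/-- (a), ring-hom form: if at every maximal ideal `n` of `B` some `e ∉ n` has `f e * w ∈ f(B)`,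
then `w ∈ f(B)`. -/
theorem exists_eq_of_forall_maximal (f : B →+* κ) (w : κ)
    (h : ∀ n : Ideal B, n.IsMaximal → ∃ e : B, e ∉ n ∧ ∃ b, f e * w = f b) :
    ∃ b, w = f b := by
  by_contra hne
  have hD : denomIdeal f w ≠ ⊤ := by
    intro htop
    have h1 : (1 : B) ∈ denomIdeal f w := by rw [htop]; trivial
    obtain ⟨b, hb⟩ := h1
    exact hne ⟨b, by simpa using hb⟩
  obtain ⟨n, hn, hle⟩ := Ideal.exists_le_maximal _ hD
  obtain ⟨e, hen, b, hb⟩ := h n hn
  exact hen (hle ⟨b, hb⟩)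

/-- (a), `Subring` form. -/
theorem mem_of_forall_maximal (Bt : Subring κ) (w : κ)
    (h : ∀ n : Ideal Bt, n.IsMaximal → ∃ e : Bt, e ∉ n ∧ (e : κ) * w ∈ Bt) : w ∈ Bt := by
  obtain ⟨b, hb⟩ := exists_eq_of_forall_maximal Bt.subtype w (fun n hn => by
    obtain ⟨e, hen, hew⟩ := h n hn
    exact ⟨e, hen, ⟨_, hew⟩, rfl⟩)
  rw [hb]; exact b.2

/-- (a), `Subalgebra` form. -/
theorem mem_of_forall_maximal_alg {k : Type*} [CommRing k] [Algebra k κ]
    (Bt : Subalgebra k κ) (w : κ)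
    (h : ∀ n : Ideal Bt, n.IsMaximal → ∃ e : Bt, e ∉ n ∧ (e : κ) * w ∈ Bt) : w ∈ Bt := by
  obtain ⟨b, hb⟩ := exists_eq_of_forall_maximal (B := Bt) (algebraMap Bt κ) w (fun n hn => by
    obtain ⟨e, hen, hew⟩ := h n hn
    exact ⟨e, hen, ⟨_, hew⟩, rfl⟩)
  rw [hb]; exact b.2

end A

/-! ### (b) the singular locus of `Bt ⊆ Ct` -/

section B

variable {k κ : Type*} [Field k] [CommRing κ] [Algebra k κ]

/-- The conductor `(Bt : Ct)` as an ideal of `Bt`. -/
def conductor (Bt Ct : Subalgebra k κ) : Ideal Bt where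
  carrier := {b | ∀ w ∈ Ct, (b : κ) * w ∈ Bt}
  add_mem' := by
    intro a b ha hb w hw
    simpa [add_mul] using Bt.add_mem (ha w hw) (hb w hw)
  zero_mem' := by
    intro w _
    simp
  smul_mem' := by
    intro c a ha w hw
    have : ((c • a : Bt) : κ) * w = (c : κ) * ((a : κ) * w) := by
      simp [mul_assoc]
    rw [this]
    exact Bt.mul_mem c.2 (ha w hw)

theorem mem_conductor {Bt Ct : Subalgebra k κ} {b : Bt} :
    b ∈ conductor Bt Ct ↔ ∀ w ∈ Ct, (b : κ) * w ∈ Bt := Iff.rfl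

/-- The singular locus: maximal ideals `n` of `Bt` at which some `w ∈ Ct` has no local
denominator. -/
def Sing (Bt Ct : Subalgebra k κ) : Set (Ideal Bt) :=
  {n | n.IsMaximal ∧ ∃ w ∈ Ct, ∀ e : Bt, e ∉ n → (e : κ) * w ∉ Bt}

/-- (b), second half: off `Sing`, every `w ∈ Ct` has a local denominator. -/
theorem exists_mul_mem_of_not_mem_sing {Bt Ct : Subalgebra k κ} {n : Ideal Bt}
    (hn : n.IsMaximal) (hS : n ∉ Sing Bt Ct) {w : κ} (hw : w ∈ Ct) :
    ∃ e : Bt, e ∉ n ∧ (e : κ) * w ∈ Bt := by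
  by_contra hcon
  refine hS ⟨hn, w, hw, fun e hen hew => hcon ⟨e, hen, hew⟩⟩

/-- The localisation principle relative to `Sing`: a `w ∈ Ct` with a local denominator at every
point of `Sing` lies in `Bt`. -/
theorem mem_of_forall_sing {Bt Ct : Subalgebra k κ} {w : κ} (hw : w ∈ Ct)
    (h : ∀ n ∈ Sing Bt Ct, ∃ e : Bt, e ∉ n ∧ (e : κ) * w ∈ Bt) : w ∈ Bt := by
  refine mem_of_forall_maximal_alg Bt w (fun n hn => ?_)
  by_cases hS : n ∈ Sing Bt Ct
  · exact h n hS
  · exact exists_mul_mem_of_not_mem_sing hn hS hw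

theorem conductor_le_of_mem_sing {Bt Ct : Subalgebra k κ} {n : Ideal Bt}
    (hS : n ∈ Sing Bt Ct) : conductor Bt Ct ≤ n := by
  obtain ⟨_, w, hw, hno⟩ := hS
  intro b hb
  by_contra hbn
  exact hno b hbn (hb w hw)

/-- The finiteness hypothesis "`Ct / Bt` is finite-dimensional" in generator form. -/
def FinGen (Bt Ct : Subalgebra k κ) : Prop :=
  ∃ s : Finset κ, (∀ x ∈ s, x ∈ Ct) ∧
    ∀ w ∈ Ct, ∃ b ∈ Bt, w - b ∈ Submodule.span k (s : Set κ)

/-- `FinGen` from a finite-dimensional complement. -/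
theorem finGen_of_le_sup {Bt Ct : Subalgebra k κ} (hBC : Bt ≤ Ct) (W : Submodule k κ)
    [FiniteDimensional k W] (h : Subalgebra.toSubmodule Ct ≤ Subalgebra.toSubmodule Bt ⊔ W) :
    FinGen Bt Ct := by
  classical
  set W' : Submodule k κ := W ⊓ Subalgebra.toSubmodule Ct with hW'
  have : FiniteDimensional k W' := Submodule.finiteDimensional_inf_left W _
  obtain ⟨s, hs⟩ : W'.FG := (Module.Finite.iff_fg (R := k) (N := W')).1 inferInstance
  refine ⟨s, fun x hx => ?_, fun w hw => ?_⟩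
  · have : x ∈ W' := hs ▸ Submodule.subset_span hx
    exact this.2
  · obtain ⟨b, hb, v, hv, hbv⟩ := Submodule.mem_sup.1 (h hw)
    refine ⟨b, hb, ?_⟩
    have hv' : v ∈ W' := by
      refine ⟨hv, ?_⟩
      have : v = w - b := by rw [← hbv]; ring
      rw [this]
      exact Ct.sub_mem hw (hBC hb)
    have : w - b = v := by rw [← hbv]; ring
    rw [this, hs]
    exact hv'

theorem mem_conductor_of_finGen {Bt Ct : Subalgebra k κ} {s : Finset κ}
    (hspan : ∀ w ∈ Ct, ∃ b ∈ Bt, w - b ∈ Submodule.span k (s : Set κ)) {b : Bt}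
    (hb : ∀ x ∈ s, (b : κ) * x ∈ Bt) : b ∈ conductor Bt Ct := by
  intro w hw
  obtain ⟨b', hb', hv⟩ := hspan w hw
  have hmul : ∀ v ∈ Submodule.span k (s : Set κ), (b : κ) * v ∈ Bt := by
    intro v hv
    induction hv using Submodule.span_induction with
    | mem x hx => exact hb x hx
    | zero => simp
    | add x y _ _ hx hy => rw [mul_add]; exact Bt.add_mem hx hy
    | smul c x _ hx => rw [mul_smul_comm]; exact Bt.smul_mem hx c
  have : (b : κ) * w = (b : κ) * b' + (b : κ) * (w - b') := by ring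
  rw [this]
  exact Bt.add_mem (Bt.mul_mem b.2 hb') (hmul _ hv)

/-- `n ∈ Sing` iff `n` is a maximal ideal containing the conductor (under `FinGen`). -/
theorem mem_sing_iff {Bt Ct : Subalgebra k κ} (hfin : FinGen Bt Ct) {n : Ideal Bt} :
    n ∈ Sing Bt Ct ↔ n.IsMaximal ∧ conductor Bt Ct ≤ n := by
  classical
  refine ⟨fun h => ⟨h.1, conductor_le_of_mem_sing h⟩, fun ⟨hn, hle⟩ => ?_⟩
  by_contra hS
  obtain ⟨s, hsC, hspan⟩ := hfin
  have hex : ∀ x : κ, ∃ e : Bt, x ∈ s → (e ∉ n ∧ (e : κ) * x ∈ Bt) := by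
    intro x
    by_cases hx : x ∈ s
    · obtain ⟨e, he1, he2⟩ := exists_mul_mem_of_not_mem_sing hn hS (hsC x hx)
      exact ⟨e, fun _ => ⟨he1, he2⟩⟩
    · exact ⟨0, fun h => absurd h hx⟩
  choose e he using hex
  have hprod : (∏ x ∈ s, e x) ∉ n := by
    intro hmem
    obtain ⟨x, hx, hxn⟩ := (hn.isPrime.prod_mem_iff).1 hmem
    exact (he x hx).1 hxn
  apply hprod
  apply hle
  refine mem_conductor_of_finGen hspan (fun x hx => ?_)
  rw [← Finset.mul_prod_erase s e hx]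
  have : (((e x * ∏ y ∈ s.erase x, e y : Bt)) : κ) * x
      = ((∏ y ∈ s.erase x, e y : Bt) : κ) * ((e x : κ) * x) := by
    push_cast; ring
  rw [this]
  exact Bt.mul_mem (Subtype.mem _) (he x hx).2

/-- Under `FinGen`, the conductor has finite codimension in `Bt`. -/
theorem finite_quotient_conductor {Bt Ct : Subalgebra k κ} (hBC : Bt ≤ Ct)
    (hfin : FinGen Bt Ct) : Module.Finite k (Bt ⧸ conductor Bt Ct) := by
  classical
  obtain ⟨s, hsC, hspan⟩ := hfin
  set ψ : κ →ₗ[k] κ ⧸ Subalgebra.toSubmodule Bt := (Subalgebra.toSubmodule Bt).mkQ with hψ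
  have hψ0 : ∀ x : κ, ψ x = 0 ↔ x ∈ Bt := by
    intro x
    rw [hψ, Submodule.mkQ_apply, Submodule.Quotient.mk_eq_zero, Subalgebra.mem_toSubmodule]
  set V' : Submodule k (κ ⧸ Subalgebra.toSubmodule Bt) :=
    (Submodule.span k (s : Set κ)).map ψ with hV'
  have hVfin : Module.Finite k V' := by
    have : Module.Finite k (Submodule.span k (s : Set κ)) := Module.Finite.span_finset k s
    exact Module.Finite.map _ _
  have hmem : ∀ w ∈ Ct, ψ w ∈ V' := by
    intro w hw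
    obtain ⟨b, hb, hv⟩ := hspan w hw
    have h0 : ψ b = 0 := (hψ0 b).2 hb
    have : ψ w = ψ (w - b) := by rw [map_sub, h0, sub_zero]
    rw [this]
    exact Submodule.mem_map_of_mem hv
  let φ : (x : s) → (Bt →ₗ[k] V') := fun x =>
    LinearMap.codRestrict V' (ψ ∘ₗ (LinearMap.mulRight k (x : κ)) ∘ₗ Bt.val.toLinearMap)
      (fun b => hmem _ (Ct.mul_mem (hBC b.2) (hsC x x.2)))
  let Φ : Bt →ₗ[k] (s → V') := LinearMap.pi φ
  have hΦ : ∀ (b : Bt) (x : s), ((Φ b x : V') : κ ⧸ Subalgebra.toSubmodule Bt)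
      = ψ ((b : κ) * (x : κ)) := by
    intro b x
    rfl
  have hker : LinearMap.ker Φ = (conductor Bt Ct).restrictScalars k := by
    ext b
    rw [LinearMap.mem_ker, Submodule.restrictScalars_mem]
    constructor
    · intro h
      refine mem_conductor_of_finGen hspan (fun x hx => ?_)
      have h1 := hΦ b ⟨x, hx⟩
      rw [h] at h1
      exact (hψ0 _).1 h1.symm
    · intro h
      funext x
      apply Subtype.ext
      rw [hΦ b x]
      exact (hψ0 _).2 (h _ (hsC x x.2))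
  have e1 : (Bt ⧸ LinearMap.ker Φ) ≃ₗ[k] LinearMap.range Φ := Φ.quotKerEquivRange
  have hfin1 : Module.Finite k (Bt ⧸ LinearMap.ker Φ) := Module.Finite.equiv e1.symm
  have e2 : (Bt ⧸ LinearMap.ker Φ) ≃ₗ[k] (Bt ⧸ (conductor Bt Ct).restrictScalars k) :=
    Submodule.quotEquivOfEq _ _ hker
  have e3 := Submodule.Quotient.restrictScalarsEquiv k (conductor Bt Ct)
  exact Module.Finite.equiv (e2.trans e3)

/-- (b), first half: under `FinGen`, `Sing` is finite. -/
theorem sing_finite {Bt Ct : Subalgebra k κ} (hBC : Bt ≤ Ct) (hfin : FinGen Bt Ct) :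
    (Sing Bt Ct).Finite := by
  classical
  have hmf : Module.Finite k (Bt ⧸ conductor Bt Ct) := finite_quotient_conductor hBC hfin
  have hart : IsArtinianRing (Bt ⧸ conductor Bt Ct) := IsArtinianRing.of_finite k _
  have hmax : {I : Ideal (Bt ⧸ conductor Bt Ct) | I.IsMaximal}.Finite :=
    IsArtinianRing.setOfPred_isMaximal_finite _
  set mk := Ideal.Quotient.mk (conductor Bt Ct) with hmk
  have hsurj : Function.Surjective mk := Ideal.Quotient.mk_surjective
  refine (hmax.image (Ideal.comap mk)).subset ?_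
  intro n hn
  have hle : conductor Bt Ct ≤ n := conductor_le_of_mem_sing hn
  have hnmax : n.IsMaximal := hn.1
  have hcm : Ideal.comap mk (Ideal.map mk n) = n := by
    rw [Ideal.comap_map_of_surjective mk hsurj, ← RingHom.ker_eq_comap_bot, hmk, Ideal.mk_ker]
    exact sup_eq_left.2 hle
  refine ⟨Ideal.map mk n, ?_, hcm⟩
  rcases Ideal.map_eq_top_or_isMaximal_of_surjective mk hsurj hnmax with h | h
  · exfalso
    rw [h, Ideal.comap_top] at hcm
    exact hnmax.ne_top hcm.symm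
  · exact h

end B

/-! ### (c) the section criterion -/

section C

variable {k κ : Type*} [Field k] [CommRing κ] [Algebra k κ]

/-- (c), general form: if `ε ∈ Bt \ n` and `ε * Ct ⊆ ε * Bt`, then `n ∉ Sing`. -/
theorem not_mem_sing_of_section {Bt Ct : Subalgebra k κ} {n : Ideal Bt} (ε : Bt) (hε : ε ∉ n)
    (hsec : ∀ w ∈ Ct, ∃ c ∈ Bt, (ε : κ) * w = (ε : κ) * c) : n ∉ Sing Bt Ct := by
  rintro ⟨_, w, hw, hno⟩
  obtain ⟨c, hc, h⟩ := hsec w hw
  exact hno ε hε (h ▸ Bt.mul_mem ε.2 hc)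

/-- (c), product form `κ = κ1 × κ2`: a section `C0 ≤ Bt` onto `pr₁(Ct)` and an element
`ε ∈ Bt ∩ (κ1 × 0)` outside `n` show `n ∉ Sing`. -/
theorem not_mem_sing_of_prod {κ1 κ2 : Type*} [CommRing κ1] [CommRing κ2] [Algebra k κ1]
    [Algebra k κ2] {Bt Ct C0 : Subalgebra k (κ1 × κ2)} (hC0 : C0 ≤ Bt)
    (hsec : ∀ w ∈ Ct, ∃ c ∈ C0, c.1 = w.1) {n : Ideal Bt} (ε : Bt)
    (hε2 : (ε : κ1 × κ2).2 = 0) (hεn : ε ∉ n) : n ∉ Sing Bt Ct := by
  refine not_mem_sing_of_section ε hεn (fun w hw => ?_)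
  obtain ⟨c, hc, hcw⟩ := hsec w hw
  refine ⟨c, hC0 hc, ?_⟩
  ext
  · simp [hcw]
  · simp [hε2]

/-- (c), mirrored product form: section onto `pr₂(Ct)`, `ε ∈ Bt ∩ (0 × κ2)`. -/
theorem not_mem_sing_of_prod' {κ1 κ2 : Type*} [CommRing κ1] [CommRing κ2] [Algebra k κ1]
    [Algebra k κ2] {Bt Ct C0 : Subalgebra k (κ1 × κ2)} (hC0 : C0 ≤ Bt)
    (hsec : ∀ w ∈ Ct, ∃ c ∈ C0, c.2 = w.2) {n : Ideal Bt} (ε : Bt)
    (hε1 : (ε : κ1 × κ2).1 = 0) (hεn : ε ∉ n) : n ∉ Sing Bt Ct := by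
  refine not_mem_sing_of_section ε hεn (fun w hw => ?_)
  obtain ⟨c, hc, hcw⟩ := hsec w hw
  refine ⟨c, hC0 hc, ?_⟩
  ext
  · simp [hε1]
  · simp [hcw]

/-- (c), family form `κ = ∏ i, κ i`: a section `C0 ≤ Bt` onto `pr_{i0}(Ct)` and an element
`ε ∈ Bt` supported on the factor `i0` only, outside `n`, show `n ∉ Sing`. -/
theorem not_mem_sing_of_pi {ι : Type*} {κ' : ι → Type*} [∀ i, CommRing (κ' i)]
    [∀ i, Algebra k (κ' i)] {Bt Ct C0 : Subalgebra k (∀ i, κ' i)} (i0 : ι) (hC0 : C0 ≤ Bt)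
    (hsec : ∀ w ∈ Ct, ∃ c ∈ C0, c i0 = w i0) {n : Ideal Bt} (ε : Bt)
    (hε : ∀ j, j ≠ i0 → (ε : ∀ i, κ' i) j = 0) (hεn : ε ∉ n) : n ∉ Sing Bt Ct := by
  refine not_mem_sing_of_section ε hεn (fun w hw => ?_)
  obtain ⟨c, hc, hcw⟩ := hsec w hw
  refine ⟨c, hC0 hc, ?_⟩
  funext j
  by_cases hj : j = i0
  · subst hj
    simp [hcw]
  · simp [hε j hj]

end C

/-! ### (d) lying over -/

section D

variable {k : Type*} [Field k] [IsAlgClosed k]

/-- Weak Nullstellensatz: a maximal ideal of a finitely generated algebra over an algebraically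
closed field is the kernel of a `k`-point. -/
theorem exists_algHom_ker_eq {C : Type*} [CommRing C] [Algebra k C] [Algebra.FiniteType k C]
    (m : Ideal C) (hm : m.IsMaximal) : ∃ χ : C →ₐ[k] k, ∀ x : C, x ∈ m ↔ χ x = 0 := by
  let _ : Field (C ⧸ m) := Ideal.Quotient.field m
  have hft : Algebra.FiniteType k (C ⧸ m) :=
    Algebra.FiniteType.of_surjective (Ideal.Quotient.mkₐ k m) (Ideal.Quotient.mkₐ_surjective k m)
  have hfin : Module.Finite k (C ⧸ m) := finite_of_finite_type_of_isJacobsonRing k (C ⧸ m)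
  have hint : Algebra.IsIntegral k (C ⧸ m) := Algebra.IsIntegral.of_finite k (C ⧸ m)
  have hbij : Function.Bijective (algebraMap k (C ⧸ m)) :=
    IsAlgClosed.algebraMap_bijective_of_isIntegral
  let e : k ≃ₐ[k] (C ⧸ m) := AlgEquiv.ofBijective (Algebra.ofId k (C ⧸ m)) hbij
  refine ⟨(e.symm : (C ⧸ m) →ₐ[k] k).comp (Ideal.Quotient.mkₐ k m), fun x => ?_⟩
  rw [AlgHom.comp_apply]
  change x ∈ m ↔ e.symm (Ideal.Quotient.mk m x) = 0
  rw [map_eq_zero_iff _ e.symm.injective, Ideal.Quotient.eq_zero_iff_mem]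

/-- (d), abstract form: lying over for an injective integral `k`-algebra map into a finitely
generated `k`-algebra, `k` algebraically closed: every maximal ideal of `B` is cut out by a
`k`-point of `C`. -/
theorem exists_algHom_lying_over {B C : Type*} [CommRing B] [CommRing C] [Algebra k B]
    [Algebra k C] [Algebra.FiniteType k C] (f : B →ₐ[k] C) (hf : Function.Injective f)
    (hint : f.toRingHom.IsIntegral) (n : Ideal B) (hn : n.IsMaximal) :
    ∃ χ : C →ₐ[k] k, ∀ b : B, b ∈ n ↔ χ (f b) = 0 := by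
  let _ : Algebra B C := f.toRingHom.toAlgebra
  have hI : Algebra.IsIntegral B C := ⟨hint⟩
  have hker : RingHom.ker (algebraMap B C) ≤ n := by
    intro x hx
    have : f x = 0 := hx
    have : x = 0 := hf (by rw [this, map_zero])
    rw [this]
    exact n.zero_mem
  have := hn
  obtain ⟨Q, hQ, hQn⟩ := Ideal.exists_ideal_over_maximal_of_isIntegral (S := C) n hker
  obtain ⟨χ, hχ⟩ := exists_algHom_ker_eq (k := k) Q hQ
  refine ⟨χ, fun b => ?_⟩
  rw [← hχ, ← hQn, Ideal.mem_comap]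
  rfl

/-- (d), `Subalgebra` form. -/
theorem exists_algHom_restrict {κ : Type*} [CommRing κ] [Algebra k κ] {Bt Ct : Subalgebra k κ}
    (hBC : Bt ≤ Ct) [Algebra.FiniteType k Ct] (hint : ∀ w ∈ Ct, IsIntegral Bt w)
    (n : Ideal Bt) (hn : n.IsMaximal) :
    ∃ χ : Ct →ₐ[k] k, ∀ b : Bt, b ∈ n ↔ χ (Subalgebra.inclusion hBC b) = 0 := by
  refine exists_algHom_lying_over (Subalgebra.inclusion hBC) (Subalgebra.inclusion_injective hBC)
    ?_ n hn
  intro c
  obtain ⟨p, hp, hp0⟩ := hint c c.2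
  refine ⟨p, hp, ?_⟩
  apply Subtype.ext
  have := Polynomial.hom_eval₂ p (Subalgebra.inclusion hBC).toRingHom (Ct.val : Ct →+* κ) c
  rw [ZeroMemClass.coe_zero]
  exact this.trans hp0

end D

end Fermat.Agent.GL.Fibre.LocalMem
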