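import Mathlib

/-!
# GATE-L / REG-RED-RING : the ring of functions with regular reductions (helper29)

The ring `Bs` and the reduction `rd : Bs →+* C × C × C` consumed by
`FrobGlue3.loc_frobGlue3_max` / helper35's `LocPlug.locAt_of_frobGlue3` (Mathlib only).

* `V1 V2 V3` valuation subrings of a field `F` (the three vertical valuations), with reductions
  `ρ_i : V_i →+* κ_i` (`κ_i` any commutative ring, e.g. Laurent series) whose kernels are the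
  nonunits, and injective `c_i : C →+* κ_i` (the chart ring of the component inside `κ_i`);
* `Bs V1 V2 V3 ρ1 ρ2 ρ3 c1 c2 c3 : Subring F` : `z ∈ ⋂ V_i` with `ρ_i z ∈ range c_i`;
* `red1 red2 red3 : Bs →+* C`, `rd = (red1, red2, red3)`, `c1_red1 : c1 (red1 z) = ρ1 z`, …;
* `rd_eq_zero_iff` : `rd z = 0 ↔ z ∈ ⋂ nonunits (V_i)`;
* `mem_Bs_of_pow_mem` : `range c_i` `m`-root closed in `κ_i` ⟹ `z ^ m ∈ Bs → z ∈ Bs`;
* `mem_Bs_of_pow_mul_eq` : `g ^ m * u = c`, `c ∈ Bs`, `u ≡ 1` at every `V_i` ⟹ `g ∈ Bs` and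
  `g ^ m - c ∈ ker rd`   (the `hgw` binder);
* `imageAlg` : `rd '' S` as a `Subalgebra k (C × C × C)` for a subring `S` of `Bs` containing lifts
  of the constants, with `mem_imageAlg_of_mem` (= `hB2`) and `exists_of_mem_imageAlg` (= `hR`).
-/

set_option autoImplicit false

namespace Fermat.Agent.GL.RegRedRing

variable {F : Type*} [Field F] (V1 V2 V3 : ValuationSubring F)
  {κ1 κ2 κ3 : Type*} [CommRing κ1] [CommRing κ2] [CommRing κ3]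
  (ρ1 : V1 →+* κ1) (ρ2 : V2 →+* κ2) (ρ3 : V3 →+* κ3)
  {C : Type*} [CommRing C] (c1 : C →+* κ1) (c2 : C →+* κ2) (c3 : C →+* κ3)

/-- elements of `V1 ∩ V2 ∩ V3` whose three reductions lie in (the images of) `C`. -/
def Bs : Subring F where
  carrier := {z | ∃ (h1 : z ∈ V1) (h2 : z ∈ V2) (h3 : z ∈ V3),
    ρ1 ⟨z, h1⟩ ∈ c1.range ∧ ρ2 ⟨z, h2⟩ ∈ c2.range ∧ ρ3 ⟨z, h3⟩ ∈ c3.range}
  mul_mem' := by
    rintro a b ⟨ha1, ha2, ha3, hr1, hr2, hr3⟩ ⟨hb1, hb2, hb3, hs1, hs2, hs3⟩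
    refine ⟨V1.mul_mem _ _ ha1 hb1, V2.mul_mem _ _ ha2 hb2, V3.mul_mem _ _ ha3 hb3, ?_, ?_, ?_⟩
    · have : (⟨a * b, V1.mul_mem _ _ ha1 hb1⟩ : V1) = ⟨a, ha1⟩ * ⟨b, hb1⟩ := rfl
      rw [this, map_mul]; exact c1.range.mul_mem hr1 hs1
    · have : (⟨a * b, V2.mul_mem _ _ ha2 hb2⟩ : V2) = ⟨a, ha2⟩ * ⟨b, hb2⟩ := rfl
      rw [this, map_mul]; exact c2.range.mul_mem hr2 hs2
    · have : (⟨a * b, V3.mul_mem _ _ ha3 hb3⟩ : V3) = ⟨a, ha3⟩ * ⟨b, hb3⟩ := rfl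
      rw [this, map_mul]; exact c3.range.mul_mem hr3 hs3
  one_mem' := by
    refine ⟨V1.one_mem, V2.one_mem, V3.one_mem, ?_, ?_, ?_⟩
    · have : (⟨1, V1.one_mem⟩ : V1) = 1 := rfl
      rw [this, map_one]; exact c1.range.one_mem
    · have : (⟨1, V2.one_mem⟩ : V2) = 1 := rfl
      rw [this, map_one]; exact c2.range.one_mem
    · have : (⟨1, V3.one_mem⟩ : V3) = 1 := rfl
      rw [this, map_one]; exact c3.range.one_mem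
  add_mem' := by
    rintro a b ⟨ha1, ha2, ha3, hr1, hr2, hr3⟩ ⟨hb1, hb2, hb3, hs1, hs2, hs3⟩
    refine ⟨V1.add_mem _ _ ha1 hb1, V2.add_mem _ _ ha2 hb2, V3.add_mem _ _ ha3 hb3, ?_, ?_, ?_⟩
    · have : (⟨a + b, V1.add_mem _ _ ha1 hb1⟩ : V1) = ⟨a, ha1⟩ + ⟨b, hb1⟩ := rfl
      rw [this, map_add]; exact c1.range.add_mem hr1 hs1
    · have : (⟨a + b, V2.add_mem _ _ ha2 hb2⟩ : V2) = ⟨a, ha2⟩ + ⟨b, hb2⟩ := rfl
      rw [this, map_add]; exact c2.range.add_mem hr2 hs2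
    · have : (⟨a + b, V3.add_mem _ _ ha3 hb3⟩ : V3) = ⟨a, ha3⟩ + ⟨b, hb3⟩ := rfl
      rw [this, map_add]; exact c3.range.add_mem hr3 hs3
  zero_mem' := by
    refine ⟨V1.zero_mem, V2.zero_mem, V3.zero_mem, ?_, ?_, ?_⟩
    · have : (⟨0, V1.zero_mem⟩ : V1) = 0 := rfl
      rw [this, map_zero]; exact c1.range.zero_mem
    · have : (⟨0, V2.zero_mem⟩ : V2) = 0 := rfl
      rw [this, map_zero]; exact c2.range.zero_mem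
    · have : (⟨0, V3.zero_mem⟩ : V3) = 0 := rfl
      rw [this, map_zero]; exact c3.range.zero_mem
  neg_mem' := by
    rintro a ⟨ha1, ha2, ha3, hr1, hr2, hr3⟩
    refine ⟨V1.neg_mem _ ha1, V2.neg_mem _ ha2, V3.neg_mem _ ha3, ?_, ?_, ?_⟩
    · have : (⟨-a, V1.neg_mem _ ha1⟩ : V1) = -⟨a, ha1⟩ := rfl
      rw [this, map_neg]; exact c1.range.neg_mem hr1
    · have : (⟨-a, V2.neg_mem _ ha2⟩ : V2) = -⟨a, ha2⟩ := rfl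
      rw [this, map_neg]; exact c2.range.neg_mem hr2
    · have : (⟨-a, V3.neg_mem _ ha3⟩ : V3) = -⟨a, ha3⟩ := rfl
      rw [this, map_neg]; exact c3.range.neg_mem hr3

variable {V1 V2 V3 ρ1 ρ2 ρ3 c1 c2 c3}

theorem mem_Bs {z : F} : z ∈ Bs V1 V2 V3 ρ1 ρ2 ρ3 c1 c2 c3 ↔
    ∃ (h1 : z ∈ V1) (h2 : z ∈ V2) (h3 : z ∈ V3),
      ρ1 ⟨z, h1⟩ ∈ c1.range ∧ ρ2 ⟨z, h2⟩ ∈ c2.range ∧ ρ3 ⟨z, h3⟩ ∈ c3.range := Iff.rfl

theorem mem_V1 {z : F} (hz : z ∈ Bs V1 V2 V3 ρ1 ρ2 ρ3 c1 c2 c3) : z ∈ V1 := hz.1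
theorem mem_V2 {z : F} (hz : z ∈ Bs V1 V2 V3 ρ1 ρ2 ρ3 c1 c2 c3) : z ∈ V2 := hz.2.1
theorem mem_V3 {z : F} (hz : z ∈ Bs V1 V2 V3 ρ1 ρ2 ρ3 c1 c2 c3) : z ∈ V3 := hz.2.2.1

variable (V1 V2 V3 ρ1 ρ2 ρ3 c1 c2 c3)

/-- the inclusion `Bs → V1`. -/
def incl1 : Bs V1 V2 V3 ρ1 ρ2 ρ3 c1 c2 c3 →+* V1 where
  toFun z := ⟨z.1, mem_V1 z.2⟩
  map_one' := rfl
  map_mul' _ _ := rfl
  map_zero' := rfl
  map_add' _ _ := rfl

/-- the inclusion `Bs → V2`. -/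
def incl2 : Bs V1 V2 V3 ρ1 ρ2 ρ3 c1 c2 c3 →+* V2 where
  toFun z := ⟨z.1, mem_V2 z.2⟩
  map_one' := rfl
  map_mul' _ _ := rfl
  map_zero' := rfl
  map_add' _ _ := rfl

/-- the inclusion `Bs → V3`. -/
def incl3 : Bs V1 V2 V3 ρ1 ρ2 ρ3 c1 c2 c3 →+* V3 where
  toFun z := ⟨z.1, mem_V3 z.2⟩
  map_one' := rfl
  map_mul' _ _ := rfl
  map_zero' := rfl
  map_add' _ _ := rfl

theorem rho1_incl1_mem (z : Bs V1 V2 V3 ρ1 ρ2 ρ3 c1 c2 c3) :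
    ρ1 (incl1 V1 V2 V3 ρ1 ρ2 ρ3 c1 c2 c3 z) ∈ c1.range := z.2.2.2.2.1

theorem rho2_incl2_mem (z : Bs V1 V2 V3 ρ1 ρ2 ρ3 c1 c2 c3) :
    ρ2 (incl2 V1 V2 V3 ρ1 ρ2 ρ3 c1 c2 c3 z) ∈ c2.range := z.2.2.2.2.2.1

theorem rho3_incl3_mem (z : Bs V1 V2 V3 ρ1 ρ2 ρ3 c1 c2 c3) :
    ρ3 (incl3 V1 V2 V3 ρ1 ρ2 ρ3 c1 c2 c3 z) ∈ c3.range := z.2.2.2.2.2.2

section Red

variable (hc1 : Function.Injective c1) (hc2 : Function.Injective c2) (hc3 : Function.Injective c3)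

/-- an injective ring hom is an isomorphism onto its range. -/
noncomputable def rangeEquiv {κ : Type*} [CommRing κ] (c : C →+* κ) (hc : Function.Injective c) :
    C ≃+* c.range :=
  RingEquiv.ofBijective c.rangeRestrict
    ⟨fun _ _ h => hc (congrArg Subtype.val h), c.rangeRestrict_surjective⟩

theorem coe_rangeEquiv_symm {κ : Type*} [CommRing κ] (c : C →+* κ) (hc : Function.Injective c)
    (y : c.range) : c ((rangeEquiv c hc).symm y) = y := by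
  have := (rangeEquiv c hc).apply_symm_apply y
  exact congrArg Subtype.val this

/-- the first reduction `Bs →+* C`. -/
noncomputable def red1 : Bs V1 V2 V3 ρ1 ρ2 ρ3 c1 c2 c3 →+* C :=
  ((rangeEquiv c1 hc1).symm : c1.range →+* C).comp
    ((ρ1.comp (incl1 V1 V2 V3 ρ1 ρ2 ρ3 c1 c2 c3)).codRestrict c1.range
      (rho1_incl1_mem V1 V2 V3 ρ1 ρ2 ρ3 c1 c2 c3))

/-- the second reduction `Bs →+* C`. -/
noncomputable def red2 : Bs V1 V2 V3 ρ1 ρ2 ρ3 c1 c2 c3 →+* C :=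
  ((rangeEquiv c2 hc2).symm : c2.range →+* C).comp
    ((ρ2.comp (incl2 V1 V2 V3 ρ1 ρ2 ρ3 c1 c2 c3)).codRestrict c2.range
      (rho2_incl2_mem V1 V2 V3 ρ1 ρ2 ρ3 c1 c2 c3))

/-- the third reduction `Bs →+* C`. -/
noncomputable def red3 : Bs V1 V2 V3 ρ1 ρ2 ρ3 c1 c2 c3 →+* C :=
  ((rangeEquiv c3 hc3).symm : c3.range →+* C).comp
    ((ρ3.comp (incl3 V1 V2 V3 ρ1 ρ2 ρ3 c1 c2 c3)).codRestrict c3.range
      (rho3_incl3_mem V1 V2 V3 ρ1 ρ2 ρ3 c1 c2 c3))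

theorem c1_red1 (z : Bs V1 V2 V3 ρ1 ρ2 ρ3 c1 c2 c3) :
    c1 (red1 V1 V2 V3 ρ1 ρ2 ρ3 c1 c2 c3 hc1 z) = ρ1 (incl1 V1 V2 V3 ρ1 ρ2 ρ3 c1 c2 c3 z) :=
  coe_rangeEquiv_symm c1 hc1 _

theorem c2_red2 (z : Bs V1 V2 V3 ρ1 ρ2 ρ3 c1 c2 c3) :
    c2 (red2 V1 V2 V3 ρ1 ρ2 ρ3 c1 c2 c3 hc2 z) = ρ2 (incl2 V1 V2 V3 ρ1 ρ2 ρ3 c1 c2 c3 z) :=
  coe_rangeEquiv_symm c2 hc2 _

theorem c3_red3 (z : Bs V1 V2 V3 ρ1 ρ2 ρ3 c1 c2 c3) :
    c3 (red3 V1 V2 V3 ρ1 ρ2 ρ3 c1 c2 c3 hc3 z) = ρ3 (incl3 V1 V2 V3 ρ1 ρ2 ρ3 c1 c2 c3 z) :=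
  coe_rangeEquiv_symm c3 hc3 _

/-- **the reduction `Bs →+* C × C × C`.** -/
noncomputable def rd : Bs V1 V2 V3 ρ1 ρ2 ρ3 c1 c2 c3 →+* C × C × C :=
  (red1 V1 V2 V3 ρ1 ρ2 ρ3 c1 c2 c3 hc1).prod
    ((red2 V1 V2 V3 ρ1 ρ2 ρ3 c1 c2 c3 hc2).prod (red3 V1 V2 V3 ρ1 ρ2 ρ3 c1 c2 c3 hc3))

theorem rd_apply (z : Bs V1 V2 V3 ρ1 ρ2 ρ3 c1 c2 c3) :
    rd V1 V2 V3 ρ1 ρ2 ρ3 c1 c2 c3 hc1 hc2 hc3 z
      = (red1 V1 V2 V3 ρ1 ρ2 ρ3 c1 c2 c3 hc1 z, red2 V1 V2 V3 ρ1 ρ2 ρ3 c1 c2 c3 hc2 z,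
          red3 V1 V2 V3 ρ1 ρ2 ρ3 c1 c2 c3 hc3 z) := rfl

end Red

section Kernel

variable (hc1 : Function.Injective c1) (hc2 : Function.Injective c2) (hc3 : Function.Injective c3)
  (hρ1 : ∀ x : V1, ρ1 x = 0 ↔ (x : F) ∈ V1.nonunits)
  (hρ2 : ∀ x : V2, ρ2 x = 0 ↔ (x : F) ∈ V2.nonunits)
  (hρ3 : ∀ x : V3, ρ3 x = 0 ↔ (x : F) ∈ V3.nonunits)

include hρ1 hρ2 hρ3 in
/-- **`ker rd` = the functions small at all three valuations.** -/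
theorem rd_eq_zero_iff (z : Bs V1 V2 V3 ρ1 ρ2 ρ3 c1 c2 c3) :
    rd V1 V2 V3 ρ1 ρ2 ρ3 c1 c2 c3 hc1 hc2 hc3 z = 0 ↔
      (z : F) ∈ V1.nonunits ∧ (z : F) ∈ V2.nonunits ∧ (z : F) ∈ V3.nonunits := by
  rw [rd_apply, Prod.ext_iff, Prod.ext_iff]
  simp only [Prod.fst_zero, Prod.snd_zero]
  have e1 : red1 V1 V2 V3 ρ1 ρ2 ρ3 c1 c2 c3 hc1 z = 0 ↔ (z : F) ∈ V1.nonunits := by
    have h := hρ1 (incl1 V1 V2 V3 ρ1 ρ2 ρ3 c1 c2 c3 z)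
    rw [← c1_red1 (hc1 := hc1), map_eq_zero_iff c1 hc1] at h
    exact h
  have e2 : red2 V1 V2 V3 ρ1 ρ2 ρ3 c1 c2 c3 hc2 z = 0 ↔ (z : F) ∈ V2.nonunits := by
    have h := hρ2 (incl2 V1 V2 V3 ρ1 ρ2 ρ3 c1 c2 c3 z)
    rw [← c2_red2 (hc2 := hc2), map_eq_zero_iff c2 hc2] at h
    exact h
  have e3 : red3 V1 V2 V3 ρ1 ρ2 ρ3 c1 c2 c3 hc3 z = 0 ↔ (z : F) ∈ V3.nonunits := by
    have h := hρ3 (incl3 V1 V2 V3 ρ1 ρ2 ρ3 c1 c2 c3 z)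
    rw [← c3_red3 (hc3 := hc3), map_eq_zero_iff c3 hc3] at h
    exact h
  rw [e1, e2, e3]

end Kernel

section Root

theorem mem_valuationSubring_of_pow_mem (V : ValuationSubring F) {z : F} {m : ℕ} (hm : m ≠ 0)
    (h : z ^ m ∈ V) : z ∈ V := by
  rw [← V.valuation_le_one_iff] at h ⊢
  rw [map_pow] at h
  exact (pow_le_one_iff hm).1 h

variable {m : ℕ} (hm : m ≠ 0)
  (hroot1 : ∀ x : κ1, x ^ m ∈ c1.range → x ∈ c1.range)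
  (hroot2 : ∀ x : κ2, x ^ m ∈ c2.range → x ∈ c2.range)
  (hroot3 : ∀ x : κ3, x ^ m ∈ c3.range → x ∈ c3.range)

include hm hroot1 hroot2 hroot3 in
/-- **`Bs` is `m`-root closed** when the three chart rings are `m`-root closed in `κ_i`. -/
theorem mem_Bs_of_pow_mem {z : F} (hz : z ^ m ∈ Bs V1 V2 V3 ρ1 ρ2 ρ3 c1 c2 c3) :
    z ∈ Bs V1 V2 V3 ρ1 ρ2 ρ3 c1 c2 c3 := by
  obtain ⟨h1, h2, h3, hr1, hr2, hr3⟩ := hz
  have z1 := mem_valuationSubring_of_pow_mem V1 hm h1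
  have z2 := mem_valuationSubring_of_pow_mem V2 hm h2
  have z3 := mem_valuationSubring_of_pow_mem V3 hm h3
  refine ⟨z1, z2, z3, hroot1 _ ?_, hroot2 _ ?_, hroot3 _ ?_⟩
  · rw [← map_pow]
    exact hr1
  · rw [← map_pow]
    exact hr2
  · rw [← map_pow]
    exact hr3

/-- `u ≡ 1` modulo the maximal ideal of a valuation subring ⟹ `u⁻¹ ∈ V` and `u⁻¹ ≡ 1`. -/
theorem inv_mem_of_sub_one_mem_nonunits (V : ValuationSubring F) {u : F}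
    (hu : u - 1 ∈ V.nonunits) : u ∈ V ∧ u⁻¹ ∈ V ∧ u⁻¹ - 1 ∈ V.nonunits := by
  have hu1 : V.valuation (u - 1) < 1 := V.mem_nonunits_iff.1 hu
  have hval : V.valuation u = 1 := by
    have h1 : V.valuation (u - 1 + 1) = 1 := by
      have := Valuation.map_add_eq_of_lt_right V.valuation (x := u - 1) (y := 1)
        (by rw [map_one]; exact hu1)
      rw [this, map_one]
    rwa [sub_add_cancel] at h1
  have hu0 : u ≠ 0 := by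
    rintro rfl
    rw [map_zero] at hval
    exact zero_ne_one hval
  have hV : u ∈ V := (V.valuation_le_one_iff _).1 (le_of_eq hval)
  have hinv : V.valuation u⁻¹ = 1 := by rw [map_inv₀, hval, inv_one]
  refine ⟨hV, (V.valuation_le_one_iff _).1 (le_of_eq hinv), ?_⟩
  rw [V.mem_nonunits_iff]
  have e : u⁻¹ - 1 = -(u - 1) * u⁻¹ := by
    field_simp
    ring
  rw [e, map_mul, Valuation.map_neg, hinv, mul_one]
  exact hu1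

end Root

section Kummer

variable {m : ℕ} (hm : m ≠ 0)
  (hroot1 : ∀ x : κ1, x ^ m ∈ c1.range → x ∈ c1.range)
  (hroot2 : ∀ x : κ2, x ^ m ∈ c2.range → x ∈ c2.range)
  (hroot3 : ∀ x : κ3, x ^ m ∈ c3.range → x ∈ c3.range)
  (hρ1 : ∀ x : V1, ρ1 x = 0 ↔ (x : F) ∈ V1.nonunits)
  (hρ2 : ∀ x : V2, ρ2 x = 0 ↔ (x : F) ∈ V2.nonunits)
  (hρ3 : ∀ x : V3, ρ3 x = 0 ↔ (x : F) ∈ V3.nonunits)

/-- one valuation: `g ^ m * u = c`, `u ≡ 1`, `c ∈ V` ⟹ `g ^ m ∈ V`, `ρ (g ^ m) = ρ c` and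
`g ^ m - c` is a nonunit. -/
theorem pow_mem_of_pow_mul_eq (V : ValuationSubring F) {κ : Type*} [CommRing κ] (ρ : V →+* κ)
    (hρ : ∀ x : V, ρ x = 0 ↔ (x : F) ∈ V.nonunits) {g u c : F} (hu : u - 1 ∈ V.nonunits)
    (hc : c ∈ V) (hgc : g ^ m * u = c) :
    ∃ h : g ^ m ∈ V, ρ ⟨g ^ m, h⟩ = ρ ⟨c, hc⟩ ∧ g ^ m - c ∈ V.nonunits := by
  obtain ⟨huV, huinv, huinv1⟩ := inv_mem_of_sub_one_mem_nonunits V hu
  have hu0 : u ≠ 0 := by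
    rintro rfl
    rw [zero_sub, V.mem_nonunits_iff, Valuation.map_neg, map_one] at hu
    exact lt_irrefl _ hu
  have e : g ^ m = c * u⁻¹ := by
    rw [← hgc, mul_assoc, mul_inv_cancel₀ hu0, mul_one]
  have h : g ^ m ∈ V := by rw [e]; exact V.mul_mem _ _ hc huinv
  have hsub : g ^ m - c = c * (u⁻¹ - 1) := by rw [e]; ring
  have hnon : g ^ m - c ∈ V.nonunits := by
    rw [hsub, V.mem_nonunits_iff, map_mul]
    have h1 : V.valuation c ≤ 1 := (V.valuation_le_one_iff _).2 hc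
    have h2 : V.valuation (u⁻¹ - 1) < 1 := V.mem_nonunits_iff.1 huinv1
    calc V.valuation c * V.valuation (u⁻¹ - 1) ≤ 1 * V.valuation (u⁻¹ - 1) :=
          mul_le_mul_left h1 _
      _ = V.valuation (u⁻¹ - 1) := one_mul _
      _ < 1 := h2
  refine ⟨h, ?_, hnon⟩
  have h0 : ρ (⟨g ^ m, h⟩ - ⟨c, hc⟩) = 0 := (hρ _).2 hnon
  rw [map_sub, sub_eq_zero] at h0
  exact h0

include hm hroot1 hroot2 hroot3 hρ1 hρ2 hρ3 in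
/-- **the Kummer generator lies in `Bs`.**  `g ^ m * u = c` with `c ∈ Bs` and `u ≡ 1` at the
three valuations ⟹ `g ∈ Bs` and `g ^ m - c` is small at the three valuations (`= ker rd`). -/
theorem mem_Bs_of_pow_mul_eq {g u c : F} (hu1 : u - 1 ∈ V1.nonunits) (hu2 : u - 1 ∈ V2.nonunits)
    (hu3 : u - 1 ∈ V3.nonunits) (hc : c ∈ Bs V1 V2 V3 ρ1 ρ2 ρ3 c1 c2 c3) (hgc : g ^ m * u = c) :
    g ∈ Bs V1 V2 V3 ρ1 ρ2 ρ3 c1 c2 c3 ∧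
      g ^ m - c ∈ V1.nonunits ∧ g ^ m - c ∈ V2.nonunits ∧ g ^ m - c ∈ V3.nonunits := by
  obtain ⟨hc1, hc2, hc3, hr1, hr2, hr3⟩ := hc
  obtain ⟨h1, e1, n1⟩ := pow_mem_of_pow_mul_eq V1 ρ1 hρ1 hu1 hc1 hgc
  obtain ⟨h2, e2, n2⟩ := pow_mem_of_pow_mul_eq V2 ρ2 hρ2 hu2 hc2 hgc
  obtain ⟨h3, e3, n3⟩ := pow_mem_of_pow_mul_eq V3 ρ3 hρ3 hu3 hc3 hgc
  refine ⟨mem_Bs_of_pow_mem (V1 := V1) (V2 := V2) (V3 := V3) (ρ1 := ρ1) (ρ2 := ρ2) (ρ3 := ρ3)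
    (c1 := c1) (c2 := c2) (c3 := c3) hm hroot1 hroot2 hroot3
    ⟨h1, h2, h3, ?_, ?_, ?_⟩, n1, n2, n3⟩
  · rw [e1]; exact hr1
  · rw [e2]; exact hr2
  · rw [e3]; exact hr3

end Kummer

section Image

variable {k B D : Type*} [Field k] [CommRing B] [CommRing D] [Algebra k D]

/-- the image `rd '' S` of a subring as a `k`-subalgebra, when `S` contains lifts of the
constants. -/
def imageAlg (rd : B →+* D) (S : Subring B)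
    (hconst : ∀ a : k, ∃ b ∈ S, rd b = algebraMap k D a) : Subalgebra k D :=
  { (S.map rd).toSubsemiring with
    algebraMap_mem' := fun a => by
      obtain ⟨b, hb, h⟩ := hconst a
      exact ⟨b, hb, h⟩ }

theorem mem_imageAlg {rd : B →+* D} {S : Subring B}
    {hconst : ∀ a : k, ∃ b ∈ S, rd b = algebraMap k D a} {r : D} :
    r ∈ imageAlg rd S hconst ↔ ∃ b ∈ S, rd b = r := Iff.rfl

/-- `hB2` of `loc_frobGlue3_max` for `R := imageAlg rd S hconst`. -/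
theorem mem_imageAlg_of_mem (rd : B →+* D) (S : Subring B)
    (hconst : ∀ a : k, ∃ b ∈ S, rd b = algebraMap k D a) (b : S) :
    rd (b : B) ∈ imageAlg rd S hconst := ⟨b, b.2, rfl⟩

/-- `hR` of `loc_frobGlue3_max` for `R := imageAlg rd S hconst`. -/
theorem exists_of_mem_imageAlg (rd : B →+* D) (S : Subring B)
    (hconst : ∀ a : k, ∃ b ∈ S, rd b = algebraMap k D a) {r : D}
    (hr : r ∈ imageAlg rd S hconst) : ∃ b : S, rd (b : B) = r := by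
  obtain ⟨b, hb, h⟩ := hr
  exact ⟨⟨b, hb⟩, h⟩

end Image

end Fermat.Agent.GL.RegRedRing
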