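/-
GATE-L / ABS-3 (ROOT-ABS) (helper8), per STACK RULING 1 (board 2695).

`k` algebraically closed, `Ct` a commutative `k`-algebra, `Bt ≤ Ct` a subalgebra of finite
`k`-codimension, `w` a unit of `Ct` with `w ^ m ∈ Bt`, `m` invertible in `k`, and every two characters
`Ct →ₐ[k] k` that agree on `Bt` agree on `w`.  Then `w ∈ Bt`.

* `subalgConductor Bt` : the conductor `{x | x • Ct ⊆ Bt}`, an ideal of `Ct` contained in `Bt`;
* `finite_quot_subalgConductor` : `Ct ⧸ conductor` is finite-dimensional;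
* `charOfMax 𝔪` : the character `A →ₐ[k] k` with kernel a maximal ideal `𝔪` (`A` finite-dimensional);
* `mem_of_pow_mem_of_chars_finite` : the statement for `Ct` finite-dimensional (no conductor);
* `mem_of_pow_mem_of_chars` : the statement in general.

The unipotent step is helper18's `UnipotentRoot.mem_of_pow_mem_of_sub_mem`.
-/
import Mathlib
import Fermat.Agent.GL.Alg.UnipotentRoot

set_option autoImplicit false

namespace Fermat.Agent.GL.Fibre.RootAbs

variable {k : Type*} [Field k]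

section Conductor

variable {Ct : Type*} [CommRing Ct] [Algebra k Ct]

/-- The conductor of the subalgebra `Bt` in `Ct`: the largest ideal of `Ct` contained in `Bt`. -/
def subalgConductor (Bt : Subalgebra k Ct) : Ideal Ct where
  carrier := {x | ∀ y : Ct, x * y ∈ Bt}
  add_mem' := fun {a b} ha hb y => by
    rw [add_mul]; exact Bt.add_mem (ha y) (hb y)
  zero_mem' := fun y => by rw [zero_mul]; exact Bt.zero_mem
  smul_mem' := fun c x hx y => by
    have : c • x * y = x * (c * y) := by rw [smul_eq_mul]; ring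
    rw [this]; exact hx _

theorem mem_subalgConductor {Bt : Subalgebra k Ct} {x : Ct} :
    x ∈ subalgConductor Bt ↔ ∀ y : Ct, x * y ∈ Bt := Iff.rfl

theorem subalgConductor_le (Bt : Subalgebra k Ct) {x : Ct} (hx : x ∈ subalgConductor Bt) :
    x ∈ Bt := by
  have := hx 1
  rwa [mul_one] at this

/-- If `Ct ⧸ Bt` is finite-dimensional then so is `Ct ⧸ conductor`. -/
theorem finite_quot_subalgConductor (Bt : Subalgebra k Ct)
    [Module.Finite k (Ct ⧸ Subalgebra.toSubmodule Bt)] :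
    Module.Finite k (Ct ⧸ subalgConductor Bt) := by
  classical
  obtain ⟨s, hs⟩ := (Module.Finite.fg_top : (⊤ : Submodule k (Ct ⧸ Subalgebra.toSubmodule Bt)).FG)
  choose y hy using fun q : Ct ⧸ Subalgebra.toSubmodule Bt => Submodule.Quotient.mk_surjective _ q
  -- the test elements: `1` and lifts of the spanning set
  let e : Option s → Ct := fun i => Option.elim i 1 (fun q => y q)
  let f : Ct →ₗ[k] (Option s → Ct ⧸ Subalgebra.toSubmodule Bt) :=
    LinearMap.pi fun i => (Submodule.mkQ _).comp (LinearMap.mulRight k (e i))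
  have hf : ∀ x i, f x i = Submodule.Quotient.mk (x * e i) := fun x i => rfl
  have hker : ∀ x, f x = 0 → x ∈ subalgConductor Bt := by
    intro x hx
    have hxe : ∀ i, x * e i ∈ Bt := by
      intro i
      have := congrFun hx i
      rw [hf, Pi.zero_apply, Submodule.Quotient.mk_eq_zero] at this
      exact this
    have hxB : x ∈ Bt := by
      have := hxe none
      simpa [e] using this
    let P : Submodule k Ct := (Subalgebra.toSubmodule Bt).comap (LinearMap.mulLeft k x)
    have hBP : Subalgebra.toSubmodule Bt ≤ P := fun z hz => Bt.mul_mem hxB hz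
    have hsP : (s : Set (Ct ⧸ Subalgebra.toSubmodule Bt)) ⊆
        ((P.map (Submodule.mkQ (Subalgebra.toSubmodule Bt)) :
          Submodule k (Ct ⧸ Subalgebra.toSubmodule Bt)) : Set (Ct ⧸ Subalgebra.toSubmodule Bt)) := by
      intro q hq
      refine ⟨y q, ?_, hy q⟩
      have h := hxe (some ⟨q, hq⟩)
      have h' : x * y q ∈ Bt := by simpa [e] using h
      exact h'
    have hmap : P.map (Submodule.mkQ (Subalgebra.toSubmodule Bt)) = ⊤ :=
      top_le_iff.mp (hs ▸ Submodule.span_le.mpr hsP)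
    have hP : P = ⊤ := by
      have h := Submodule.comap_map_mkQ (Subalgebra.toSubmodule Bt) P
      rw [hmap, Submodule.comap_top, sup_eq_right.mpr hBP] at h
      exact h.symm
    intro z
    have : z ∈ P := hP ▸ Submodule.mem_top
    exact this
  -- `Ct ⧸ ker f` is finite-dimensional and surjects onto `Ct ⧸ conductor`
  have : Module.Finite k (Ct ⧸ LinearMap.ker f) :=
    Module.Finite.equiv f.quotKerEquivRange.symm
  let g : (Ct ⧸ LinearMap.ker f) →ₗ[k] (Ct ⧸ subalgConductor Bt) :=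
    (LinearMap.ker f).liftQ (Ideal.Quotient.mkₐ k (subalgConductor Bt)).toLinearMap (by
      intro x hx
      rw [LinearMap.mem_ker] at hx ⊢
      exact Ideal.Quotient.eq_zero_iff_mem.mpr (hker x hx))
  refine Module.Finite.of_surjective g ?_
  intro q
  obtain ⟨x, rfl⟩ := Ideal.Quotient.mkₐ_surjective k (subalgConductor Bt) q
  exact ⟨Submodule.Quotient.mk x, rfl⟩

end Conductor

section Finite

variable [IsAlgClosed k] {A : Type*} [CommRing A] [Algebra k A] [Module.Finite k A]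

/-- The character of a finite-dimensional commutative algebra over an algebraically closed field
whose kernel is a given maximal ideal. -/
noncomputable def charOfMax (𝔪 : Ideal A) [𝔪.IsMaximal] : A →ₐ[k] k :=
  ((AlgEquiv.ofBijective (Algebra.ofId k (A ⧸ 𝔪))
      IsAlgClosed.algebraMap_bijective_of_isIntegral).symm : (A ⧸ 𝔪) →ₐ[k] k).comp
    (Ideal.Quotient.mkₐ k 𝔪)

theorem charOfMax_eq_zero_iff (𝔪 : Ideal A) [𝔪.IsMaximal] (a : A) :
    charOfMax (k := k) 𝔪 a = 0 ↔ a ∈ 𝔪 := by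
  unfold charOfMax
  rw [AlgHom.comp_apply, AlgEquiv.coe_toAlgHom, EmbeddingLike.map_eq_zero_iff,
    Ideal.Quotient.mkₐ_eq_mk, Ideal.Quotient.eq_zero_iff_mem]

theorem sub_algebraMap_charOfMax_mem (𝔪 : Ideal A) [𝔪.IsMaximal] (a : A) :
    a - algebraMap k A (charOfMax (k := k) 𝔪 a) ∈ 𝔪 := by
  rw [← charOfMax_eq_zero_iff (k := k), map_sub, AlgHom.commutes, Algebra.algebraMap_self,
    RingHom.id_apply, sub_self]

theorem charOfMax_eq_of_sub_mem (𝔪 : Ideal A) [𝔪.IsMaximal] {a : A} {c : k}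
    (h : a - algebraMap k A c ∈ 𝔪) : charOfMax (k := k) 𝔪 a = c := by
  have := (charOfMax_eq_zero_iff (k := k) 𝔪 _).mpr h
  rwa [map_sub, AlgHom.commutes, Algebra.algebraMap_self, RingHom.id_apply, sub_eq_zero] at this

/-- **ROOT-ABS, finite-dimensional core.** -/
theorem mem_of_pow_mem_of_chars_finite (B : Subalgebra k A) {m : ℕ} (hm : (m : k) ≠ 0) {w : A}
    (hw : IsUnit w) (hwm : w ^ m ∈ B)
    (hchi : ∀ χ χ' : A →ₐ[k] k, (∀ b ∈ B, χ b = χ' b) → χ w = χ' w) : w ∈ B := by
  classical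
  have : IsArtinianRing A := IsArtinianRing.of_finite k A
  have : IsArtinianRing B := IsArtinianRing.of_finite k B
  have : Module.Finite B A := Module.Finite.of_restrictScalars_finite k B A
  have : Algebra.IsIntegral B A := Algebra.IsIntegral.of_finite B A
  -- for each maximal ideal of `B` choose a maximal ideal of `A` over it
  have hover : ∀ 𝔫 : MaximalSpectrum B, ∃ 𝔪 : Ideal A,
      𝔪.IsMaximal ∧ 𝔪.comap (algebraMap B A) = 𝔫.asIdeal := by
    intro 𝔫
    have := 𝔫.isMaximal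
    refine Ideal.exists_ideal_over_maximal_of_isIntegral 𝔫.asIdeal ?_
    have : RingHom.ker (algebraMap B A) = ⊥ :=
      (RingHom.injective_iff_ker_eq_bot _).mp Subtype.val_injective
    rw [this]; exact bot_le
  choose 𝔪o h𝔪max h𝔪comap using hover
  let c : MaximalSpectrum B → k := fun 𝔫 =>
    have := h𝔪max 𝔫
    charOfMax (𝔪o 𝔫) w
  have hcop : Pairwise (Function.onFun IsCoprime fun 𝔫 : MaximalSpectrum B => 𝔫.asIdeal) := by
    intro 𝔫 𝔫' hne
    have := 𝔫.isMaximal
    have := 𝔫'.isMaximal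
    exact Ideal.isCoprime_of_isMaximal (fun h => hne (MaximalSpectrum.ext h))
  obtain ⟨b, hb⟩ := Ideal.exists_forall_sub_mem_ideal hcop (fun 𝔫 => algebraMap k B (c 𝔫))
  -- `w - b` lies in every maximal ideal of `A`
  have hkey : ∀ 𝔪 : Ideal A, 𝔪.IsMaximal → w - (b : A) ∈ 𝔪 := by
    intro 𝔪 h𝔪
    have := h𝔪
    have hn : (𝔪.comap (algebraMap B A)).IsMaximal :=
      Ideal.isMaximal_comap_of_isIntegral_of_isMaximal 𝔪
    let 𝔫 : MaximalSpectrum B := ⟨𝔪.comap (algebraMap B A), hn⟩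
    have := h𝔪max 𝔫
    have hagree : ∀ b' ∈ B, charOfMax (k := k) 𝔪 b' = charOfMax (k := k) (𝔪o 𝔫) b' := by
      intro b' hb'
      have h1 : b' - algebraMap k A (charOfMax (k := k) 𝔪 b') ∈ 𝔪 :=
        sub_algebraMap_charOfMax_mem 𝔪 b'
      have h2 : ((⟨b', hb'⟩ : B) - algebraMap k B (charOfMax (k := k) 𝔪 b')) ∈
          (𝔪o 𝔫).comap (algebraMap B A) := by
        rw [h𝔪comap 𝔫]
        exact h1
      have h3 : b' - algebraMap k A (charOfMax (k := k) 𝔪 b') ∈ 𝔪o 𝔫 := h2
      exact (charOfMax_eq_of_sub_mem (𝔪o 𝔫) h3).symm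
    have hw_eq : charOfMax (k := k) 𝔪 w = c 𝔫 := hchi _ _ hagree
    have hb_eq : charOfMax (k := k) 𝔪 (b : A) = c 𝔫 := by
      have : (b : A) - algebraMap k A (c 𝔫) ∈ 𝔪 := hb 𝔫
      exact charOfMax_eq_of_sub_mem 𝔪 this
    rw [← charOfMax_eq_zero_iff (k := k) 𝔪, map_sub, hw_eq, hb_eq, sub_self]
  have hjac : w - (b : A) ∈ Ideal.jacobson (⊥ : Ideal A) := by
    rw [Ideal.jacobson, Ideal.mem_sInf]
    rintro 𝔪 ⟨-, h𝔪⟩
    exact hkey 𝔪 h𝔪
  -- `b` is a unit of `B`
  have hbunit : IsUnit b := by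
    by_contra hnu
    obtain ⟨𝔫i, h𝔫i, hbn⟩ := exists_max_ideal_of_mem_nonunits hnu
    let 𝔫 : MaximalSpectrum B := ⟨𝔫i, h𝔫i⟩
    have h1 : algebraMap k B (c 𝔫) ∈ 𝔫i := by
      have := 𝔫i.sub_mem hbn (hb 𝔫)
      simpa using this
    have hc0 : c 𝔫 = 0 := by
      by_contra hne
      exact h𝔫i.ne_top
        (Ideal.eq_top_of_isUnit_mem _ h1 ((IsUnit.mk0 _ hne).map (algebraMap k B)))
    have := h𝔪max 𝔫
    have hwm' : w ∈ 𝔪o 𝔫 := (charOfMax_eq_zero_iff (k := k) _ _).mp hc0
    exact (h𝔪max 𝔫).ne_top (Ideal.eq_top_of_isUnit_mem _ hwm' hw)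
  obtain ⟨u, hu⟩ := hbunit
  have h12 : ((u : B) : A) * (((u⁻¹ : Bˣ) : B) : A) = 1 := by
    have h := congrArg (Subtype.val : B → A) u.mul_inv
    rw [Subalgebra.coe_mul, Subalgebra.coe_one] at h
    exact h
  have hjac' : w - ((u : B) : A) ∈ Ideal.jacobson (⊥ : Ideal A) := by
    rw [hu]; exact hjac
  -- nilpotency of the Jacobson radical
  obtain ⟨r, hr⟩ := IsArtinianRing.isNilpotent_jacobson_bot (R := A)
  have hres := UnipotentRoot.mem_of_pow_mem_of_sub_mem (C := A) B.toSubring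
    (Ideal.jacobson (⊥ : Ideal A)) r
    (fun x hx => by
      rw [hr] at hx
      have : x = 0 := hx
      rw [this]; exact B.toSubring.zero_mem)
    (fun x hx => by
      have := Ideal.mem_jacobson_bot.mp hx 1
      rwa [mul_one, add_comm] at this)
    m ⟨algebraMap k A ((m : k)⁻¹), B.algebraMap_mem _, by
      rw [← map_natCast (algebraMap k A), ← map_mul, mul_inv_cancel₀ hm, map_one]⟩
    (w := w) (b := ((u : B) : A)) (b' := (((u⁻¹ : Bˣ) : B) : A)) (u : B).2 ((u⁻¹ : Bˣ) : B).2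
    h12 hjac' hwm
  exact hres

end Finite

section General

variable [IsAlgClosed k] {Ct : Type*} [CommRing Ct] [Algebra k Ct]

/-- **ROOT-ABS** (STACK RULING 1, ABS-3).  `Bt ≤ Ct` of finite `k`-codimension, `w` a unit of `Ct`
with `w ^ m ∈ Bt`, `m` invertible in `k`, and any two characters of `Ct` agreeing on `Bt` agree on
`w`.  Then `w ∈ Bt`. -/
theorem mem_of_pow_mem_of_chars (Bt : Subalgebra k Ct)
    [Module.Finite k (Ct ⧸ Subalgebra.toSubmodule Bt)] {m : ℕ} (hm : (m : k) ≠ 0) {w : Ct}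
    (hw : IsUnit w) (hwm : w ^ m ∈ Bt)
    (hchi : ∀ χ χ' : Ct →ₐ[k] k, (∀ b ∈ Bt, χ b = χ' b) → χ w = χ' w) : w ∈ Bt := by
  have := finite_quot_subalgConductor Bt
  let π : Ct →ₐ[k] Ct ⧸ subalgConductor Bt := Ideal.Quotient.mkₐ k (subalgConductor Bt)
  have h : π w ∈ Bt.map π := by
    refine mem_of_pow_mem_of_chars_finite (Bt.map π) hm (hw.map π) ?_ ?_
    · rw [← map_pow]; exact ⟨_, hwm, rfl⟩
    · intro χ χ' hag
      exact hchi (χ.comp π) (χ'.comp π) (fun b hb => hag (π b) ⟨b, hb, rfl⟩)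
  obtain ⟨b, hb, hbw⟩ := h
  have hmem : w - b ∈ subalgConductor Bt := by
    rw [← Ideal.Quotient.eq]
    exact hbw.symm
  have := Bt.add_mem (subalgConductor_le Bt hmem) hb
  simpa using this

end General

end Fermat.Agent.GL.Fibre.RootAbs
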