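import Mathlib
import Fermat.Agent.GK.Nodal.FrobGlue

/-!
# GATE-L / L7a (Sep) BY FUNCTORIALITY, abstract core (helper85; STACK RULING 1, board 2695 (F2))

Pure algebra on top of helper29's Frobenius glueing `gluedAlg Ψ J = {(g, h) | g - Ψ h ∈ J}`.

Setting.  `C` is the coordinate ring of the affine special fibre of level `M` (a `k`-algebra),
`Ψ : C →ₐ[k] C` the `k`-linear Frobenius, `J ⊇ fixIdeal Ψ` the ideal of the nodes of level `q M`
(K-N6: the reduction of `B''` is `gluedAlg Ψ J`).  At level `N = q² M` the normalisation of the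
special fibre has components `i : ι` of three classes `c i : Cls`
(`one`: the `∞`-component `C₁`, `two`: the `0`-component `C₂`, `three`: the middle component(s) `C₃`),
with coordinate rings `Cn i` and structure maps `e i : C →ₐ[k] Cn i` (isomorphisms for the classes
`one`, `two`; the inclusion of `C₃` into `C₃±` for the class `three`).  `Bt ≤ ∏ i, Cn i` is the reduction of
the ring `B_A` of integral functions.  The OLD functions `π x`, `π'' x` (`x ∈ B''`,
`z = (red₁'' x, red₂'' x) ∈ gluedAlg Ψ J`) reduce to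

* `π x   ↦ e i (oldA Ψ z (c i))`, `oldA Ψ z = (z.1, Ψ z.2, z.1)`,
* `π'' x ↦ e i (oldB Ψ z (c i))`, `oldB Ψ z = (Ψ z.1, z.2, z.2)`

(the L3c table).  RESULTS:

* `kills_and_eq_comp_of_glued`, `glued_of_kills` : two points `x₁`, `x₂` of `Spec C` satisfy
  `x₁ z.1 = x₂ z.2` on `gluedAlg Ψ J` iff `x₁ ∈ V(J)` and `x₂ = x₁ ∘ Ψ`;
* `exists_eval_factor` : a `k`-point of a finite product `∏ i, Cn i` factors through one factor;
* **`sep_of_old`** : two points `x` of `Cn i`, `x'` of `Cn i'` which are not separated by `Bt` have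
  the same image `y = x ∘ e i = x' ∘ e i'` in `Spec C`, and if the classes differ `y ∈ V(J)`
  (a node);
* **`eval_eq_of_not_sep`** : the hypothesis `hchi` of ROOT-ABS (ABS-3, helper8) for
  `w = (e i (v (c i)))_i`: if `y (v one) = y (v two) = y (v three)` at every node `y ∈ V(J)` (the
  output of L9), then `χ w = χ' w` for all `k`-points `χ`, `χ'` of `∏ i, Cn i` that agree on `Bt`.
-/

set_option autoImplicit false

namespace Fermat.Agent.GL.Fibre.SepOld

open Fermat.Agent.GK.FrobGlue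

variable {k C : Type*} [Field k] [CommRing C] [Algebra k C] (Ψ : C →ₐ[k] C) (J : Ideal C)

/-! ### Points of a Frobenius glueing -/

/-- (S1) two points not separated by the glueing: the first is a node, the second is its
Frobenius image. -/
theorem kills_and_eq_comp_of_glued {x₁ x₂ : C →ₐ[k] k}
    (h : ∀ z ∈ gluedAlg Ψ J, x₁ z.1 = x₂ z.2) :
    (∀ d ∈ J, x₁ d = 0) ∧ x₂ = x₁.comp Ψ := by
  refine ⟨fun d hd => ?_, ?_⟩
  · have hz : ((d, 0) : C × C) ∈ gluedAlg Ψ J := by
      rw [mk_mem_gluedAlg, map_zero, sub_zero]; exact hd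
    simpa using h _ hz
  · ext b
    exact (h _ (right_mem_gluedAlg Ψ J b)).symm

/-- converse of (S1) -/
theorem glued_of_kills {x₁ : C →ₐ[k] k} (hx : ∀ d ∈ J, x₁ d = 0) :
    ∀ z ∈ gluedAlg Ψ J, x₁ z.1 = (x₁.comp Ψ) z.2 := by
  intro z hz
  have := hx _ ((mem_gluedAlg Ψ).1 hz)
  rw [map_sub, sub_eq_zero] at this
  exact this

/-- a point killing `fixIdeal Ψ` is fixed by `Ψ ∘ Ψ` -/
theorem comp_comp_eq_of_kills_fix {y : C →ₐ[k] k} (hy : ∀ d ∈ fixIdeal Ψ, y d = 0) :
    (y.comp Ψ).comp Ψ = y := by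
  ext a
  have := hy _ (sub_mem_fixIdeal Ψ a)
  rw [map_sub, sub_eq_zero] at this
  exact this.symm

/-! ### Points of a finite product -/

section Product

variable {ι : Type*} [Fintype ι] [DecidableEq ι] {Cn : ι → Type*} [∀ i, CommRing (Cn i)]
  [∀ i, Algebra k (Cn i)]

/-- a `k`-point of a finite product of `k`-algebras factors through one of the factors -/
theorem exists_eval_factor (χ : (∀ i, Cn i) →ₐ[k] k) :
    ∃ (i : ι) (x : Cn i →ₐ[k] k), ∀ f : ∀ i, Cn i, χ f = x (f i) := by
  classical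
  -- the idempotents
  have hsum : ∑ i, χ (Pi.single i (1 : Cn i)) = 1 := by
    have h1 : (∑ i, Pi.single i (1 : Cn i)) = (1 : ∀ i, Cn i) :=
      Finset.univ_sum_single (1 : ∀ i, Cn i)
    rw [← map_sum, h1, map_one]
  have hidem : ∀ i, χ (Pi.single i 1) = 0 ∨ χ (Pi.single i 1) = 1 := by
    intro i
    have h : χ (Pi.single i 1) * χ (Pi.single i 1) = χ (Pi.single i 1) := by
      rw [← map_mul, ← Pi.single_mul, mul_one]
    rcases eq_or_ne (χ (Pi.single i 1)) 0 with h0 | h0
    · exact Or.inl h0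
    · exact Or.inr (mul_left_cancel₀ h0 (by rw [h, mul_one]))
  obtain ⟨i, hi⟩ : ∃ i, χ (Pi.single i (1 : Cn i)) = 1 := by
    by_contra hne
    simp only [not_exists] at hne
    have : ∀ i, χ (Pi.single i (1 : Cn i)) = 0 := fun i => (hidem i).resolve_right (hne i)
    rw [Finset.sum_eq_zero (fun i _ => this i)] at hsum
    exact zero_ne_one hsum
  have hf : ∀ f : ∀ i, Cn i, χ f = χ (Pi.single i (f i)) := by
    intro f
    have h1 : f * Pi.single i 1 = Pi.single i (f i) := by
      ext j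
      by_cases hj : j = i
      · subst hj; simp
      · simp [Pi.single_eq_of_ne hj]
    rw [← h1, map_mul, hi, mul_one]
  refine ⟨i, ⟨⟨⟨⟨fun g => χ (Pi.single i g), ?_⟩, ?_⟩, ?_, ?_⟩, ?_⟩, hf⟩
  · exact hi
  · intro a b
    show χ (Pi.single i (a * b)) = _
    rw [Pi.single_mul, map_mul]
  · show χ (Pi.single i 0) = 0
    rw [Pi.single_zero, map_zero]
  · intro a b
    show χ (Pi.single i (a + b)) = _
    rw [Pi.single_add, map_add]
  · intro r
    show χ (Pi.single i (algebraMap k (Cn i) r)) = algebraMap k k r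
    exact (hf (algebraMap k (∀ i, Cn i) r)).symm.trans (χ.commutes r)

end Product

/-! ### Separation by old functions -/

/-- the three classes of components of the special fibre of level `q² M`:
`one` = the `∞`-component `C₁`, `two` = the `0`-component `C₂`, `three` = the middle component(s). -/
inductive Cls : Type
  | one
  | two
  | three

/-- the reductions of `π x` on the three classes of components, `z = (red₁'' x, red₂'' x)` -/
def oldA (z : C × C) : Cls → C
  | .one => z.1
  | .two => Ψ z.2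
  | .three => z.1

/-- the reductions of `π'' x` on the three classes of components -/
def oldB (z : C × C) : Cls → C
  | .one => Ψ z.1
  | .two => z.2
  | .three => z.2

section Sep

variable {ι : Type*} {Cn : ι → Type*} [∀ i, CommRing (Cn i)] [∀ i, Algebra k (Cn i)]
  (c : ι → Cls) (e : ∀ i, C →ₐ[k] Cn i) (Bt : Subalgebra k (∀ i, Cn i))

/-- **(Sep) by functoriality.**  Two points `x` (component `i`) and `x'` (component `i'`) of the
normalisation which are not separated by `Bt ⊇ {old functions}` have the same image `y` in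
`Spec C`; if the components are of different classes, `y` is a node. -/
theorem sep_of_old (hJ : fixIdeal Ψ ≤ J) (hΨJ : ∀ d ∈ J, Ψ d ∈ J)
    (hA : ∀ z ∈ gluedAlg Ψ J, (fun i => e i (oldA Ψ z (c i))) ∈ Bt)
    (hB : ∀ z ∈ gluedAlg Ψ J, (fun i => e i (oldB Ψ z (c i))) ∈ Bt)
    {i i' : ι} (x : Cn i →ₐ[k] k) (x' : Cn i' →ₐ[k] k)
    (hsep : ∀ b ∈ Bt, x (b i) = x' (b i')) :
    x.comp (e i) = x'.comp (e i') ∧
      (c i ≠ c i' → ∀ d ∈ J, (x.comp (e i)) d = 0) := by
  set y : C →ₐ[k] k := x.comp (e i) with hy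
  set y' : C →ₐ[k] k := x'.comp (e i') with hy'
  -- the two families of relations
  have hπ : ∀ z ∈ gluedAlg Ψ J, y (oldA Ψ z (c i)) = y' (oldA Ψ z (c i')) :=
    fun z hz => hsep _ (hA z hz)
  have hπ' : ∀ z ∈ gluedAlg Ψ J, y (oldB Ψ z (c i)) = y' (oldB Ψ z (c i')) :=
    fun z hz => hsep _ (hB z hz)
  have hl : ∀ a, ((a, Ψ a) : C × C) ∈ gluedAlg Ψ J := left_mem_gluedAlg Ψ J hJ
  have hr : ∀ b, ((Ψ b, b) : C × C) ∈ gluedAlg Ψ J := right_mem_gluedAlg Ψ J
  have hd : ∀ d ∈ J, ((d, 0) : C × C) ∈ gluedAlg Ψ J := fun d hd => by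
    rw [mk_mem_gluedAlg, map_zero, sub_zero]; exact hd
  -- a point killing `J` is fixed by `Ψ²`
  have hfix : ∀ w : C →ₐ[k] k, (∀ d ∈ J, w d = 0) → ∀ a, w (Ψ (Ψ a)) = w a := by
    intro w hw a
    have := hw _ (hJ (sub_mem_fixIdeal Ψ a))
    rw [map_sub, sub_eq_zero] at this
    exact this.symm
  generalize hci : c i = ci at hπ hπ'
  generalize hci' : c i' = ci' at hπ hπ'
  cases ci <;> cases ci' <;>
    simp only [oldA, oldB, ne_eq, not_true_eq_false, IsEmpty.forall_iff, and_true] at hπ hπ' ⊢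
  -- (0,0)
  · exact AlgHom.ext fun a => hπ _ (hl a)
  -- (0,1)
  · have hk : ∀ d ∈ J, y d = 0 := fun d hdJ => by simpa using hπ _ (hd d hdJ)
    refine ⟨AlgHom.ext fun b => ?_, fun _ => hk⟩
    have := hπ' _ (hr b)
    simp only at this
    rw [hfix y hk] at this
    exact this
  -- (0,2)
  · have hyy : y = y' := AlgHom.ext fun a => hπ _ (hl a)
    refine ⟨hyy, fun _ => ?_⟩
    have hk1 : ∀ d ∈ J, y (Ψ d) = 0 := fun d hdJ => by simpa using hπ' _ (hd d hdJ)
    have hk2 : ∀ a, y (Ψ (Ψ a)) = y a := fun a => by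
      have := hπ' _ (hr a)
      simp only at this
      rw [this, hyy]
    intro d hdJ
    rw [← hk2 d]
    exact hk1 _ (hΨJ d hdJ)
  -- (1,0)
  · have hk : ∀ d ∈ J, y' d = 0 := fun d hdJ => by simpa using (hπ _ (hd d hdJ)).symm
    have hyy : y = y' := AlgHom.ext fun b => by
      have := hπ' _ (hr b)
      simp only at this
      rw [hfix y' hk] at this
      exact this
    exact ⟨hyy, fun _ => hyy ▸ hk⟩
  -- (1,1)
  · exact AlgHom.ext fun b => hπ' _ (hr b)
  -- (1,2)
  · have hyy : y = y' := AlgHom.ext fun b => hπ' _ (hr b)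
    have hk : ∀ d ∈ J, y' d = 0 := fun d hdJ => by simpa using (hπ _ (hd d hdJ)).symm
    exact ⟨hyy, fun _ => hyy ▸ hk⟩
  -- (2,0)
  · have hyy : y = y' := AlgHom.ext fun a => hπ _ (hl a)
    refine ⟨hyy, fun _ => ?_⟩
    have hk1 : ∀ d ∈ J, y' (Ψ d) = 0 := fun d hdJ => by simpa using (hπ' _ (hd d hdJ)).symm
    have hk2 : ∀ a, y' (Ψ (Ψ a)) = y' a := fun a => by
      have := hπ' _ (hr a)
      simp only at this
      rw [← this, hyy]
    intro d hdJ
    rw [hyy, ← hk2 d]
    exact hk1 _ (hΨJ d hdJ)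
  -- (2,1)
  · have hyy : y = y' := AlgHom.ext fun b => hπ' _ (hr b)
    have hk : ∀ d ∈ J, y d = 0 := fun d hdJ => by simpa using hπ _ (hd d hdJ)
    exact ⟨hyy, fun _ => hk⟩
  -- (2,2)
  · exact AlgHom.ext fun a => hπ _ (hl a)

/-- **The hypothesis `hchi` of ROOT-ABS (ABS-3).**  Let `w = (e i (v (c i)))_i` be pulled back from
three functions `v one, v two, v three : C` on the three classes of components.  If the three
functions take the same value at every node `y ∈ V(J)` (L9), then any two `k`-points of the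
normalisation `∏ i, Cn i` which agree on `Bt` agree on `w`. -/
theorem eval_eq_of_not_sep [Fintype ι] [DecidableEq ι] (hJ : fixIdeal Ψ ≤ J)
    (hΨJ : ∀ d ∈ J, Ψ d ∈ J)
    (hA : ∀ z ∈ gluedAlg Ψ J, (fun i => e i (oldA Ψ z (c i))) ∈ Bt)
    (hB : ∀ z ∈ gluedAlg Ψ J, (fun i => e i (oldB Ψ z (c i))) ∈ Bt)
    (v : Cls → C)
    (hv : ∀ y : C →ₐ[k] k, (∀ d ∈ J, y d = 0) →
      y (v .one) = y (v .two) ∧ y (v .two) = y (v .three))
    (χ χ' : (∀ i, Cn i) →ₐ[k] k) (hχ : ∀ b ∈ Bt, χ b = χ' b) :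
    χ (fun i => e i (v (c i))) = χ' (fun i => e i (v (c i))) := by
  obtain ⟨i, x, hx⟩ := exists_eval_factor χ
  obtain ⟨i', x', hx'⟩ := exists_eval_factor χ'
  have hsep : ∀ b ∈ Bt, x (b i) = x' (b i') := fun b hb => by
    rw [← hx, ← hx']; exact hχ b hb
  obtain ⟨hyy, hnode⟩ := sep_of_old Ψ J c e Bt hJ hΨJ hA hB x x' hsep
  rw [hx, hx']
  show (x.comp (e i)) (v (c i)) = (x'.comp (e i')) (v (c i'))
  rw [← hyy]
  by_cases hc : c i = c i'
  · rw [hc]
  · obtain ⟨h12, h23⟩ := hv _ (hnode hc)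
    have hall : ∀ a b : Cls, (x.comp (e i)) (v a) = (x.comp (e i)) (v b) := by
      intro a b
      cases a <;> cases b <;>
        first
          | rfl
          | exact h12
          | exact h12.symm
          | exact h23
          | exact h23.symm
          | exact h12.trans h23
          | exact (h12.trans h23).symm
    exact hall _ _

end Sep

end Fermat.Agent.GL.Fibre.SepOld
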