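import Fermat.Agent.GL.Loc.XiOfBranch
import Fermat.Agent.GL.Fibre.RegRedRing
import Fermat.Agent.GL.Gate.H4OfXi
import Fermat.Agent.GL.Frame.LocDispatch

/-!
# GATE-L / the type-III contract `hIII` of the (LOC) dispatcher from a `TripleSetup` (helper29)

`Bf : Subring F` a frame (noetherian normal, `Frac Bf = F`), `S : H4OfXi.TripleSetup … ↥Bf T T'`
the triple-point record whose chart ring is `Bf`, `C` the coordinate ring of the lower level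
(`CRing M' A`), `Ψ` its Frobenius twist, `c_i : C →+* k_i` the embeddings of `C` in the three
residue fields (`cVal`, `cVal`, `cVal3`).

* `rho_eq_zero_iff` : a ring hom `ρ : V →+* κ` to a field killing the non-units of the valuation
  subring `V` has kernel exactly the non-units;
* `exists_rd_eq` : an element of `Bf` whose three reductions are `c_i x_i` defines an element of
  `subB2 Bf Bs` with `rd = (x₁, x₂, x₃)`;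
* **`hIII_of_setup`** : the `hIII` binder of `LocDispatch.exists_locAt_all` /
  `JFrameDispatch.hall_of_dispatch` VERBATIM (`B12 := ⊤`) from `H4OfXi.U3 S m u`; every concrete
  input is ONE named hypothesis.
-/

set_option autoImplicit false

namespace Fermat.Agent.GL.TypeIIIOfSetup

open Fermat.Agent.GK.FrobGlue Fermat.Agent.GL.FrobGlue3 Fermat.Agent.GL.LocToCech
  Fermat.Agent.GL.LocGlue Fermat.Agent.GL.CompBranch Fermat.Agent.GL.H4OfXi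
  Fermat.Agent.GL.Frame.HeightOne

/-- a ring hom from a valuation subring to a field which kills the non-units has kernel exactly
the non-units. -/
theorem rho_eq_zero_iff {F κ : Type*} [Field F] [Field κ] (V : ValuationSubring F) (ρ : V →+* κ)
    (hr : ∀ z : V, ¬ IsUnit z → ρ z = 0) (x : V) : ρ x = 0 ↔ (x : F) ∈ V.nonunits := by
  rw [ValuationSubring.coe_mem_nonunits_iff, IsLocalRing.mem_maximalIdeal, mem_nonunits_iff]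
  constructor
  · intro h0 hu
    have := hu.map ρ
    rw [h0] at this
    exact not_isUnit_zero this
  · exact hr x

/-- evaluation at equal points. -/
theorem eval_congr {κ k : Type*} [Field κ] [Field k] (U : ValuationSubring κ) (e : U →+* k)
    {y y' : κ} (h : y = y') (hy : y ∈ U) (hy' : y' ∈ U) : e ⟨y, hy⟩ = e ⟨y', hy'⟩ := by
  subst h
  rfl

/-! ### root-closedness only on the residue fields `ρ_i (V_i)` -/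

section Root

variable {F : Type*} [Field F] {V1 V2 V3 : ValuationSubring F}
  {κ1 κ2 κ3 : Type*} [CommRing κ1] [CommRing κ2] [CommRing κ3]
  {ρ1 : V1 →+* κ1} {ρ2 : V2 →+* κ2} {ρ3 : V3 →+* κ3}
  {C : Type*} [CommRing C] {c1 : C →+* κ1} {c2 : C →+* κ2} {c3 : C →+* κ3}
  {m : ℕ} (hm : m ≠ 0)
  (hroot1 : ∀ z : V1, ρ1 z ^ m ∈ c1.range → ρ1 z ∈ c1.range)
  (hroot2 : ∀ z : V2, ρ2 z ^ m ∈ c2.range → ρ2 z ∈ c2.range)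
  (hroot3 : ∀ z : V3, ρ3 z ^ m ∈ c3.range → ρ3 z ∈ c3.range)

include hm hroot1 hroot2 hroot3 in
/-- `RegRedRing.mem_Bs_of_pow_mem` with root-closedness asked only on the images `ρ_i (V_i)` (the
true residue fields, possibly smaller than the ambient `κ_i`). -/
theorem mem_Bs_of_pow_mem' {z : F} (hz : z ^ m ∈ RegRedRing.Bs V1 V2 V3 ρ1 ρ2 ρ3 c1 c2 c3) :
    z ∈ RegRedRing.Bs V1 V2 V3 ρ1 ρ2 ρ3 c1 c2 c3 := by
  obtain ⟨h1, h2, h3, hr1, hr2, hr3⟩ := hz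
  have z1 := RegRedRing.mem_valuationSubring_of_pow_mem V1 hm h1
  have z2 := RegRedRing.mem_valuationSubring_of_pow_mem V2 hm h2
  have z3 := RegRedRing.mem_valuationSubring_of_pow_mem V3 hm h3
  refine ⟨z1, z2, z3, hroot1 _ ?_, hroot2 _ ?_, hroot3 _ ?_⟩
  · rw [← map_pow]
    exact hr1
  · rw [← map_pow]
    exact hr2
  · rw [← map_pow]
    exact hr3

variable (hρ1 : ∀ x : V1, ρ1 x = 0 ↔ (x : F) ∈ V1.nonunits)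
  (hρ2 : ∀ x : V2, ρ2 x = 0 ↔ (x : F) ∈ V2.nonunits)
  (hρ3 : ∀ x : V3, ρ3 x = 0 ↔ (x : F) ∈ V3.nonunits)

include hm hroot1 hroot2 hroot3 hρ1 hρ2 hρ3 in
/-- `RegRedRing.mem_Bs_of_pow_mul_eq` with root-closedness asked only on `ρ_i (V_i)`. -/
theorem mem_Bs_of_pow_mul_eq' {g u c : F} (hu1 : u - 1 ∈ V1.nonunits)
    (hu2 : u - 1 ∈ V2.nonunits) (hu3 : u - 1 ∈ V3.nonunits)
    (hc : c ∈ RegRedRing.Bs V1 V2 V3 ρ1 ρ2 ρ3 c1 c2 c3) (hgc : g ^ m * u = c) :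
    g ∈ RegRedRing.Bs V1 V2 V3 ρ1 ρ2 ρ3 c1 c2 c3 ∧
      g ^ m - c ∈ V1.nonunits ∧ g ^ m - c ∈ V2.nonunits ∧ g ^ m - c ∈ V3.nonunits := by
  obtain ⟨hc1, hc2, hc3, hr1, hr2, hr3⟩ := hc
  obtain ⟨h1, e1, n1⟩ := RegRedRing.pow_mem_of_pow_mul_eq V1 ρ1 hρ1 hu1 hc1 hgc
  obtain ⟨h2, e2, n2⟩ := RegRedRing.pow_mem_of_pow_mul_eq V2 ρ2 hρ2 hu2 hc2 hgc
  obtain ⟨h3, e3, n3⟩ := RegRedRing.pow_mem_of_pow_mul_eq V3 ρ3 hρ3 hu3 hc3 hgc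
  refine ⟨mem_Bs_of_pow_mem' hm hroot1 hroot2 hroot3 ⟨h1, h2, h3, ?_, ?_, ?_⟩, n1, n2, n3⟩
  · rw [e1]; exact hr1
  · rw [e2]; exact hr2
  · rw [e3]; exact hr3

end Root

section Main

variable {F E k k1 k2 k3 k1' k2' T T' : Type*} [Field F] [Field E] [Field k]
  [Field k1] [Field k2] [Field k3] [Field k1'] [Field k2']
  {Bf : Subring F}
  (S : TripleSetup F E k k1 k2 k3 k1' k2' Bf T T')
  {C : Type*} [CommRing C]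
  (c1 : C →+* k1) (c2 : C →+* k2) (c3 : C →+* k3)
  (hc1 : Function.Injective c1) (hc2 : Function.Injective c2) (hc3 : Function.Injective c3)

/-- the regular ring `Bs` of `RegRedRing` at the setup `S`. -/
abbrev BsS : Subring F :=
  RegRedRing.Bs S.W1 S.W2 S.W3 S.rd1 S.rd2 S.rd3 c1 c2 c3

/-- the reduction `rd : Bs →+* C × C × C` at the setup `S`. -/
noncomputable abbrev rdS : BsS S c1 c2 c3 →+* C × C × C :=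
  RegRedRing.rd S.W1 S.W2 S.W3 S.rd1 S.rd2 S.rd3 c1 c2 c3 hc1 hc2 hc3

/-- an element of `F` in the three valuation rings whose reductions are `c_i x_i` is an element
of `Bs` with `rd = (x₁, x₂, x₃)`. -/
theorem exists_rd_eq {z : F} (h1 : z ∈ S.W1) (h2 : z ∈ S.W2) (h3 : z ∈ S.W3) {x1 x2 x3 : C}
    (e1 : S.rd1 ⟨z, h1⟩ = c1 x1) (e2 : S.rd2 ⟨z, h2⟩ = c2 x2) (e3 : S.rd3 ⟨z, h3⟩ = c3 x3) :
    ∃ hz : z ∈ BsS S c1 c2 c3, rdS S c1 c2 c3 hc1 hc2 hc3 ⟨z, hz⟩ = (x1, x2, x3) := by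
  have hz : z ∈ BsS S c1 c2 c3 := ⟨h1, h2, h3, ⟨x1, e1.symm⟩, ⟨x2, e2.symm⟩, ⟨x3, e3.symm⟩⟩
  refine ⟨hz, ?_⟩
  rw [RegRedRing.rd_apply]
  refine Prod.ext ?_ (Prod.ext ?_ ?_)
  · apply hc1
    rw [RegRedRing.c1_red1]
    exact e1
  · apply hc2
    rw [RegRedRing.c2_red2]
    exact e2
  · apply hc3
    rw [RegRedRing.c3_red3]
    exact e3

end Main

section Arm

variable {F E k k1 k2 k3 k1' k2' T T' : Type*} [Field F] [Field E] [Field k]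
  [Field k1] [Field k2] [Field k3] [Field k1'] [Field k2']
  {Bf : Subring F} [IsFractionRing Bf F] [IsNoetherianRing Bf] [IsIntegrallyClosed Bf]
  (S : TripleSetup F E k k1 k2 k3 k1' k2' Bf T T')
  {C : Type*} [CommRing C] [Algebra k C] (Ψ : C →ₐ[k] C)
  (c1 : C →+* k1) (c2 : C →+* k2) (c3 : C →+* k3)
  (hc1 : Function.Injective c1) (hc2 : Function.Injective c2) (hc3 : Function.Injective c3)

include hc1 hc2 hc3 in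
/-- **(LOC-III) at the triple point `S.P n` from the `U3` datum** (conductor route), ambient ring
`⊤`. -/
theorem locAt_of_U3
    [IsAlgClosed k] [Algebra.FiniteType k C] [Module.Finite k (C ⧸ fixIdeal Ψ ^ 2)]
    (hB1 : ∀ (b : Bf) (h : (b : F) ∈ S.W1), S.rd1 ⟨b, h⟩ ∈ c1.range)
    (hB2 : ∀ (b : Bf) (h : (b : F) ∈ S.W2), S.rd2 ⟨b, h⟩ ∈ c2.range)
    (hB3 : ∀ (b : Bf) (h : (b : F) ∈ S.W3), S.rd3 ⟨b, h⟩ ∈ c3.range)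
    (hold0 : ∀ c : C, ∃ (b : Bf) (h1 : (b : F) ∈ S.W1) (h2 : (b : F) ∈ S.W2)
      (h3 : (b : F) ∈ S.W3), S.rd1 ⟨b, h1⟩ = c1 c ∧ S.rd2 ⟨b, h2⟩ = c2 (Ψ (Ψ c)) ∧
        S.rd3 ⟨b, h3⟩ = c3 c)
    (hold1 : ∀ c : C, ∃ (b : Bf) (h1 : (b : F) ∈ S.W1) (h2 : (b : F) ∈ S.W2)
      (h3 : (b : F) ∈ S.W3), S.rd1 ⟨b, h1⟩ = c1 (Ψ c) ∧ S.rd2 ⟨b, h2⟩ = c2 (Ψ c) ∧
        S.rd3 ⟨b, h3⟩ = c3 (Ψ c))
    (hold2 : ∀ c : C, ∃ (b : Bf) (h1 : (b : F) ∈ S.W1) (h2 : (b : F) ∈ S.W2)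
      (h3 : (b : F) ∈ S.W3), S.rd1 ⟨b, h1⟩ = c1 (Ψ (Ψ c)) ∧ S.rd2 ⟨b, h2⟩ = c2 c ∧
        S.rd3 ⟨b, h3⟩ = c3 c)
    (hconst : ∀ a : k, ∃ (b : Bf) (h1 : (b : F) ∈ S.W1) (h2 : (b : F) ∈ S.W2)
      (h3 : (b : F) ∈ S.W3), S.rd1 ⟨b, h1⟩ = c1 (algebraMap k C a) ∧
        S.rd2 ⟨b, h2⟩ = c2 (algebraMap k C a) ∧ S.rd3 ⟨b, h3⟩ = c3 (algebraMap k C a))
    {m : ℕ} (hm : (m : k) ≠ 0)
    (hroot1 : ∀ z : S.W1, S.rd1 z ^ m ∈ c1.range → S.rd1 z ∈ c1.range)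
    (hroot2 : ∀ z : S.W2, S.rd2 z ^ m ∈ c2.range → S.rd2 z ∈ c2.range)
    (hroot3 : ∀ z : S.W3, S.rd3 z ^ m ∈ c3.range → S.rd3 z ∈ c3.range)
    (n : T) (ψ1 ψ2 ψ3 : C →ₐ[k] k)
    (hψ1 : ∀ c : C, ∃ h : c1 c ∈ S.U1 n, S.e1 n ⟨c1 c, h⟩ = ψ1 c)
    (hψ2 : ∀ c : C, ∃ h : c2 c ∈ S.U2 n, S.e2 n ⟨c2 c, h⟩ = ψ2 c)
    (hψ3 : ∀ c : C, ∃ h : c3 c ∈ S.U3 n, S.e3 n ⟨c3 c, h⟩ = ψ3 c)
    (vert : Finset (HtOne Bf))
    (hvert : ∀ j ∈ vert, V1 F j = S.W1 ∨ V1 F j = S.W2 ∨ V1 F j = S.W3)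
    {u : F} (hU3 : U3 S m u) :
    ∃ g ∈ (⊤ : Subring F), g ^ m * u ∈ Bf ∧ LocAt (V1 (B := Bf) F) Bf ⊤ vert (S.P n) g := by
  classical
  have hm0 : m ≠ 0 := by
    rintro rfl
    exact hm Nat.cast_zero
  have hρ1 := rho_eq_zero_iff S.W1 S.rd1 S.hr1
  have hρ2 := rho_eq_zero_iff S.W2 S.rd2 S.hr2
  have hρ3 := rho_eq_zero_iff S.W3 S.rd3 S.hr3
  -- the frame lies in the three valuation rings
  have hW1 : ∀ b : Bf, (b : F) ∈ S.W1 := fun b => comp_le _ _ _ _ (S.hB1 n b)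
  have hW2 : ∀ b : Bf, (b : F) ∈ S.W2 := fun b => comp_le _ _ _ _ (S.hB2 n b)
  have hW3 : ∀ b : Bf, (b : F) ∈ S.W3 := fun b => comp_le _ _ _ _ (S.hB3 n b)
  have hBfs : Bf ≤ BsS S c1 c2 c3 := fun z hz =>
    ⟨hW1 ⟨z, hz⟩, hW2 ⟨z, hz⟩, hW3 ⟨z, hz⟩, hB1 ⟨z, hz⟩ _, hB2 ⟨z, hz⟩ _, hB3 ⟨z, hz⟩ _⟩
  set Bs : Subring F := BsS S c1 c2 c3 with hBsdef
  set rd : Bs →+* C × C × C := rdS S c1 c2 c3 hc1 hc2 hc3 with hrddef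
  -- lifting triples
  have hlift : ∀ (b : Bf) (h1 : (b : F) ∈ S.W1) (h2 : (b : F) ∈ S.W2) (h3 : (b : F) ∈ S.W3)
      (x1 x2 x3 : C), S.rd1 ⟨b, h1⟩ = c1 x1 → S.rd2 ⟨b, h2⟩ = c2 x2 → S.rd3 ⟨b, h3⟩ = c3 x3 →
      ∃ z ∈ subB2 Bf Bs, rd z = (x1, x2, x3) := by
    intro b h1 h2 h3 x1 x2 x3 e1 e2 e3
    obtain ⟨hz, hrd⟩ := exists_rd_eq S c1 c2 c3 hc1 hc2 hc3 h1 h2 h3 e1 e2 e3
    exact ⟨⟨(b : F), hz⟩, b.2, hrd⟩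
  have hconst' : ∀ a : k, ∃ z ∈ subB2 Bf Bs, rd z = algebraMap k (C × C × C) a := by
    intro a
    obtain ⟨b, h1, h2, h3, e1, e2, e3⟩ := hconst a
    exact hlift b h1 h2 h3 _ _ _ e1 e2 e3
  set R : Subalgebra k (C × C × C) := RegRedRing.imageAlg rd (subB2 Bf Bs) hconst' with hRdef
  have h0 : ∀ f, ((f, Ψ (Ψ f), f) : C × C × C) ∈ R := by
    intro f
    obtain ⟨b, h1, h2, h3, e1, e2, e3⟩ := hold0 f
    exact hlift b h1 h2 h3 _ _ _ e1 e2 e3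
  have h1 : ∀ f, ((Ψ f, Ψ f, Ψ f) : C × C × C) ∈ R := by
    intro f
    obtain ⟨b, h1, h2, h3, e1, e2, e3⟩ := hold1 f
    exact hlift b h1 h2 h3 _ _ _ e1 e2 e3
  have h2 : ∀ f, ((Ψ (Ψ f), f, f) : C × C × C) ∈ R := by
    intro f
    obtain ⟨b, h1, h2, h3, e1, e2, e3⟩ := hold2 f
    exact hlift b h1 h2 h3 _ _ _ e1 e2 e3
  -- the three branch values
  have hev1 : ∀ z : Bs, (branch S.W1 S.rd1 S.hr1 (S.U1 n) (S.e1 n)).ev (z : F) = ψ1 (rd z).1 := by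
    intro z
    obtain ⟨hU, he⟩ := hψ1 (rd z).1
    have hc : S.rd1 ⟨(z : F), RegRedRing.mem_V1 z.2⟩ = c1 (rd z).1 :=
      (RegRedRing.c1_red1 S.W1 S.W2 S.W3 S.rd1 S.rd2 S.rd3 c1 c2 c3 hc1 z).symm
    rw [branch_ev S.W1 S.rd1 S.hr1 (S.U1 n) (S.e1 n) (RegRedRing.mem_V1 z.2) (hc ▸ hU), ← he]
    exact eval_congr _ _ hc _ _
  have hev2 : ∀ z : Bs,
      (branch S.W2 S.rd2 S.hr2 (S.U2 n) (S.e2 n)).ev (z : F) = ψ2 (rd z).2.1 := by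
    intro z
    obtain ⟨hU, he⟩ := hψ2 (rd z).2.1
    have hc : S.rd2 ⟨(z : F), RegRedRing.mem_V2 z.2⟩ = c2 (rd z).2.1 :=
      (RegRedRing.c2_red2 S.W1 S.W2 S.W3 S.rd1 S.rd2 S.rd3 c1 c2 c3 hc2 z).symm
    rw [branch_ev S.W2 S.rd2 S.hr2 (S.U2 n) (S.e2 n) (RegRedRing.mem_V2 z.2) (hc ▸ hU), ← he]
    exact eval_congr _ _ hc _ _
  have hev3 : ∀ z : Bs,
      (branch S.W3 S.rd3 S.hr3 (S.U3 n) (S.e3 n)).ev (z : F) = ψ3 (rd z).2.2 := by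
    intro z
    obtain ⟨hU, he⟩ := hψ3 (rd z).2.2
    have hc : S.rd3 ⟨(z : F), RegRedRing.mem_V3 z.2⟩ = c3 (rd z).2.2 :=
      (RegRedRing.c3_red3 S.W1 S.W2 S.W3 S.rd1 S.rd2 S.rd3 c1 c2 c3 hc3 z).symm
    rw [branch_ev S.W3 S.rd3 S.hr3 (S.U3 n) (S.e3 n) (RegRedRing.mem_V3 z.2) (hc ▸ hU), ← he]
    exact eval_congr _ _ hc _ _
  -- the `U3` datum
  obtain ⟨⟨⟨u1, hu1⟩, ⟨u2, hu2⟩, ⟨u3, hu3⟩⟩, g, c, hgc, hcP, hb⟩ := hU3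
  obtain ⟨b0, -, hξ1, hξ2, hξ3⟩ := hb n
  have hun1 : u - 1 ∈ S.W1.nonunits := by
    have : S.rd1 (⟨u, u1⟩ - 1) = 0 := by rw [map_sub, hu1, map_one, sub_self]
    exact (hρ1 _).1 this
  have hun2 : u - 1 ∈ S.W2.nonunits := by
    have : S.rd2 (⟨u, u2⟩ - 1) = 0 := by rw [map_sub, hu2, map_one, sub_self]
    exact (hρ2 _).1 this
  have hun3 : u - 1 ∈ S.W3.nonunits := by
    have : S.rd3 (⟨u, u3⟩ - 1) = 0 := by rw [map_sub, hu3, map_one, sub_self]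
    exact (hρ3 _).1 this
  have hcBs : (c : F) ∈ Bs := hBfs c.2
  obtain ⟨hgBs, hg1, hg2, hg3⟩ :=
    mem_Bs_of_pow_mul_eq' (V1 := S.W1) (V2 := S.W2) (V3 := S.W3) (ρ1 := S.rd1)
      (ρ2 := S.rd2) (ρ3 := S.rd3) (c1 := c1) (c2 := c2) (c3 := c3) hm0 hroot1 hroot2 hroot3
      hρ1 hρ2 hρ3 hun1 hun2 hun3 hcBs hgc
  refine ⟨g, Subring.mem_top g, ?_, ?_⟩
  · rw [hgc]
    exact c.2
  · have : (S.P n).IsMaximal := S.hmax n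
    let w : subB2 Bf Bs := ⟨⟨(c : F), hcBs⟩, c.2⟩
    let b₀ : subB2 Bf Bs := ⟨⟨(b0 : F), hBfs b0.2⟩, b0.2⟩
    have hsmall : ∀ z : Bs, rd z = 0 → ∀ j ∈ vert, (z : F) ∈ (V1 F j).nonunits := by
      intro z hz j hj
      have h3 := (RegRedRing.rd_eq_zero_iff S.W1 S.W2 S.W3 S.rd1 S.rd2 S.rd3 c1 c2 c3 hc1 hc2 hc3
        hρ1 hρ2 hρ3 z).1 hz
      rcases hvert j hj with h | h | h
      · rw [h]; exact h3.1
      · rw [h]; exact h3.2.1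
      · rw [h]; exact h3.2.2
    have hgw : (⟨g, hgBs⟩ : Bs) ^ m - (w : Bs) ∈ RingHom.ker rd := by
      rw [RingHom.mem_ker]
      exact (RegRedRing.rd_eq_zero_iff S.W1 S.W2 S.W3 S.rd1 S.rd2 S.rd3 c1 c2 c3 hc1 hc2 hc3
        hρ1 hρ2 hρ3 _).2 ⟨hg1, hg2, hg3⟩
    have hw : w ∉ comapIdeal Bs (S.P n) := fun h => hcP n h
    exact Fermat.Agent.GL.XiOfBranch.locAt_of_branch (V1 (B := Bf) F) vert Ψ R h0 h1 h2
      Bf Bs ⊤ hBfs le_top (S.P n) rd hsmall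
      (RegRedRing.mem_imageAlg_of_mem rd (subB2 Bf Bs) hconst')
      (fun r hr => RegRedRing.exists_of_mem_imageAlg rd (subB2 Bf Bs) hconst' hr)
      (S.χ n) (fun b hb => (S.hχker n b).1 hb) ψ1 ψ2 ψ3
      (fun b => by rw [← hev1 (b : Bs)]; exact S.hχ1 n (toB2 Bf Bs b))
      (fun b => by rw [← hev2 (b : Bs)]; exact S.hχ2 n (toB2 Bf Bs b))
      (fun b => by rw [← hev3 (b : Bs)]; exact S.hχ3 n (toB2 Bf Bs b))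
      (comp S.W1 S.rd1 S.hr1 (S.U1 n)) (comp S.W2 S.rd2 S.hr2 (S.U2 n))
      (comp S.W3 S.rd3 S.hr3 (S.U3 n))
      (fun z hz => by
        rw [← hev1 z]
        exact Fermat.Agent.GL.XiOfBranch.ev_eq_zero_of_mem_nonunits _ _ _ _ _ (S.heu1 n) hz)
      (fun z hz => by
        rw [← hev2 z]
        exact Fermat.Agent.GL.XiOfBranch.ev_eq_zero_of_mem_nonunits _ _ _ _ _ (S.heu2 n) hz)
      (fun z hz => by
        rw [← hev3 z]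
        exact Fermat.Agent.GL.XiOfBranch.ev_eq_zero_of_mem_nonunits _ _ _ _ _ (S.heu3 n) hz)
      hm (g := ⟨g, hgBs⟩) (w := w) hw hgw (b₀ := b₀) hξ1 hξ2 hξ3

include hc1 hc2 hc3 in
/-- **the `hIII` binder of `LocDispatch.exists_locAt_all` / `JFrameDispatch.hall_of_dispatch`
VERBATIM** (ambient ring `⊤`) from the `U3` datum at the setup `S`.  `hclass` = the
classification of the points of the special fibre through which two vertical components pass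
(`ClassifySS`): they are the triple points `S.P n`. -/
theorem hIII_of_setup
    [IsAlgClosed k] [Algebra.FiniteType k C] [Module.Finite k (C ⧸ fixIdeal Ψ ^ 2)]
    (hB1 : ∀ (b : Bf) (h : (b : F) ∈ S.W1), S.rd1 ⟨b, h⟩ ∈ c1.range)
    (hB2 : ∀ (b : Bf) (h : (b : F) ∈ S.W2), S.rd2 ⟨b, h⟩ ∈ c2.range)
    (hB3 : ∀ (b : Bf) (h : (b : F) ∈ S.W3), S.rd3 ⟨b, h⟩ ∈ c3.range)
    (hold0 : ∀ c : C, ∃ (b : Bf) (h1 : (b : F) ∈ S.W1) (h2 : (b : F) ∈ S.W2)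
      (h3 : (b : F) ∈ S.W3), S.rd1 ⟨b, h1⟩ = c1 c ∧ S.rd2 ⟨b, h2⟩ = c2 (Ψ (Ψ c)) ∧
        S.rd3 ⟨b, h3⟩ = c3 c)
    (hold1 : ∀ c : C, ∃ (b : Bf) (h1 : (b : F) ∈ S.W1) (h2 : (b : F) ∈ S.W2)
      (h3 : (b : F) ∈ S.W3), S.rd1 ⟨b, h1⟩ = c1 (Ψ c) ∧ S.rd2 ⟨b, h2⟩ = c2 (Ψ c) ∧
        S.rd3 ⟨b, h3⟩ = c3 (Ψ c))
    (hold2 : ∀ c : C, ∃ (b : Bf) (h1 : (b : F) ∈ S.W1) (h2 : (b : F) ∈ S.W2)
      (h3 : (b : F) ∈ S.W3), S.rd1 ⟨b, h1⟩ = c1 (Ψ (Ψ c)) ∧ S.rd2 ⟨b, h2⟩ = c2 c ∧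
        S.rd3 ⟨b, h3⟩ = c3 c)
    (hconst : ∀ a : k, ∃ (b : Bf) (h1 : (b : F) ∈ S.W1) (h2 : (b : F) ∈ S.W2)
      (h3 : (b : F) ∈ S.W3), S.rd1 ⟨b, h1⟩ = c1 (algebraMap k C a) ∧
        S.rd2 ⟨b, h2⟩ = c2 (algebraMap k C a) ∧ S.rd3 ⟨b, h3⟩ = c3 (algebraMap k C a))
    {m : ℕ} (hm : (m : k) ≠ 0)
    (hroot1 : ∀ z : S.W1, S.rd1 z ^ m ∈ c1.range → S.rd1 z ∈ c1.range)
    (hroot2 : ∀ z : S.W2, S.rd2 z ^ m ∈ c2.range → S.rd2 z ∈ c2.range)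
    (hroot3 : ∀ z : S.W3, S.rd3 z ^ m ∈ c3.range → S.rd3 z ∈ c3.range)
    (ψ1 ψ2 ψ3 : T → C →ₐ[k] k)
    (hψ1 : ∀ n (c : C), ∃ h : c1 c ∈ S.U1 n, S.e1 n ⟨c1 c, h⟩ = ψ1 n c)
    (hψ2 : ∀ n (c : C), ∃ h : c2 c ∈ S.U2 n, S.e2 n ⟨c2 c, h⟩ = ψ2 n c)
    (hψ3 : ∀ n (c : C), ∃ h : c3 c ∈ S.U3 n, S.e3 n ⟨c3 c, h⟩ = ψ3 n c)
    (vert : Finset (HtOne Bf))
    (hvert : ∀ j ∈ vert, V1 F j = S.W1 ∨ V1 F j = S.W2 ∨ V1 F j = S.W3)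
    (hclass : ∀ 𝔫 : Ideal Bf, 𝔫.IsMaximal → ∀ i ∈ vert, ∀ j ∈ vert, i ≠ j → i.1 ≤ 𝔫 → j.1 ≤ 𝔫 →
      ∃ n : T, 𝔫 = S.P n)
    {u : F} (hU3 : U3 S m u) :
    ∀ 𝔫 : Ideal Bf, 𝔫.IsMaximal → ∀ i ∈ vert, ∀ j ∈ vert, i ≠ j → i.1 ≤ 𝔫 → j.1 ≤ 𝔫 →
      ∃ g ∈ (⊤ : Subring F), g ^ m * u ∈ Bf ∧ LocAt (V1 (B := Bf) F) Bf ⊤ vert 𝔫 g := by
  intro 𝔫 h𝔫 i hi j hj hij hi𝔫 hj𝔫
  obtain ⟨n, rfl⟩ := hclass 𝔫 h𝔫 i hi j hj hij hi𝔫 hj𝔫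
  exact locAt_of_U3 S Ψ c1 c2 c3 hc1 hc2 hc3 hB1 hB2 hB3 hold0 hold1 hold2 hconst hm
    hroot1 hroot2 hroot3 n (ψ1 n) (ψ2 n) (ψ3 n) (hψ1 n) (hψ2 n) (hψ3 n) vert hvert hU3

end Arm

/-! ### the branch characters from the evaluations of `S` -/

section Psi

variable {k κ C : Type*} [Field k] [Field κ] [CommRing C] [Algebra k C]

/-- the character `c ↦ e (c x)` of `C` at a branch `(U, e)` of the residue field `κ` containing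
the image of `C`, `k`-linear when `e` is the identity on the constants. -/
noncomputable def psiOf (U : ValuationSubring κ) (e : U →+* k) (c : C →+* κ)
    (hU : ∀ x : C, c x ∈ U) (hk : ∀ a : k, e ⟨c (algebraMap k C a), hU _⟩ = a) : C →ₐ[k] k :=
  { e.comp (c.codRestrict U.toSubring hU) with
    commutes' := hk }

theorem psiOf_apply (U : ValuationSubring κ) (e : U →+* k) (c : C →+* κ)
    (hU : ∀ x : C, c x ∈ U) (hk : ∀ a : k, e ⟨c (algebraMap k C a), hU _⟩ = a) (x : C) :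
    psiOf U e c hU hk x = e ⟨c x, hU x⟩ := rfl

/-- the `hψ` binder of `hIII_of_setup` for `psiOf`. -/
theorem exists_psiOf_eq (U : ValuationSubring κ) (e : U →+* k) (c : C →+* κ)
    (hU : ∀ x : C, c x ∈ U) (hk : ∀ a : k, e ⟨c (algebraMap k C a), hU _⟩ = a) (x : C) :
    ∃ h : c x ∈ U, e ⟨c x, h⟩ = psiOf U e c hU hk x := ⟨hU x, rfl⟩

end Psi

/-! ### consumer form: characters from `S`, vertical primes listed by a family `W` -/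

section Consumer

variable {F E k k1 k2 k3 k1' k2' T T' : Type*} [Field F] [Field E] [Field k]
  [Field k1] [Field k2] [Field k3] [Field k1'] [Field k2']
  {Bf : Subring F} [IsFractionRing Bf F] [IsNoetherianRing Bf] [IsIntegrallyClosed Bf]
  (S : TripleSetup F E k k1 k2 k3 k1' k2' Bf T T')
  {C : Type*} [CommRing C] [Algebra k C] (Ψ : C →ₐ[k] C)
  (c1 : C →+* k1) (c2 : C →+* k2) (c3 : C →+* k3)
  (hc1 : Function.Injective c1) (hc2 : Function.Injective c2) (hc3 : Function.Injective c3)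

include hc1 hc2 hc3 in
/-- **`hIII` from `S` alone**: the branch characters are `psiOf (S.U_i n) (S.e_i n) c_i`
(`hCU_i` : the coordinate ring lies in the branch valuation rings; `hek_i` : the evaluations are
the identity on the constants), the vertical primes are listed by a family `W` of valuation
subrings among `S.W1, S.W2, S.W3` (`FrameInst.exists_eq_of_mem_vertFinset`). -/
theorem hIII_of_setup'
    [IsAlgClosed k] [Algebra.FiniteType k C] [Module.Finite k (C ⧸ fixIdeal Ψ ^ 2)]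
    (hB1 : ∀ (b : Bf) (h : (b : F) ∈ S.W1), S.rd1 ⟨b, h⟩ ∈ c1.range)
    (hB2 : ∀ (b : Bf) (h : (b : F) ∈ S.W2), S.rd2 ⟨b, h⟩ ∈ c2.range)
    (hB3 : ∀ (b : Bf) (h : (b : F) ∈ S.W3), S.rd3 ⟨b, h⟩ ∈ c3.range)
    (hold0 : ∀ c : C, ∃ (b : Bf) (h1 : (b : F) ∈ S.W1) (h2 : (b : F) ∈ S.W2)
      (h3 : (b : F) ∈ S.W3), S.rd1 ⟨b, h1⟩ = c1 c ∧ S.rd2 ⟨b, h2⟩ = c2 (Ψ (Ψ c)) ∧
        S.rd3 ⟨b, h3⟩ = c3 c)
    (hold1 : ∀ c : C, ∃ (b : Bf) (h1 : (b : F) ∈ S.W1) (h2 : (b : F) ∈ S.W2)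
      (h3 : (b : F) ∈ S.W3), S.rd1 ⟨b, h1⟩ = c1 (Ψ c) ∧ S.rd2 ⟨b, h2⟩ = c2 (Ψ c) ∧
        S.rd3 ⟨b, h3⟩ = c3 (Ψ c))
    (hold2 : ∀ c : C, ∃ (b : Bf) (h1 : (b : F) ∈ S.W1) (h2 : (b : F) ∈ S.W2)
      (h3 : (b : F) ∈ S.W3), S.rd1 ⟨b, h1⟩ = c1 (Ψ (Ψ c)) ∧ S.rd2 ⟨b, h2⟩ = c2 c ∧
        S.rd3 ⟨b, h3⟩ = c3 c)
    (hconst : ∀ a : k, ∃ (b : Bf) (h1 : (b : F) ∈ S.W1) (h2 : (b : F) ∈ S.W2)
      (h3 : (b : F) ∈ S.W3), S.rd1 ⟨b, h1⟩ = c1 (algebraMap k C a) ∧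
        S.rd2 ⟨b, h2⟩ = c2 (algebraMap k C a) ∧ S.rd3 ⟨b, h3⟩ = c3 (algebraMap k C a))
    {m : ℕ} (hm : (m : k) ≠ 0)
    (hroot1 : ∀ z : S.W1, S.rd1 z ^ m ∈ c1.range → S.rd1 z ∈ c1.range)
    (hroot2 : ∀ z : S.W2, S.rd2 z ^ m ∈ c2.range → S.rd2 z ∈ c2.range)
    (hroot3 : ∀ z : S.W3, S.rd3 z ^ m ∈ c3.range → S.rd3 z ∈ c3.range)
    (hCU1 : ∀ n (c : C), c1 c ∈ S.U1 n) (hCU2 : ∀ n (c : C), c2 c ∈ S.U2 n)
    (hCU3 : ∀ n (c : C), c3 c ∈ S.U3 n)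
    (hek1 : ∀ n (a : k), S.e1 n ⟨c1 (algebraMap k C a), hCU1 n _⟩ = a)
    (hek2 : ∀ n (a : k), S.e2 n ⟨c2 (algebraMap k C a), hCU2 n _⟩ = a)
    (hek3 : ∀ n (a : k), S.e3 n ⟨c3 (algebraMap k C a), hCU3 n _⟩ = a)
    (vert : Finset (HtOne Bf)) {ι : Type*} (W : ι → ValuationSubring F)
    (hW : ∀ i, W i = S.W1 ∨ W i = S.W2 ∨ W i = S.W3)
    (hvert : ∀ p ∈ vert, ∃ i, V1 F p = W i)
    (hclass : ∀ 𝔫 : Ideal Bf, 𝔫.IsMaximal → ∀ i ∈ vert, ∀ j ∈ vert, i ≠ j → i.1 ≤ 𝔫 → j.1 ≤ 𝔫 →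
      ∃ n : T, 𝔫 = S.P n)
    {u : F} (hU3 : U3 S m u) :
    ∀ 𝔫 : Ideal Bf, 𝔫.IsMaximal → ∀ i ∈ vert, ∀ j ∈ vert, i ≠ j → i.1 ≤ 𝔫 → j.1 ≤ 𝔫 →
      ∃ g ∈ (⊤ : Subring F), g ^ m * u ∈ Bf ∧ LocAt (V1 (B := Bf) F) Bf ⊤ vert 𝔫 g :=
  hIII_of_setup S Ψ c1 c2 c3 hc1 hc2 hc3 hB1 hB2 hB3 hold0 hold1 hold2 hconst hm
    hroot1 hroot2 hroot3
    (fun n => psiOf (S.U1 n) (S.e1 n) c1 (hCU1 n) (hek1 n))
    (fun n => psiOf (S.U2 n) (S.e2 n) c2 (hCU2 n) (hek2 n))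
    (fun n => psiOf (S.U3 n) (S.e3 n) c3 (hCU3 n) (hek3 n))
    (fun n c => exists_psiOf_eq (S.U1 n) (S.e1 n) c1 (hCU1 n) (hek1 n) c)
    (fun n c => exists_psiOf_eq (S.U2 n) (S.e2 n) c2 (hCU2 n) (hek2 n) c)
    (fun n c => exists_psiOf_eq (S.U3 n) (S.e3 n) c3 (hCU3 n) (hek3 n) c)
    vert
    (fun p hp => by
      obtain ⟨i, hi⟩ := hvert p hp
      rw [hi]
      exact hW i)
    hclass hU3

end Consumer

end Fermat.Agent.GL.TypeIIIOfSetup
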