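import Fermat.Agent.GL.Fibre.TypeIIIOfSetup

/-!
# GATE-L / `hIII` from a `TripleSetup`: no character input, series form (helper29)

Two consumer forms of `TypeIIIOfSetup.hIII_of_setup`.

* **`hIII_of_setup_chi`** : the branch characters `ψ_i n` are NOT an input: `c_i (C) ⊆ S.U_i n`
  follows from `S.hB_i` and the old lifts, and `S.e_i n ∘ c_i` is `k`-linear as soon as the lifts
  `b_a ∈ Bf` of the constants `a : k` satisfy `S.χ n b_a = a` (`hconst`).  Works for every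
  construction of `S` (route (α) `locVal`, route (β) Chevalley extensions, route (γ) `ptVal`).
* **`hIII_of_setup_series`** : the residue fields `k_i` of `S` are compared with ambient fields
  `Λ_i` (`LaurentSeries k`) through `θ_i : k_i →+* Λ_i`; the chart ring `C` is embedded in `Λ_i` by
  `c_i' : C →+* Λ_i` (`cVal`, `cVal`, `cVal3`); all concrete hypotheses are statements in `Λ_i`
  about `θ_i ∘ S.rd_i` (= the reductions `rdK_i` of `OldTriplesK0`).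
-/

set_option autoImplicit false

namespace Fermat.Agent.GL.TypeIIIOfSetup

open Fermat.Agent.GK.FrobGlue Fermat.Agent.GL.FrobGlue3 Fermat.Agent.GL.LocToCech
  Fermat.Agent.GL.LocGlue Fermat.Agent.GL.CompBranch Fermat.Agent.GL.H4OfXi
  Fermat.Agent.GL.Frame.HeightOne

section Chi

variable {F E k k1 k2 k3 k1' k2' T T' : Type*} [Field F] [Field E] [Field k]
  [Field k1] [Field k2] [Field k3] [Field k1'] [Field k2']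
  {Bf : Subring F} [IsFractionRing Bf F] [IsNoetherianRing Bf] [IsIntegrallyClosed Bf]
  (S : TripleSetup F E k k1 k2 k3 k1' k2' Bf T T')
  {C : Type*} [CommRing C] [Algebra k C] (Ψ : C →ₐ[k] C)
  (c1 : C →+* k1) (c2 : C →+* k2) (c3 : C →+* k3)
  (hc1 : Function.Injective c1) (hc2 : Function.Injective c2) (hc3 : Function.Injective c3)

omit [IsFractionRing Bf F] [IsNoetherianRing Bf] [IsIntegrallyClosed Bf] in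
/-- the reduction of an element of the chart ring lies in the branch valuation ring, with the
residue character as value (first component). -/
theorem rd1_mem_U1 (n : T) (b : Bf) (h : (b : F) ∈ S.W1) :
    ∃ hU : S.rd1 ⟨b, h⟩ ∈ S.U1 n, S.e1 n ⟨S.rd1 ⟨b, h⟩, hU⟩ = S.χ n b := by
  obtain ⟨hz, hU⟩ := (mem_comp S.W1 S.rd1 S.hr1 (S.U1 n)).1 (S.hB1 n b)
  refine ⟨hU, ?_⟩
  rw [← S.hχ1 n b]
  exact (branch_ev S.W1 S.rd1 S.hr1 (S.U1 n) (S.e1 n) hz hU).symm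

omit [IsFractionRing Bf F] [IsNoetherianRing Bf] [IsIntegrallyClosed Bf] in
theorem rd2_mem_U2 (n : T) (b : Bf) (h : (b : F) ∈ S.W2) :
    ∃ hU : S.rd2 ⟨b, h⟩ ∈ S.U2 n, S.e2 n ⟨S.rd2 ⟨b, h⟩, hU⟩ = S.χ n b := by
  obtain ⟨hz, hU⟩ := (mem_comp S.W2 S.rd2 S.hr2 (S.U2 n)).1 (S.hB2 n b)
  refine ⟨hU, ?_⟩
  rw [← S.hχ2 n b]
  exact (branch_ev S.W2 S.rd2 S.hr2 (S.U2 n) (S.e2 n) hz hU).symm

omit [IsFractionRing Bf F] [IsNoetherianRing Bf] [IsIntegrallyClosed Bf] in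
theorem rd3_mem_U3 (n : T) (b : Bf) (h : (b : F) ∈ S.W3) :
    ∃ hU : S.rd3 ⟨b, h⟩ ∈ S.U3 n, S.e3 n ⟨S.rd3 ⟨b, h⟩, hU⟩ = S.χ n b := by
  obtain ⟨hz, hU⟩ := (mem_comp S.W3 S.rd3 S.hr3 (S.U3 n)).1 (S.hB3 n b)
  refine ⟨hU, ?_⟩
  rw [← S.hχ3 n b]
  exact (branch_ev S.W3 S.rd3 S.hr3 (S.U3 n) (S.e3 n) hz hU).symm

include hc1 hc2 hc3 in
/-- **`hIII` with no character input.**  `hconst` : the constants `a : k` lift to `b ∈ Bf` with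
`S.χ n b = a` at every triple point and reductions `c_i a`. -/
theorem hIII_of_setup_chi
    [IsAlgClosed k] [Algebra.FiniteType k C] [Module.Finite k (C ⧸ fixIdeal Ψ ^ 2)]
    (hB1 : ∀ (b : Bf) (h : (b : F) ∈ S.W1), S.rd1 ⟨b, h⟩ ∈ c1.range)
    (hB2 : ∀ (b : Bf) (h : (b : F) ∈ S.W2), S.rd2 ⟨b, h⟩ ∈ c2.range)
    (hB3 : ∀ (b : Bf) (h : (b : F) ∈ S.W3), S.rd3 ⟨b, h⟩ ∈ c3.range)
    (hold0 : ∀ c : C, ∃ (b : Bf) (h1 : (b : F) ∈ S.W1) (h2 : (b : F) ∈ S.W2)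
      (h3 : (b : F) ∈ S.W3), S.rd1 ⟨b, h1⟩ = c1 c ∧ S.rd2 ⟨b, h2⟩ = c2 (Ψ (Ψ c)) ∧
        S.rd3 ⟨b, h3⟩ = c3 c)
    (hold1 : ∀ c : C, ∃ (b : Bf) (h1 : (b : F) ∈ S.W1) (h2 : (b : F) ∈ S.W2)
      (h3 : (b : F) ∈ S.W3), S.rd1 ⟨b, h1⟩ = c1 (Ψ c) ∧ S.rd2 ⟨b, h2⟩ = c2 (Ψ c) ∧
        S.rd3 ⟨b, h3⟩ = c3 (Ψ c))
    (hold2 : ∀ c : C, ∃ (b : Bf) (h1 : (b : F) ∈ S.W1) (h2 : (b : F) ∈ S.W2)
      (h3 : (b : F) ∈ S.W3), S.rd1 ⟨b, h1⟩ = c1 (Ψ (Ψ c)) ∧ S.rd2 ⟨b, h2⟩ = c2 c ∧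
        S.rd3 ⟨b, h3⟩ = c3 c)
    (hconst : ∀ a : k, ∃ (b : Bf) (h1 : (b : F) ∈ S.W1) (h2 : (b : F) ∈ S.W2)
      (h3 : (b : F) ∈ S.W3), (∀ n, S.χ n b = a) ∧ S.rd1 ⟨b, h1⟩ = c1 (algebraMap k C a) ∧
        S.rd2 ⟨b, h2⟩ = c2 (algebraMap k C a) ∧ S.rd3 ⟨b, h3⟩ = c3 (algebraMap k C a))
    {m : ℕ} (hm : (m : k) ≠ 0)
    (hroot1 : ∀ z : S.W1, S.rd1 z ^ m ∈ c1.range → S.rd1 z ∈ c1.range)
    (hroot2 : ∀ z : S.W2, S.rd2 z ^ m ∈ c2.range → S.rd2 z ∈ c2.range)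
    (hroot3 : ∀ z : S.W3, S.rd3 z ^ m ∈ c3.range → S.rd3 z ∈ c3.range)
    (vert : Finset (HtOne Bf)) {ι : Type*} (W : ι → ValuationSubring F)
    (hW : ∀ i, W i = S.W1 ∨ W i = S.W2 ∨ W i = S.W3)
    (hvert : ∀ p ∈ vert, ∃ i, V1 F p = W i)
    (hclass : ∀ 𝔫 : Ideal Bf, 𝔫.IsMaximal → ∀ i ∈ vert, ∀ j ∈ vert, i ≠ j → i.1 ≤ 𝔫 → j.1 ≤ 𝔫 →
      ∃ n : T, 𝔫 = S.P n)
    {u : F} (hU3 : U3 S m u) :
    ∀ 𝔫 : Ideal Bf, 𝔫.IsMaximal → ∀ i ∈ vert, ∀ j ∈ vert, i ≠ j → i.1 ≤ 𝔫 → j.1 ≤ 𝔫 →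
      ∃ g ∈ (⊤ : Subring F), g ^ m * u ∈ Bf ∧ LocAt (V1 (B := Bf) F) Bf ⊤ vert 𝔫 g := by
  have hCU1 : ∀ n (c : C), c1 c ∈ S.U1 n := by
    intro n c
    obtain ⟨b, h1, -, -, e1, -, -⟩ := hold0 c
    obtain ⟨hU, -⟩ := rd1_mem_U1 S n b h1
    rwa [e1] at hU
  have hCU2 : ∀ n (c : C), c2 c ∈ S.U2 n := by
    intro n c
    obtain ⟨b, -, h2, -, -, e2, -⟩ := hold2 c
    obtain ⟨hU, -⟩ := rd2_mem_U2 S n b h2
    rwa [e2] at hU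
  have hCU3 : ∀ n (c : C), c3 c ∈ S.U3 n := by
    intro n c
    obtain ⟨b, -, -, h3, -, -, e3⟩ := hold0 c
    obtain ⟨hU, -⟩ := rd3_mem_U3 S n b h3
    rwa [e3] at hU
  have hek1 : ∀ n (a : k), S.e1 n ⟨c1 (algebraMap k C a), hCU1 n _⟩ = a := by
    intro n a
    obtain ⟨b, h1, -, -, hχ, e1, -, -⟩ := hconst a
    obtain ⟨hU, he⟩ := rd1_mem_U1 S n b h1
    exact (eval_congr (S.U1 n) (S.e1 n) e1.symm (hCU1 n _) hU).trans (he.trans (hχ n))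
  have hek2 : ∀ n (a : k), S.e2 n ⟨c2 (algebraMap k C a), hCU2 n _⟩ = a := by
    intro n a
    obtain ⟨b, -, h2, -, hχ, -, e2, -⟩ := hconst a
    obtain ⟨hU, he⟩ := rd2_mem_U2 S n b h2
    exact (eval_congr (S.U2 n) (S.e2 n) e2.symm (hCU2 n _) hU).trans (he.trans (hχ n))
  have hek3 : ∀ n (a : k), S.e3 n ⟨c3 (algebraMap k C a), hCU3 n _⟩ = a := by
    intro n a
    obtain ⟨b, -, -, h3, hχ, -, -, e3⟩ := hconst a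
    obtain ⟨hU, he⟩ := rd3_mem_U3 S n b h3
    exact (eval_congr (S.U3 n) (S.e3 n) e3.symm (hCU3 n _) hU).trans (he.trans (hχ n))
  refine hIII_of_setup' S Ψ c1 c2 c3 hc1 hc2 hc3 hB1 hB2 hB3 hold0 hold1 hold2 ?_ hm
    hroot1 hroot2 hroot3 hCU1 hCU2 hCU3 hek1 hek2 hek3 vert W hW hvert hclass hU3
  intro a
  obtain ⟨b, h1, h2, h3, -, e1, e2, e3⟩ := hconst a
  exact ⟨b, h1, h2, h3, e1, e2, e3⟩

end Chi

/-! ### series form -/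

section Lift

variable {C κ Λ : Type*} [CommRing C] [Field κ] [Field Λ] (θ : κ →+* Λ) (c' : C →+* Λ)
  (h : ∀ x : C, c' x ∈ θ.range)

/-- the factorisation of `c' : C →+* Λ` through the field embedding `θ : κ →+* Λ`. -/
noncomputable def liftHom : C →+* κ :=
  ((RegRedRing.rangeEquiv θ θ.injective).symm : θ.range →+* κ).comp (c'.codRestrict θ.range h)

theorem theta_liftHom (x : C) : θ (liftHom θ c' h x) = c' x :=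
  RegRedRing.coe_rangeEquiv_symm θ θ.injective _

theorem liftHom_injective (hc' : Function.Injective c') : Function.Injective (liftHom θ c' h) := by
  intro x y hxy
  apply hc'
  rw [← theta_liftHom θ c' h x, ← theta_liftHom θ c' h y, hxy]

theorem eq_liftHom_of_theta_eq {y : κ} {x : C} (e : θ y = c' x) : y = liftHom θ c' h x := by
  apply θ.injective
  rw [theta_liftHom, e]

theorem mem_range_liftHom_iff (y : κ) : y ∈ (liftHom θ c' h).range ↔ θ y ∈ c'.range := by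
  constructor
  · rintro ⟨x, rfl⟩
    exact ⟨x, (theta_liftHom θ c' h x).symm⟩
  · rintro ⟨x, hx⟩
    exact ⟨x, (eq_liftHom_of_theta_eq θ c' h hx.symm).symm⟩

end Lift

section Series

variable {F E k k1 k2 k3 k1' k2' T T' : Type*} [Field F] [Field E] [Field k]
  [Field k1] [Field k2] [Field k3] [Field k1'] [Field k2']
  {Bf : Subring F} [IsFractionRing Bf F] [IsNoetherianRing Bf] [IsIntegrallyClosed Bf]
  (S : TripleSetup F E k k1 k2 k3 k1' k2' Bf T T')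
  {C : Type*} [CommRing C] [Algebra k C] (Ψ : C →ₐ[k] C)
  {Λ1 Λ2 Λ3 : Type*} [Field Λ1] [Field Λ2] [Field Λ3]
  (θ1 : k1 →+* Λ1) (θ2 : k2 →+* Λ2) (θ3 : k3 →+* Λ3)
  (c1' : C →+* Λ1) (c2' : C →+* Λ2) (c3' : C →+* Λ3)
  (hc1' : Function.Injective c1') (hc2' : Function.Injective c2')
  (hc3' : Function.Injective c3')

include hc1' hc2' hc3' in
/-- **`hIII`, series form**: every concrete hypothesis is a statement in the ambient fields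
`Λ_i` about `θ_i ∘ S.rd_i` and the embeddings `c_i' : C →+* Λ_i`. -/
theorem hIII_of_setup_series
    [IsAlgClosed k] [Algebra.FiniteType k C] [Module.Finite k (C ⧸ fixIdeal Ψ ^ 2)]
    (hB1 : ∀ (b : Bf) (h : (b : F) ∈ S.W1), θ1 (S.rd1 ⟨b, h⟩) ∈ c1'.range)
    (hB2 : ∀ (b : Bf) (h : (b : F) ∈ S.W2), θ2 (S.rd2 ⟨b, h⟩) ∈ c2'.range)
    (hB3 : ∀ (b : Bf) (h : (b : F) ∈ S.W3), θ3 (S.rd3 ⟨b, h⟩) ∈ c3'.range)
    (hold0 : ∀ c : C, ∃ (b : Bf) (h1 : (b : F) ∈ S.W1) (h2 : (b : F) ∈ S.W2)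
      (h3 : (b : F) ∈ S.W3), θ1 (S.rd1 ⟨b, h1⟩) = c1' c ∧
        θ2 (S.rd2 ⟨b, h2⟩) = c2' (Ψ (Ψ c)) ∧ θ3 (S.rd3 ⟨b, h3⟩) = c3' c)
    (hold1 : ∀ c : C, ∃ (b : Bf) (h1 : (b : F) ∈ S.W1) (h2 : (b : F) ∈ S.W2)
      (h3 : (b : F) ∈ S.W3), θ1 (S.rd1 ⟨b, h1⟩) = c1' (Ψ c) ∧
        θ2 (S.rd2 ⟨b, h2⟩) = c2' (Ψ c) ∧ θ3 (S.rd3 ⟨b, h3⟩) = c3' (Ψ c))
    (hold2 : ∀ c : C, ∃ (b : Bf) (h1 : (b : F) ∈ S.W1) (h2 : (b : F) ∈ S.W2)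
      (h3 : (b : F) ∈ S.W3), θ1 (S.rd1 ⟨b, h1⟩) = c1' (Ψ (Ψ c)) ∧
        θ2 (S.rd2 ⟨b, h2⟩) = c2' c ∧ θ3 (S.rd3 ⟨b, h3⟩) = c3' c)
    (hconst : ∀ a : k, ∃ (b : Bf) (h1 : (b : F) ∈ S.W1) (h2 : (b : F) ∈ S.W2)
      (h3 : (b : F) ∈ S.W3), (∀ n, S.χ n b = a) ∧
        θ1 (S.rd1 ⟨b, h1⟩) = c1' (algebraMap k C a) ∧
        θ2 (S.rd2 ⟨b, h2⟩) = c2' (algebraMap k C a) ∧
        θ3 (S.rd3 ⟨b, h3⟩) = c3' (algebraMap k C a))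
    {m : ℕ} (hm : (m : k) ≠ 0)
    (hroot1 : ∀ z : S.W1, θ1 (S.rd1 z) ^ m ∈ c1'.range → θ1 (S.rd1 z) ∈ c1'.range)
    (hroot2 : ∀ z : S.W2, θ2 (S.rd2 z) ^ m ∈ c2'.range → θ2 (S.rd2 z) ∈ c2'.range)
    (hroot3 : ∀ z : S.W3, θ3 (S.rd3 z) ^ m ∈ c3'.range → θ3 (S.rd3 z) ∈ c3'.range)
    (vert : Finset (HtOne Bf)) {ι : Type*} (W : ι → ValuationSubring F)
    (hW : ∀ i, W i = S.W1 ∨ W i = S.W2 ∨ W i = S.W3)
    (hvert : ∀ p ∈ vert, ∃ i, V1 F p = W i)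
    (hclass : ∀ 𝔫 : Ideal Bf, 𝔫.IsMaximal → ∀ i ∈ vert, ∀ j ∈ vert, i ≠ j → i.1 ≤ 𝔫 → j.1 ≤ 𝔫 →
      ∃ n : T, 𝔫 = S.P n)
    {u : F} (hU3 : U3 S m u) :
    ∀ 𝔫 : Ideal Bf, 𝔫.IsMaximal → ∀ i ∈ vert, ∀ j ∈ vert, i ≠ j → i.1 ≤ 𝔫 → j.1 ≤ 𝔫 →
      ∃ g ∈ (⊤ : Subring F), g ^ m * u ∈ Bf ∧ LocAt (V1 (B := Bf) F) Bf ⊤ vert 𝔫 g := by
  have hr1 : ∀ x : C, c1' x ∈ θ1.range := by
    intro x
    obtain ⟨b, h1, -, -, e1, -, -⟩ := hold0 x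
    exact ⟨_, e1⟩
  have hr2 : ∀ x : C, c2' x ∈ θ2.range := by
    intro x
    obtain ⟨b, -, h2, -, -, e2, -⟩ := hold2 x
    exact ⟨_, e2⟩
  have hr3 : ∀ x : C, c3' x ∈ θ3.range := by
    intro x
    obtain ⟨b, -, -, h3, -, -, e3⟩ := hold0 x
    exact ⟨_, e3⟩
  refine hIII_of_setup_chi S Ψ (liftHom θ1 c1' hr1) (liftHom θ2 c2' hr2) (liftHom θ3 c3' hr3)
    (liftHom_injective θ1 c1' hr1 hc1') (liftHom_injective θ2 c2' hr2 hc2')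
    (liftHom_injective θ3 c3' hr3 hc3')
    (fun b h => (mem_range_liftHom_iff θ1 c1' hr1 _).2 (hB1 b h))
    (fun b h => (mem_range_liftHom_iff θ2 c2' hr2 _).2 (hB2 b h))
    (fun b h => (mem_range_liftHom_iff θ3 c3' hr3 _).2 (hB3 b h))
    ?_ ?_ ?_ ?_ hm ?_ ?_ ?_ vert W hW hvert hclass hU3
  · intro c
    obtain ⟨b, h1, h2, h3, e1, e2, e3⟩ := hold0 c
    exact ⟨b, h1, h2, h3, eq_liftHom_of_theta_eq θ1 c1' hr1 e1,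
      eq_liftHom_of_theta_eq θ2 c2' hr2 e2, eq_liftHom_of_theta_eq θ3 c3' hr3 e3⟩
  · intro c
    obtain ⟨b, h1, h2, h3, e1, e2, e3⟩ := hold1 c
    exact ⟨b, h1, h2, h3, eq_liftHom_of_theta_eq θ1 c1' hr1 e1,
      eq_liftHom_of_theta_eq θ2 c2' hr2 e2, eq_liftHom_of_theta_eq θ3 c3' hr3 e3⟩
  · intro c
    obtain ⟨b, h1, h2, h3, e1, e2, e3⟩ := hold2 c
    exact ⟨b, h1, h2, h3, eq_liftHom_of_theta_eq θ1 c1' hr1 e1,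
      eq_liftHom_of_theta_eq θ2 c2' hr2 e2, eq_liftHom_of_theta_eq θ3 c3' hr3 e3⟩
  · intro a
    obtain ⟨b, h1, h2, h3, hχ, e1, e2, e3⟩ := hconst a
    exact ⟨b, h1, h2, h3, hχ, eq_liftHom_of_theta_eq θ1 c1' hr1 e1,
      eq_liftHom_of_theta_eq θ2 c2' hr2 e2, eq_liftHom_of_theta_eq θ3 c3' hr3 e3⟩
  · intro z hz
    rw [mem_range_liftHom_iff] at hz ⊢
    rw [map_pow] at hz
    exact hroot1 z hz
  · intro z hz
    rw [mem_range_liftHom_iff] at hz ⊢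
    rw [map_pow] at hz
    exact hroot2 z hz
  · intro z hz
    rw [mem_range_liftHom_iff] at hz ⊢
    rw [map_pow] at hz
    exact hroot3 z hz

end Series

end Fermat.Agent.GL.TypeIIIOfSetup
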