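import Fermat.Agent.GL.Fibre.TypeIIIOfSetupChi

/-!
# GATE-L / `hIII` from a `TripleSetup` whose field of values is only ISOMORPHIC to the field of
constants of the chart ring `C` (helper29)

The concrete `S` over `K₀` takes its evaluations in `k₀ = ResidueField (R0 A)`, while
`C = CRing M' A` is an algebra over `kA = ResidueField A`; `σ : k₀ ≃+* kA` (`resEquivK0`).

* `restrictAlg σ` : the `k`-algebra structure on a `k'`-algebra `C` along `σ : k ≃+* k'`, with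
  the transports `finiteType_restrict`, `finite_quotient_restrict`,
  `restrictHom`;
* **`hIII_of_setup_series_equiv`** : `hIII_of_setup_series` with `[Algebra k' C]`,
  `Ψ : C →ₐ[k'] C`, the three instances over `k'`, and the constants read through `σ`.
-/

set_option autoImplicit false
set_option linter.style.haveILetI false

namespace Fermat.Agent.GL.TypeIIIOfSetup

open Fermat.Agent.GK.FrobGlue Fermat.Agent.GL.FrobGlue3 Fermat.Agent.GL.LocToCech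
  Fermat.Agent.GL.LocGlue Fermat.Agent.GL.CompBranch Fermat.Agent.GL.H4OfXi
  Fermat.Agent.GL.Frame.HeightOne

section Restrict

variable {k k' C : Type*} [Field k] [Field k'] [CommRing C] [Algebra k' C] (σ : k ≃+* k')

/-- the `k`-algebra structure on `C` along `σ : k ≃+* k'`. -/
@[reducible] def restrictAlg : Algebra k C := ((algebraMap k' C).comp σ.toRingHom).toAlgebra

/-- an algebra endomorphism over `k'` is one over `k`. -/
def restrictHom (Ψ : C →ₐ[k'] C) : @AlgHom k C C _ _ _ (restrictAlg σ) (restrictAlg σ) :=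
  letI := restrictAlg (C := C) σ
  { Ψ.toRingHom with commutes' := fun a => Ψ.commutes (σ a) }

theorem restrictHom_apply (Ψ : C →ₐ[k'] C) (x : C) :
    letI := restrictAlg (C := C) σ
    restrictHom σ Ψ x = Ψ x := rfl

theorem finiteType_restrict [Algebra.FiniteType k' C] :
    @Algebra.FiniteType k C _ _ (restrictAlg σ) := by
  letI := restrictAlg (C := C) σ
  letI : Algebra k k' := σ.toRingHom.toAlgebra
  haveI : IsScalarTower k k' C := IsScalarTower.of_algebraMap_eq fun _ => rfl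
  have h1 : Algebra.FiniteType k k' :=
    Algebra.FiniteType.of_surjective (Algebra.ofId k k') (fun y => ⟨σ.symm y, σ.apply_symm_apply y⟩)
  exact Algebra.FiniteType.trans h1 inferInstance

theorem finite_quotient_restrict (I : Ideal C) [Module.Finite k' (C ⧸ I)] :
    letI := restrictAlg (C := C) σ
    Module.Finite k (C ⧸ I) := by
  letI := restrictAlg (C := C) σ
  letI : Algebra k k' := σ.toRingHom.toAlgebra
  haveI : IsScalarTower k k' C := IsScalarTower.of_algebraMap_eq fun _ => rfl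
  haveI : IsScalarTower k k' (C ⧸ I) := IsScalarTower.of_algebraMap_eq fun _ => rfl
  haveI : Module.Finite k k' :=
    Module.Finite.of_surjective (Algebra.linearMap k k')
      (fun y => ⟨σ.symm y, σ.apply_symm_apply y⟩)
  exact Module.Finite.trans k' (C ⧸ I)

end Restrict

section Series

variable {F E k k1 k2 k3 k1' k2' T T' : Type*} [Field F] [Field E] [Field k]
  [Field k1] [Field k2] [Field k3] [Field k1'] [Field k2']
  {Bf : Subring F} [IsFractionRing Bf F] [IsNoetherianRing Bf] [IsIntegrallyClosed Bf]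
  (S : TripleSetup F E k k1 k2 k3 k1' k2' Bf T T')
  {k' : Type*} [Field k'] (σ : k ≃+* k')
  {C : Type*} [CommRing C] [Algebra k' C] (Ψ : C →ₐ[k'] C)
  {Λ1 Λ2 Λ3 : Type*} [Field Λ1] [Field Λ2] [Field Λ3]
  (θ1 : k1 →+* Λ1) (θ2 : k2 →+* Λ2) (θ3 : k3 →+* Λ3)
  (c1' : C →+* Λ1) (c2' : C →+* Λ2) (c3' : C →+* Λ3)
  (hc1' : Function.Injective c1') (hc2' : Function.Injective c2')
  (hc3' : Function.Injective c3')

include hc1' hc2' hc3' in
/-- **`hIII`, series form, field of values of `S` isomorphic to the constants of `C`.** -/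
theorem hIII_of_setup_series_equiv
    [IsAlgClosed k] [Algebra.FiniteType k' C] [Module.Finite k' (C ⧸ fixIdeal Ψ ^ 2)]
    (hB1 : ∀ (b : Bf) (h : (b : F) ∈ S.W1), θ1 (S.rd1 ⟨b, h⟩) ∈ c1'.range)
    (hB2 : ∀ (b : Bf) (h : (b : F) ∈ S.W2), θ2 (S.rd2 ⟨b, h⟩) ∈ c2'.range)
    (hB3 : ∀ (b : Bf) (h : (b : F) ∈ S.W3), θ3 (S.rd3 ⟨b, h⟩) ∈ c3'.range)
    (hold0 : ∀ c : C, ∃ (b : Bf) (h1 : (b : F) ∈ S.W1) (h2 : (b : F) ∈ S.W2)
      (h3 : (b : F) ∈ S.W3), θ1 (S.rd1 ⟨b, h1⟩) = c1' c ∧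
        θ2 (S.rd2 ⟨b, h2⟩) = c2' (Ψ (Ψ c)) ∧ θ3 (S.rd3 ⟨b, h3⟩) = c3' c)
    (hold1 : ∀ c : C, ∃ (b : Bf) (h1 : (b : F) ∈ S.W1) (h2 : (b : F) ∈ S.W2)
      (h3 : (b : F) ∈ S.W3), θ1 (S.rd1 ⟨b, h1⟩) = c1' (Ψ c) ∧
        θ2 (S.rd2 ⟨b, h2⟩) = c2' (Ψ c) ∧ θ3 (S.rd3 ⟨b, h3⟩) = c3' (Ψ c))
    (hold2 : ∀ c : C, ∃ (b : Bf) (h1 : (b : F) ∈ S.W1) (h2 : (b : F) ∈ S.W2)
      (h3 : (b : F) ∈ S.W3), θ1 (S.rd1 ⟨b, h1⟩) = c1' (Ψ (Ψ c)) ∧
        θ2 (S.rd2 ⟨b, h2⟩) = c2' c ∧ θ3 (S.rd3 ⟨b, h3⟩) = c3' c)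
    (hconst : ∀ a : k, ∃ (b : Bf) (h1 : (b : F) ∈ S.W1) (h2 : (b : F) ∈ S.W2)
      (h3 : (b : F) ∈ S.W3), (∀ n, S.χ n b = a) ∧
        θ1 (S.rd1 ⟨b, h1⟩) = c1' (algebraMap k' C (σ a)) ∧
        θ2 (S.rd2 ⟨b, h2⟩) = c2' (algebraMap k' C (σ a)) ∧
        θ3 (S.rd3 ⟨b, h3⟩) = c3' (algebraMap k' C (σ a)))
    {m : ℕ} (hm : (m : k) ≠ 0)
    (hroot1 : ∀ z : S.W1, θ1 (S.rd1 z) ^ m ∈ c1'.range → θ1 (S.rd1 z) ∈ c1'.range)
    (hroot2 : ∀ z : S.W2, θ2 (S.rd2 z) ^ m ∈ c2'.range → θ2 (S.rd2 z) ∈ c2'.range)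
    (hroot3 : ∀ z : S.W3, θ3 (S.rd3 z) ^ m ∈ c3'.range → θ3 (S.rd3 z) ∈ c3'.range)
    (vert : Finset (HtOne Bf)) {ι : Type*} (W : ι → ValuationSubring F)
    (hW : ∀ i, W i = S.W1 ∨ W i = S.W2 ∨ W i = S.W3)
    (hvert : ∀ p ∈ vert, ∃ i, V1 F p = W i)
    (hclass : ∀ 𝔫 : Ideal Bf, 𝔫.IsMaximal → ∀ i ∈ vert, ∀ j ∈ vert, i ≠ j → i.1 ≤ 𝔫 → j.1 ≤ 𝔫 →
      ∃ n : T, 𝔫 = S.P n)
    {u : F} (hU3 : U3 S m u) :
    ∀ 𝔫 : Ideal Bf, 𝔫.IsMaximal → ∀ i ∈ vert, ∀ j ∈ vert, i ≠ j → i.1 ≤ 𝔫 → j.1 ≤ 𝔫 →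
      ∃ g ∈ (⊤ : Subring F), g ^ m * u ∈ Bf ∧ LocAt (V1 (B := Bf) F) Bf ⊤ vert 𝔫 g := by
  letI := restrictAlg (C := C) σ
  haveI : Algebra.FiniteType k C := finiteType_restrict σ
  haveI : Module.Finite k (C ⧸ fixIdeal (restrictHom σ Ψ) ^ 2) :=
    finite_quotient_restrict σ (fixIdeal Ψ ^ 2)
  exact hIII_of_setup_series S (restrictHom σ Ψ) θ1 θ2 θ3 c1' c2' c3' hc1' hc2' hc3'
    hB1 hB2 hB3 hold0 hold1 hold2 hconst hm hroot1 hroot2 hroot3 vert W hW hvert hclass hU3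

end Series

end Fermat.Agent.GL.TypeIIIOfSetup
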